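/-
MLT / at p, Galois side (helper5): **abstract PEU for a Legendre model over `ℚ̄`**.

This is the Frey-free version of `Delta.dlp_leg_peu`.  There the curve is a Legendre curve over
`ℚ` and the Galois group acts on its points coordinatewise.  Here `Pt` is an abstract group of
points with an action of `G_ℚ` (in the applications `Pt = (E⁄ℚ̄).Point` for an arbitrary Weierstrass
curve `E` over `ℚ`), `φ : Pt ≃+ L(ℚ̄)` is a group isomorphism onto the points of a Legendre curve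
`L : y² = x³ + a x² + b x` over `ℚ̄` with integral coefficients at the place `𝔓`, and the
coordinatewise nature of the action is only assumed
* for the elements of the inertia group fixing `ζ_p` (hypothesis `hG`),
* in the weak forms `hE₁` (inertia preserves the kernel of reduction) and `hP1` (inertia moves
  `p`-torsion points by elements of the kernel of reduction).
Given a `p`-torsion point `T` outside the kernel of reduction with `ord x(T) = ord y(T) = n ∈ ℤ`,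
`0 ≤ n ≤ ord b`, the conclusion is the *peu ramifiée* structure of `Delta.DlpPeu`.
-/
import Mathlib
import Fermat.Agent.Lib.Delta.Peu.Leg

set_option autoImplicit false
set_option linter.unusedSectionVars false
set_option linter.unusedVariables false
set_option linter.style.haveILetI false

open WeierstrassCurve WeierstrassCurve.Affine

namespace Fermat.Agent.MLT

open Fermat.Agent.S05Lib Fermat.Agent.S13Lib Fermat.Agent.TW Fermat.Agent.Delta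

local notation "Qb" => AlgebraicClosure ℚ
local notation "GQ" => (AlgebraicClosure ℚ ≃ₐ[ℚ] AlgebraicClosure ℚ)

section Abs

variable {Pt : Type*} [AddCommGroup Pt]

/-- the `p`-torsion subgroup of an abstract group of points -/
def mltpgTors (Pt : Type*) [AddCommGroup Pt] (p : ℕ) : AddSubgroup Pt where
  carrier := {T | p • T = 0}
  zero_mem' := nsmul_zero p
  add_mem' := fun {x y} hx hy => by
    show p • (x + y) = 0
    rw [nsmul_add, show p • x = 0 from hx, show p • y = 0 from hy, add_zero]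
  neg_mem' := fun {x} hx => by
    show p • (-x) = 0
    rw [neg_nsmul, show p • x = 0 from hx, neg_zero]

theorem mem_mltpgTors {p : ℕ} {T : Pt} : T ∈ mltpgTors Pt p ↔ p • T = 0 := Iff.rfl

variable [DistribMulAction GQ Pt]

/-- the Galois action preserves the torsion -/
theorem mltpg_smul_mem_tors {p : ℕ} (σ : GQ) {T : Pt} (hT : p • T = 0) : p • (σ • T) = 0 := by
  rw [smul_comm p σ T, hT, smul_zero]

variable (𝔓 : FFPlace) {L : WeierstrassCurve Qb} {a b : Qb}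

/-- the part of the `p`-torsion in the kernel of reduction -/
noncomputable def mltpgKer (hW : IsLeg L a b) (ha : 𝔓.v.Ge a 0) (hb : 𝔓.v.Ge b 0)
    (hp2 : 𝔓.p ≠ 2) (φ : Pt ≃+ L.toAffine.Point) : AddSubgroup Pt where
  carrier := {T | 𝔓.p • T = 0 ∧ ∃ τ : ℚ, 0 < τ ∧ InE 𝔓.v τ (φ T)}
  zero_mem' := ⟨nsmul_zero _, 1, one_pos, by rw [map_zero]; trivial⟩
  add_mem' := by
    rintro T T' ⟨h1, τ, hτ, i⟩ ⟨h1', τ', hτ', i'⟩
    refine ⟨by rw [nsmul_add, h1, h1', add_zero], min τ τ', lt_min hτ hτ', ?_⟩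
    rw [map_add]
    exact (inE_add_sub hW ha hb ((dlp_qvalFor 𝔓).is_two 𝔓.hp hp2) (lt_min hτ hτ')
      (i.mono (min_le_left _ _)) (i'.mono (min_le_right _ _))).1
  neg_mem' := by
    rintro T ⟨h1, τ, hτ, i⟩
    refine ⟨by rw [neg_nsmul, h1, neg_zero], τ, hτ, ?_⟩
    rw [map_neg]
    exact i.neg hW

set_option maxHeartbeats 1600000 in
/-- **abstract PEU for a Legendre model over `ℚ̄`** -/
theorem mltpg_leg_peu (hp2 : 𝔓.p ≠ 2) (hW : IsLeg L a b) (φ : Pt ≃+ L.toAffine.Point)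
    (hb0 : b ≠ 0) (hab : a ^ 2 - 4 * b ≠ 0) (hage : 𝔓.v.Ge a 0) (hbge : 𝔓.v.Ge b 0)
    (hcard : Nat.card (mltpgTors Pt 𝔓.p) = 𝔓.p ^ 2)
    (hE₁ : ∀ σ ∈ 𝔓.I, ∀ T : Pt, (∃ τ : ℚ, 0 < τ ∧ InE 𝔓.v τ (φ T)) →
      ∃ τ : ℚ, 0 < τ ∧ InE 𝔓.v τ (φ (σ • T)))
    (hP1 : ∀ σ ∈ 𝔓.I, ∀ x : Pt, 𝔓.p • x = 0 →
      ∃ τ : ℚ, 0 < τ ∧ InE 𝔓.v τ (φ (σ • x - x)))
    {ζ : Qb} (hζ : IsPrimitiveRoot ζ 𝔓.p)
    (hdet : ∀ σ ∈ 𝔓.I, ∀ (N : AddSubgroup Pt) (k : ℕ), Nat.card N = 𝔓.p →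
      N ≤ mltpgTors Pt 𝔓.p → (∀ l ∈ N, σ • l = k • l) →
      (∀ x : Pt, 𝔓.p • x = 0 → σ • x - x ∈ N) → σ ζ = ζ ^ k)
    (hG : ∀ σ ∈ 𝔓.I, σ ζ = ζ → ∀ P : Pt, xc (φ (σ • P)) = σ (xc (φ P)))
    (T : Pt) (hTtor : 𝔓.p • T = 0) {x₁ y₁ : Qb} (h₁ : L.toAffine.Nonsingular x₁ y₁)
    (hφT : φ T = Point.some x₁ y₁ h₁) {n : ℤ} (hn0 : 0 ≤ n) (hxT : 𝔓.v.Is x₁ n)
    (hy₁ : 𝔓.v.Is y₁ n) (hbn : 𝔓.v.Ge b n) :
    ∃ (L₁ : AddSubgroup Pt) (u w : Qb),
      Nat.card L₁ = 𝔓.p ∧ (∀ l ∈ L₁, 𝔓.p • l = 0) ∧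
      (∀ σ ∈ 𝔓.I, ∀ x : Pt, 𝔓.p • x = 0 → σ • x - x ∈ L₁) ∧
      (∀ σ ∈ 𝔓.I, ∀ k : ℕ, σ ζ = ζ ^ k → ∀ l ∈ L₁, σ • l = k • l) ∧
      𝔓.v.Is u 0 ∧ (∀ σ ∈ 𝔓.I, σ ζ = ζ → σ u = u) ∧ w ^ 𝔓.p = u ∧
      (∀ σ ∈ 𝔓.I, σ ζ = ζ → σ w = w → ∀ x : Pt, 𝔓.p • x = 0 → σ • x = x) := by
  classical
  have hp := 𝔓.hp
  haveI : Fact 𝔓.p.Prime := ⟨hp⟩
  have hv := dlp_qvalFor 𝔓
  have h2 := hv.is_two hp hp2
  have hp1 : 𝔓.v.Is ((𝔓.p : ℕ) : Qb) 1 := 𝔓.is_p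
  have hpodd : Odd 𝔓.p := hp.odd_of_ne_two hp2
  have hp3 : 3 ≤ 𝔓.p := by
    have := hp.two_le
    omega
  have hppos : (0 : ℚ) < 𝔓.p := by exact_mod_cast hp.pos
  set V := mltpgTors Pt 𝔓.p with hVdef
  set V₁ := mltpgKer 𝔓 hW hage hbge hp2 φ with hV₁def
  have hV₁le : V₁ ≤ V := fun T hT => hT.1
  have hVfin : Finite V := Nat.finite_of_card_ne_zero (by rw [hcard]; exact pow_ne_zero 2 hp.ne_zero)
  have hfin : {Q : L.toAffine.Point | 𝔓.p • Q = 0}.Finite := by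
    refine Set.Finite.subset ((Set.toFinite (V : Set Pt)).image φ) ?_
    intro Q hQ
    refine ⟨φ.symm Q, ?_, φ.apply_symm_apply Q⟩
    show 𝔓.p • φ.symm Q = 0
    rw [← map_nsmul, show 𝔓.p • Q = 0 from hQ, map_zero]
  set Vp : Finset L.toAffine.Point := hfin.toFinset with hVpdef
  have hVp : ∀ Q, Q ∈ Vp ↔ 𝔓.p • Q = 0 := fun Q => by
    rw [hVpdef, Set.Finite.mem_toFinset]; rfl
  have hT0 : T ≠ 0 := by
    rintro rfl
    rw [map_zero] at hφT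
    exact Point.some_ne_zero h₁ hφT.symm
  have hα0 : (0 : ℚ) ≤ n := by exact_mod_cast hn0
  have hTV₁ : T ∉ V₁ := by
    rintro ⟨-, τ, hτ, i⟩
    rw [hφT] at i
    have hle : 𝔓.v.Le x₁ (-τ) := i
    have := hle.2
    rw [hxT.2] at this
    linarith
  have hV₁top : V₁ ≠ V := fun h => hTV₁ (h ▸ hTtor)
  -- (i)
  have hi : ∀ σ ∈ 𝔓.I, ∀ x : Pt, 𝔓.p • x = 0 → σ • x - x ∈ V₁ := by
    intro σ hσ x hx
    obtain ⟨τ, hτ, i⟩ := hP1 σ hσ x hx
    exact ⟨by rw [nsmul_sub, mltpg_smul_mem_tors σ hx, hx, sub_zero], τ, hτ, i⟩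
  -- `V₁ ≠ ⊥`
  have hV₁bot : V₁ ≠ ⊥ := by
    intro hbot
    obtain ⟨σ, hσ, hσζ⟩ := dlp_exists_inertia_moving_zeta 𝔓 hp2 hζ
    apply hσζ
    have hfix : ∀ x : Pt, 𝔓.p • x = 0 → σ • x = x := by
      intro x hx
      have := hi σ hσ x hx
      rw [hbot, AddSubgroup.mem_bot] at this
      exact sub_eq_zero.mp this
    have hord : addOrderOf T = 𝔓.p := addOrderOf_eq_prime hTtor hT0
    have hle : AddSubgroup.zmultiples T ≤ V := by
      rw [AddSubgroup.zmultiples_le]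
      exact hTtor
    have hN := hdet σ hσ (AddSubgroup.zmultiples T) 1 (by rw [Nat.card_zmultiples, hord]) hle
      (fun l hl => by rw [one_smul]; exact hfix l (hle hl))
      (fun x hx => by rw [hfix x hx, sub_self]; exact (AddSubgroup.zmultiples T).zero_mem)
    rwa [pow_one] at hN
  have hV₁card : Nat.card V₁ = 𝔓.p := dlp_card_of_ne_bot_ne_top hp hcard hV₁le hV₁bot hV₁top
  -- a generator of `V₁`
  obtain ⟨Z, hZV₁, hZ0⟩ : ∃ Z ∈ V₁, Z ≠ 0 := by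
    obtain ⟨⟨Z, hZ⟩, hZ0⟩ := AddSubgroup.ne_bot_iff_exists_ne_zero.mp hV₁bot
    exact ⟨Z, hZ, fun h => hZ0 (Subtype.ext h)⟩
  have hZtor : 𝔓.p • Z = 0 := hZV₁.1
  obtain ⟨τZ, hτZ, iZ⟩ := hZV₁.2
  have hφZ0 : φ Z ≠ 0 := fun h => hZ0 (by rwa [map_eq_zero_iff φ φ.injective] at h)
  have hZle := le_of_inE iZ hφZ0
  set δ : ℚ := -(𝔓.v.ord (xc (φ Z))) / 2 with hδ
  have hδpos : 0 < δ := by
    have := hZle.2
    rw [hδ]; linarith
  have hZis : 𝔓.v.Is (xc (φ Z)) (-(2 * δ)) := ⟨hZle.1, by rw [hδ]; ring⟩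
  have hmul : ∀ i : ℕ, ¬ 𝔓.p ∣ i → 𝔓.v.Is (xc (φ (i • Z))) (-(2 * δ)) := by
    intro i hi
    have hiu : 𝔓.v.Is ((i : ℕ) : Qb) 0 := by
      have := hv.is_int (n := (i : ℤ)) (by exact_mod_cast hi)
      exact_mod_cast this
    have := is_xc_nsmul hW hage hbge h2 hiu (by linarith : (0 : ℚ) < 2 * δ) (by linarith) hZis
    rw [map_nsmul]
    exact this.congr (by ring)
  have hV₁depth : ∀ l ∈ V₁, l ≠ 0 → 𝔓.v.Is (xc (φ l)) (-(2 * δ)) := by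
    intro l hl hl0
    obtain ⟨i, hip, rfl⟩ := dlp_exists_nsmul_eq hp hV₁card hZV₁ hZ0 hl
    apply hmul
    intro hdvd
    have : i = 0 := Nat.eq_zero_of_dvd_of_lt hdvd hip
    rw [this, zero_nsmul] at hl0
    exact hl0 rfl
  -- the depth bound
  have hδp : ((𝔓.p : ℚ) - 1) * δ ≤ 1 := by
    have hD := dlp_sum_depth_neg_le hW hb0 hab hage hbge hpodd hp1 Vp hVp
    set S₁ := (Vp.erase 0).filter (fun Q => φ.symm Q ∈ V₁) with hS₁
    have hS₁mem : ∀ Q, Q ∈ S₁ ↔ Q ≠ 0 ∧ φ.symm Q ∈ V₁ := by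
      intro Q
      rw [hS₁, Finset.mem_filter, Finset.mem_erase, hVp]
      refine ⟨fun h => ⟨h.1.1, h.2⟩, fun h => ⟨⟨h.1, ?_⟩, h.2⟩⟩
      have := h.2.1
      rw [← φ.apply_symm_apply Q, ← map_nsmul, this, map_zero]
    have hdepth' : ∀ Q ∈ S₁, 𝔓.v.Is (xc Q) (-(2 * δ)) := by
      intro Q hQ
      have hQ' := (hS₁mem Q).mp hQ
      have := hV₁depth _ hQ'.2 (fun h => hQ'.1 (by
        rw [← φ.apply_symm_apply Q, h, map_zero]))
      rwa [φ.apply_symm_apply] at this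
    have hsub : S₁ ⊆ (Vp.erase 0).filter (fun Q => 𝔓.v.ord (xc Q) < 0) := by
      intro Q hQ
      have hQ' := (hS₁mem Q).mp hQ
      rw [Finset.mem_filter]
      refine ⟨(Finset.mem_filter.mp hQ).1, ?_⟩
      rw [(hdepth' Q hQ).2]; linarith
    have h1 : ∑ Q ∈ S₁, (-(𝔓.v.ord (xc Q))) ≤ 2 :=
      le_trans (Finset.sum_le_sum_of_subset_of_nonneg hsub (by
        intro Q hQ _
        rw [Finset.mem_filter] at hQ
        linarith [hQ.2])) hD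
    have h2' : ∑ Q ∈ S₁, (-(𝔓.v.ord (xc Q))) = (S₁.card : ℚ) * (2 * δ) := by
      rw [Finset.sum_congr rfl (fun Q hQ => by
        rw [(hdepth' Q hQ).2, neg_neg]), Finset.sum_const, nsmul_eq_mul]
    have hcardS : S₁.card + 1 = 𝔓.p := by
      rw [← hV₁card]
      have h0 : (0 : L.toAffine.Point) ∉ S₁ := fun h => ((hS₁mem 0).mp h).1 rfl
      rw [← Finset.card_insert_of_notMem h0, ← Fintype.card_coe, ← Nat.card_eq_fintype_card]
      refine Nat.card_congr (φ.symm.toEquiv.subtypeEquiv fun Q => ?_)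
      rw [Finset.mem_insert, hS₁mem]
      constructor
      · rintro (rfl | h)
        · show φ.symm 0 ∈ V₁
          rw [map_zero]; exact V₁.zero_mem
        · exact h.2
      · intro h
        by_cases hl0 : Q = 0
        · exact Or.inl hl0
        · exact Or.inr ⟨hl0, h⟩
    have hcardS' : (S₁.card : ℚ) = (𝔓.p : ℚ) - 1 := by
      have : ((S₁.card + 1 : ℕ) : ℚ) = (𝔓.p : ℚ) := by rw [hcardS]
      push_cast at this
      linarith
    rw [h2', hcardS'] at h1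
    linarith
  -- the character on `V₁`
  have hii : ∀ σ ∈ 𝔓.I, ∀ k : ℕ, σ ζ = ζ ^ k → ∀ l ∈ V₁, σ • l = k • l := by
    intro σ hσ k hk l hl
    have hσZ : σ • Z ∈ V₁ := ⟨mltpg_smul_mem_tors σ hZtor, hE₁ σ hσ Z ⟨τZ, hτZ, iZ⟩⟩
    obtain ⟨k', hk'p, hk'⟩ := dlp_exists_nsmul_eq hp hV₁card hZV₁ hZ0 hσZ
    have hact : ∀ l ∈ V₁, σ • l = k' • l := by
      intro l hl
      obtain ⟨i, -, rfl⟩ := dlp_exists_nsmul_eq hp hV₁card hZV₁ hZ0 hl
      rw [← smul_comm i σ Z, hk', smul_comm]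
    have h1 := hdet σ hσ V₁ k' hV₁card hV₁le hact (hi σ hσ)
    rw [hk] at h1
    have key : ∀ n : ℕ, ζ ^ n = ζ ^ (n % 𝔓.p) := by
      intro n
      conv_lhs => rw [← Nat.mod_add_div n 𝔓.p, pow_add, pow_mul, hζ.pow_eq_one, one_pow, mul_one]
    have hmod : k ≡ k' [MOD 𝔓.p] :=
      hζ.pow_inj (Nat.mod_lt _ hp.pos) (Nat.mod_lt _ hp.pos) (by rw [← key, ← key, h1])
    rw [hact l hl]
    exact (dlp_nsmul_eq_of_modEq hl.1 hmod).symm
  -- coordinates of `Z`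
  rcases hφZ : φ Z with _ | ⟨x₂, y₂, h₂⟩
  · exact absurd hφZ hφZ0
  rw [hφZ] at hZis
  have hZis' : 𝔓.v.Is x₂ (-(2 * δ)) := hZis
  have hequi := (dlp_equi hW hage h2 hα0 hδpos hbn h₁ h₂ hxT hy₁ hZis').1
  -- the translation character
  have hσT : ∀ σ : GQ, ∃ i : ℕ, σ ∈ 𝔓.I → i < 𝔓.p ∧ σ • T - T = i • Z := by
    intro σ
    by_cases hσ : σ ∈ 𝔓.I
    · obtain ⟨i, hi1, hi2⟩ := dlp_exists_nsmul_eq hp hV₁card hZV₁ hZ0 (hi σ hσ _ hTtor)
      exact ⟨i, fun _ => ⟨hi1, hi2⟩⟩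
    · exact ⟨0, fun h => absurd h hσ⟩
  choose aN haN using hσT
  set G : Subgroup GQ := 𝔓.I ⊓ MulAction.stabilizer GQ ζ with hGdef
  have hGI : ∀ σ : ↥G, (σ : GQ) ∈ 𝔓.I := fun σ => σ.2.1
  have hGζ : ∀ σ : ↥G, (σ : GQ) ζ = ζ := fun σ => σ.2.2
  have hGZ : ∀ σ : ↥G, (σ : GQ) • Z = Z := by
    intro σ
    have := hii σ (hGI σ) 1 (by rw [pow_one]; exact hGζ σ) _ hZV₁
    rwa [one_smul] at this
  let aa : ↥G → ZMod 𝔓.p := fun σ => (aN (σ : GQ) : ZMod 𝔓.p)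
  let ξ : ZMod 𝔓.p → Qb := fun i => xc (φ (T + i.val • Z))
  have hξG : ∀ (σ : ↥G) (i : ZMod 𝔓.p), σ • ξ i = ξ (i + aa σ) := by
    intro σ i
    show (σ : GQ) (xc (φ (T + i.val • Z))) = xc (φ (T + (i + aa σ).val • Z))
    have h1 : (σ : GQ) • T = T + aN σ • Z := by
      rw [← (haN σ (hGI σ)).2]; abel
    have e1 : (σ : GQ) • (T + i.val • Z) = T + aN σ • Z + i.val • Z := by
      refine (smul_add (σ : GQ) _ _).trans ?_
      rw [h1, ← smul_comm i.val (σ : GQ), hGZ]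
    rw [← hG σ (hGI σ) (hGζ σ), e1, dlp_val_add_nsmul hZtor, add_assoc]
    congr 3
    show aN σ • Z + i.val • Z = i.val • Z + (aa σ).val • Z
    rw [show (aa σ).val = aN σ from ZMod.val_natCast_of_lt (haN σ (hGI σ)).1, add_comm]
  have hvG : ∀ (σ : ↥G) (x : Qb), 𝔓.v.ord (σ • x) = 𝔓.v.ord x :=
    fun σ x => hv.ord_inertia σ (hGI σ) x
  have hζG : ∀ σ : ↥G, σ • ζ = ζ := hGζ
  have hξ0 : 𝔓.v.Is (ξ 0) n := by
    show 𝔓.v.Is (xc (φ (T + (0 : ZMod 𝔓.p).val • Z))) n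
    rw [ZMod.val_zero, zero_nsmul, add_zero, hφT]
    exact hxT
  have hξ1 : 𝔓.v.Is (ξ 1 - ξ 0) (n + δ) := by
    show 𝔓.v.Is (xc (φ (T + (1 : ZMod 𝔓.p).val • Z)) -
      xc (φ (T + (0 : ZMod 𝔓.p).val • Z))) (n + δ)
    haveI : Fact (1 < 𝔓.p) := ⟨hp.one_lt⟩
    rw [ZMod.val_one, one_nsmul, ZMod.val_zero, zero_nsmul, add_zero, map_add, hφT, hφZ]
    exact hequi
  have hαΓ : (n : ℚ) ∈ dlpGam ↥G 𝔓.v := dlp_natCast_mem_gam hp1 _
  obtain ⟨u, w, hu, huG, hwu, hwa⟩ :=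
    dlp_resolvent hvG hζ hζG hp1 ξ aa hξG hδp hξ0 hξ1 hαΓ
  refine ⟨V₁, u, w, hV₁card, fun l hl => hl.1, hi, hii, hu, ?_, hwu, ?_⟩
  · intro σ hσ hσζ
    exact huG ⟨σ, hσ, hσζ⟩
  · intro σ hσ hσζ hσw x hx
    have ha0 : aa ⟨σ, hσ, hσζ⟩ = 0 := hwa ⟨σ, hσ, hσζ⟩ hσw
    have haN0 : aN σ = 0 := by
      have h1 : ((aN σ : ℕ) : ZMod 𝔓.p) = 0 := ha0
      have h2' := (ZMod.natCast_eq_zero_iff _ _).mp h1
      exact Nat.eq_zero_of_dvd_of_lt h2' (haN σ hσ).1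
    have hσT : σ • T = T := by
      have := (haN σ hσ).2
      rw [haN0, zero_nsmul] at this
      exact sub_eq_zero.mp this
    let H : AddSubgroup Pt :=
      { carrier := {x | 𝔓.p • x = 0 ∧ σ • x = x}
        zero_mem' := ⟨nsmul_zero _, smul_zero σ⟩
        add_mem' := by
          rintro x y ⟨hx1, hx2⟩ ⟨hy1, hy2⟩
          exact ⟨by rw [nsmul_add, hx1, hy1, add_zero],
            (smul_add σ x y).trans (by rw [hx2, hy2])⟩
        neg_mem' := by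
          rintro x ⟨hx1, hx2⟩
          exact ⟨by rw [neg_nsmul, hx1, neg_zero], (smul_neg σ x).trans (by rw [hx2])⟩ }
    have hHV : H = V := dlp_eq_of_lt hp hcard hV₁card
      (fun l hl => ⟨hl.1, by
        have := hii σ hσ 1 (by rw [pow_one]; exact hσζ) l hl
        rwa [one_smul] at this⟩)
      (fun x hx => hx.1) (T := T) ⟨hTtor, hσT⟩ hTV₁
    have hxH : x ∈ H := by rw [hHV]; exact hx
    exact hxH.2

end Abs

end Fermat.Agent.MLT
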