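/-
MLT / at p, Galois side (helper5): **Legendre coordinates over `ℚ̄` for an integral Weierstrass
model**, and their compatibility with the Galois action.

`W` a Weierstrass curve over `ℤ`, `E = (s58E W)⁄ℚ̄`, `e₁` a root of the two-torsion polynomial.
`mltpgPhi W e₁ : E(ℚ̄) ≃+ L(ℚ̄)` is the isomorphism onto the points of `L = lreVC E e₁ • E`
(the curve `y² = x (x - (e₂ - e₁)) (x - (e₃ - e₁))`).  For `σ ∈ G_ℚ` fixing `e₁` the Legendre
coordinates are `σ`-equivariant (`mltpg_phi_smul`), so that `σ` is "inertia like" on `L` when `σ`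
lies in an inertia group (`mltpg_inertiaLike`).
-/
import Mathlib
import Fermat.Agent.Lib.LR.E.Close
import Fermat.Agent.Lib.S58.LocalFix
import Fermat.Agent.Lib.Delta.Peu.Det
import Fermat.Agent.Lib.MLT.AtPG.PeuAbs

set_option autoImplicit false
set_option linter.unusedSectionVars false
set_option linter.unusedVariables false
set_option linter.style.haveILetI false

open WeierstrassCurve WeierstrassCurve.Affine

namespace Fermat.Agent.MLT

open Fermat.Agent.S05Lib Fermat.Agent.S13Lib Fermat.Agent.TW Fermat.Agent.Delta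
  Fermat.Agent.S58 Fermat.Agent.LR Fermat.Agent.X015

local notation "Qb" => AlgebraicClosure ℚ
local notation "GQ" => (AlgebraicClosure ℚ ≃ₐ[ℚ] AlgebraicClosure ℚ)

section Coord

variable (W : WeierstrassCurve ℤ)

/-- the Legendre model attached to a root `e₁` of the two-torsion polynomial -/
noncomputable abbrev mltpgLeg (e₁ : Qb) : WeierstrassCurve Qb :=
  lreVC ((s58E W)⁄Qb) e₁ • ((s58E W)⁄Qb)

/-- the isomorphism onto the points of the Legendre model -/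
noncomputable def mltpgPhi (e₁ : Qb) :
    ((s58E W)⁄Qb).Point ≃+ (mltpgLeg W e₁).toAffine.Point :=
  vcPointEquiv (lreVC ((s58E W)⁄Qb) e₁) ((s58E W)⁄Qb)

/-- the Galois group fixes the coefficients -/
theorem mltpg_map_a₁ (σ : GQ) : σ ((s58E W)⁄Qb).a₁ = ((s58E W)⁄Qb).a₁ := by
  have e : ((s58E W)⁄Qb).a₁ = algebraMap ℚ Qb (s58E W).a₁ := WeierstrassCurve.map_a₁ _ _
  rw [e]
  exact σ.commutes _

theorem mltpg_map_a₃ (σ : GQ) : σ ((s58E W)⁄Qb).a₃ = ((s58E W)⁄Qb).a₃ := by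
  have e : ((s58E W)⁄Qb).a₃ = algebraMap ℚ Qb (s58E W).a₃ := WeierstrassCurve.map_a₃ _ _
  rw [e]
  exact σ.commutes _

theorem mltpg_map_b₂ (σ : GQ) : σ ((s58E W)⁄Qb).b₂ = ((s58E W)⁄Qb).b₂ := by
  have e : ((s58E W)⁄Qb).b₂ = algebraMap ℚ Qb (s58E W).b₂ := WeierstrassCurve.map_b₂ _ _
  rw [e]
  exact σ.commutes _

theorem mltpg_map_b₄ (σ : GQ) : σ ((s58E W)⁄Qb).b₄ = ((s58E W)⁄Qb).b₄ := by
  have e : ((s58E W)⁄Qb).b₄ = algebraMap ℚ Qb (s58E W).b₄ := WeierstrassCurve.map_b₄ _ _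
  rw [e]
  exact σ.commutes _

theorem mltpg_map_b₆ (σ : GQ) : σ ((s58E W)⁄Qb).b₆ = ((s58E W)⁄Qb).b₆ := by
  have e : ((s58E W)⁄Qb).b₆ = algebraMap ℚ Qb (s58E W).b₆ := WeierstrassCurve.map_b₆ _ _
  rw [e]
  exact σ.commutes _

/-- the action on an affine point -/
theorem mltpg_smul_some (σ : GQ) {x y : Qb} (h : ((s58E W)⁄Qb).Nonsingular x y) :
    ∃ h', (σ • Point.some x y h : ((s58E W)⁄Qb).Point) = Point.some (σ x) (σ y) h' :=
  ⟨((s58E W).toAffine.baseChange_nonsingular σ.toAlgHom.injective ..).mpr h, rfl⟩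

/-- the Legendre coordinates of an affine point -/
theorem mltpg_phi_some (e₁ : Qb) {x y : Qb} (h : ((s58E W)⁄Qb).Nonsingular x y) :
    ∃ h', mltpgPhi W e₁ (Point.some x y h) =
      Point.some (x - e₁) (y + ((s58E W)⁄Qb).a₁ / 2 * (x - e₁) +
        (((s58E W)⁄Qb).a₃ + e₁ * ((s58E W)⁄Qb).a₁) / 2) h' := by
  obtain ⟨h', e⟩ := vcPointEquiv_some (lreVC ((s58E W)⁄Qb) e₁) ((s58E W)⁄Qb) h
  have hx := lre_vcXinv ((s58E W)⁄Qb) e₁ x
  have hy := lre_vcYinv ((s58E W)⁄Qb) e₁ x y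
  have h'' := h'
  rw [hx, hy] at h''
  refine ⟨h'', ?_⟩
  rw [mltpgPhi, e, Point.some.injEq]
  exact ⟨hx, hy⟩

theorem mltpg_phi_zero (e₁ : Qb) : mltpgPhi W e₁ 0 = 0 := map_zero _

/-- equivariance of the Legendre coordinates under the elements of `G_ℚ` fixing `e₁` -/
theorem mltpg_phi_smul {e₁ : Qb} {σ : GQ} (hσ : σ e₁ = e₁) (P : ((s58E W)⁄Qb).Point) :
    (mltpgPhi W e₁ P = 0 → mltpgPhi W e₁ (σ • P) = 0) ∧
    ∀ (X Y : Qb) (hXY : (mltpgLeg W e₁).toAffine.Nonsingular X Y),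
      mltpgPhi W e₁ P = Point.some X Y hXY →
        ∃ h', mltpgPhi W e₁ (σ • P) = Point.some (σ X) (σ Y) h' := by
  rcases P with _ | ⟨x, y, h⟩
  · constructor
    · intro _
      have e0 : (σ • (Point.zero : ((s58E W)⁄Qb).Point)) = 0 := rfl
      rw [e0, map_zero]
    · intro X Y hXY hP
      have e0 : (Point.zero : ((s58E W)⁄Qb).Point) = 0 := rfl
      rw [e0, map_zero] at hP
      exact absurd hP.symm (Point.some_ne_zero hXY)
  · obtain ⟨h1, e1⟩ := mltpg_phi_some W e₁ h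
    obtain ⟨h2, e2⟩ := mltpg_smul_some W σ h
    obtain ⟨h3, e3⟩ := mltpg_phi_some W e₁ h2
    constructor
    · intro h0
      rw [e1] at h0
      exact absurd h0 (Point.some_ne_zero h1)
    · intro X Y hXY hP
      rw [e1, Point.some.injEq] at hP
      obtain ⟨hX, hY⟩ := hP
      have eX : σ X = σ x - e₁ := by rw [← hX, map_sub, hσ]
      have eY : σ Y = σ y + ((s58E W)⁄Qb).a₁ / 2 * (σ x - e₁) +
          (((s58E W)⁄Qb).a₃ + e₁ * ((s58E W)⁄Qb).a₁) / 2 := by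
        rw [← hY]
        simp only [map_add, map_mul, map_sub, map_div₀, hσ, mltpg_map_a₁, mltpg_map_a₃,
          map_ofNat]
      refine ⟨by rw [eX, eY]; exact h3, ?_⟩
      rw [e2, e3, Point.some.injEq]
      exact ⟨eX.symm, eY.symm⟩

/-- equivariance of the abscissa -/
theorem mltpg_xc_phi_smul {e₁ : Qb} {σ : GQ} (hσ : σ e₁ = e₁) (P : ((s58E W)⁄Qb).Point) :
    xc (mltpgPhi W e₁ (σ • P)) = σ (xc (mltpgPhi W e₁ P)) := by
  obtain ⟨h0, h1⟩ := mltpg_phi_smul W hσ P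
  rcases hP : mltpgPhi W e₁ P with _ | ⟨X, Y, hXY⟩
  · have e0 : (Point.zero : (mltpgLeg W e₁).toAffine.Point) = 0 := rfl
    rw [e0] at hP
    rw [h0 hP, e0]
    show (0 : Qb) = σ 0
    rw [map_zero]
  · obtain ⟨h', e⟩ := h1 X Y hXY hP
    rw [e]
    rfl

/-- the endomorphism of the Legendre points induced by `σ` -/
noncomputable def mltpgT (e₁ : Qb) (σ : GQ) :
    (mltpgLeg W e₁).toAffine.Point →+ (mltpgLeg W e₁).toAffine.Point :=
  ((mltpgPhi W e₁).toAddMonoidHom.comp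
    (DistribSMul.toAddMonoidHom ((s58E W)⁄Qb).Point σ)).comp
    (mltpgPhi W e₁).symm.toAddMonoidHom

theorem mltpgT_apply (e₁ : Qb) (σ : GQ) (Q : (mltpgLeg W e₁).toAffine.Point) :
    mltpgT W e₁ σ Q = mltpgPhi W e₁ (σ • (mltpgPhi W e₁).symm Q) := rfl

theorem mltpgT_phi (e₁ : Qb) (σ : GQ) (P : ((s58E W)⁄Qb).Point) :
    mltpgT W e₁ σ (mltpgPhi W e₁ P) = mltpgPhi W e₁ (σ • P) := by
  rw [mltpgT_apply, AddEquiv.symm_apply_apply]

/-- an element of the inertia group fixing `e₁` is inertia-like on the Legendre model -/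
theorem mltpg_inertiaLike (𝔓 : FFPlace) {e₁ : Qb} {σ : GQ} (hσI : σ ∈ 𝔓.I) (hσ : σ e₁ = e₁) :
    InertiaLike 𝔓.v (mltpgLeg W e₁) (σ : Qb →+* Qb) (mltpgT W e₁ σ) where
  map_some X Y hXY := by
    obtain ⟨h', e⟩ := (mltpg_phi_smul W hσ ((mltpgPhi W e₁).symm (Point.some X Y hXY))).2 X Y hXY
      (AddEquiv.apply_symm_apply _ _)
    exact ⟨h', by rw [mltpgT_apply]; exact e⟩
  ord_map x := (dlp_qvalFor 𝔓).ord_inertia σ hσI x
  inert x hx := by
    have hv := dlp_qvalFor 𝔓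
    have hxA : x ∈ 𝔓.P := (hv.mem_iff x).mpr hx
    rcases hv.inert σ hσI x hxA with h | h
    · exact Or.inl (sub_eq_zero.mpr h)
    · exact Or.inr h

/-- the number of `p`-torsion points -/
theorem mltpg_card_tors (hΔ : W.Δ ≠ 0) {p : ℕ} (hp : 0 < p) :
    Nat.card (mltpgTors ((s58E W)⁄Qb).Point p) = p ^ 2 := by
  rw [← s58l_natCard_tors W hΔ hp]
  refine Nat.card_congr (Equiv.subtypeEquivRight fun x => ?_)
  rw [mem_mltpgTors, Submodule.mem_torsionBy_iff, natCast_zsmul]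

/-- the determinant input, in the form used by `mltpg_leg_peu` -/
theorem mltpg_det (hΔ : W.Δ ≠ 0) {p : ℕ} (hp : p.Prime) {ζ : Qb} (hζ : IsPrimitiveRoot ζ p)
    (σ : GQ) (N : AddSubgroup ((s58E W)⁄Qb).Point) (k : ℕ) (hNcard : Nat.card N = p)
    (hNle : N ≤ mltpgTors ((s58E W)⁄Qb).Point p) (hact : ∀ l ∈ N, σ • l = k • l)
    (hquot : ∀ x : ((s58E W)⁄Qb).Point, p • x = 0 → σ • x - x ∈ N) : σ ζ = ζ ^ k :=
  dlp_det_of_model W hΔ hp σ N k hNcard (fun l hl => hNle hl) hact hquot hζ.pow_eq_one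

/-- the Galois group permutes the roots of the two-torsion polynomial -/
theorem mltpg_root_perm {e₁ e₂ e₃ : Qb} (hr : LreRoots ((s58E W)⁄Qb) e₁ e₂ e₃) (σ : GQ)
    {e : Qb} (he : 4 * e ^ 3 + ((s58E W)⁄Qb).b₂ * e ^ 2 + 2 * ((s58E W)⁄Qb).b₄ * e +
      ((s58E W)⁄Qb).b₆ = 0) : σ e = e₁ ∨ σ e = e₂ ∨ σ e = e₃ := by
  have h1 : 4 * (σ e) ^ 3 + ((s58E W)⁄Qb).b₂ * (σ e) ^ 2 + 2 * ((s58E W)⁄Qb).b₄ * σ e +
      ((s58E W)⁄Qb).b₆ = 0 := by
    have := congrArg σ he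
    simpa only [map_add, map_mul, map_pow, map_ofNat, mltpg_map_b₂, mltpg_map_b₄, mltpg_map_b₆,
      map_zero] using this
  have h2 : 4 * ((σ e - e₁) * (σ e - e₂) * (σ e - e₃)) = 0 := by
    rw [hr.hb₂, hr.hb₄, hr.hb₆] at h1
    linear_combination h1
  have h4 : (4 : Qb) ≠ 0 := by norm_num
  rcases mul_eq_zero.mp (mul_eq_zero.mp h2 |>.resolve_left h4) with h | h
  · rcases mul_eq_zero.mp h with h | h
    · exact Or.inl (sub_eq_zero.mp h)
    · exact Or.inr (Or.inl (sub_eq_zero.mp h))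
  · exact Or.inr (Or.inr (sub_eq_zero.mp h))

/-- an integral root which is not congruent to the other two is fixed by inertia -/
theorem mltpg_root_fixed (𝔓 : FFPlace) {e₁ e₂ e₃ : Qb} (hr : LreRoots ((s58E W)⁄Qb) e₁ e₂ e₃)
    (g₁ : 𝔓.v.Ge e₁ 0) (h12 : 𝔓.v.Is (e₁ - e₂) 0) (h13 : 𝔓.v.Is (e₁ - e₃) 0) {σ : GQ}
    (hσ : σ ∈ 𝔓.I) : σ e₁ = e₁ := by
  have hv := dlp_qvalFor 𝔓
  have hin := hv.inert σ hσ e₁ ((hv.mem_iff e₁).mpr g₁)
  rcases mltpg_root_perm W hr σ hr.root₁ with h | h | h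
  · exact h
  · rcases hin with h' | h'
    · exact h'
    · exfalso
      rw [h] at h'
      have := h12.neg
      rw [neg_sub] at this
      rw [this.2] at h'
      exact lt_irrefl _ h'
  · rcases hin with h' | h'
    · exact h'
    · exfalso
      rw [h] at h'
      have := h13.neg
      rw [neg_sub] at this
      rw [this.2] at h'
      exact lt_irrefl _ h'

/-- the kernel of reduction (in Legendre coordinates relative to an integral root) is stable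
under the inertia group -/
theorem mltpg_inE_smul (𝔓 : FFPlace) {e₁ : Qb} (g₁ : 𝔓.v.Ge e₁ 0) {σ : GQ} (hσ : σ ∈ 𝔓.I)
    {τ : ℚ} (hτ : 0 < τ) (T : ((s58E W)⁄Qb).Point) (h : InE 𝔓.v τ (mltpgPhi W e₁ T)) :
    InE 𝔓.v τ (mltpgPhi W e₁ (σ • T)) := by
  have hv := dlp_qvalFor 𝔓
  rcases T with _ | ⟨x, y, hxy⟩
  · have e0 : (σ • (Point.zero : ((s58E W)⁄Qb).Point)) = 0 := rfl
    rw [e0, map_zero]
    trivial
  · obtain ⟨h1, e1⟩ := mltpg_phi_some W e₁ hxy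
    obtain ⟨h2, e2⟩ := mltpg_smul_some W σ hxy
    obtain ⟨h3, e3⟩ := mltpg_phi_some W e₁ h2
    rw [e1] at h
    rw [e2, e3]
    have hle : 𝔓.v.Le (x - e₁) (-τ) := h
    show 𝔓.v.Le (σ x - e₁) (-τ)
    have hlt : 𝔓.v.Lt (x - e₁) 0 := ⟨hle.1, by linarith [hle.2]⟩
    have hx : 𝔓.v.Is x (𝔓.v.ord (x - e₁)) := by
      have := hlt.is.add_gt (g₁.gt hlt.2)
      rwa [sub_add_cancel] at this
    have hσx : 𝔓.v.Is (σ x) (𝔓.v.ord (x - e₁)) :=
      ⟨(map_ne_zero σ).mpr hx.1, by rw [hv.ord_inertia σ hσ, hx.2]⟩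
    exact (hσx.sub_gt (g₁.gt hlt.2)).le' hle.2

/-- the Legendre coordinates of `σ • P` for an arbitrary `σ ∈ G_ℚ`: the abscissa is translated by
`σ e₁ - e₁` -/
theorem mltpg_phi_smul_gen {e₁ : Qb} (σ : GQ) (P : ((s58E W)⁄Qb).Point) :
    (mltpgPhi W e₁ P = 0 → mltpgPhi W e₁ (σ • P) = 0) ∧
    ∀ (X Y : Qb) (hXY : (mltpgLeg W e₁).toAffine.Nonsingular X Y),
      mltpgPhi W e₁ P = Point.some X Y hXY →
        ∃ h', mltpgPhi W e₁ (σ • P) = Point.some (σ X + (σ e₁ - e₁)) (σ Y) h' := by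
  rcases P with _ | ⟨x, y, h⟩
  · constructor
    · intro _
      have e0 : (σ • (Point.zero : ((s58E W)⁄Qb).Point)) = 0 := rfl
      rw [e0, map_zero]
    · intro X Y hXY hP
      have e0 : (Point.zero : ((s58E W)⁄Qb).Point) = 0 := rfl
      rw [e0, map_zero] at hP
      exact absurd hP.symm (Point.some_ne_zero hXY)
  · obtain ⟨h1, e1⟩ := mltpg_phi_some W e₁ h
    obtain ⟨h2, e2⟩ := mltpg_smul_some W σ h
    obtain ⟨h3, e3⟩ := mltpg_phi_some W e₁ h2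
    constructor
    · intro h0
      rw [e1] at h0
      exact absurd h0 (Point.some_ne_zero h1)
    · intro X Y hXY hP
      rw [e1, Point.some.injEq] at hP
      obtain ⟨hX, hY⟩ := hP
      have eX : σ X + (σ e₁ - e₁) = σ x - e₁ := by rw [← hX, map_sub]; ring
      have eY : σ Y = σ y + ((s58E W)⁄Qb).a₁ / 2 * (σ x - e₁) +
          (((s58E W)⁄Qb).a₃ + e₁ * ((s58E W)⁄Qb).a₁) / 2 := by
        rw [← hY]
        simp only [map_add, map_mul, map_sub, map_div₀, mltpg_map_a₁, mltpg_map_a₃,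
          map_ofNat]
        ring
      refine ⟨by rw [eX, eY]; exact h3, ?_⟩
      rw [e2, e3, Point.some.injEq]
      exact ⟨eX.symm, eY.symm⟩

/-- finiteness of the `p`-torsion of the Legendre model, as a finset -/
theorem mltpg_exists_finset_tors (hΔ : W.Δ ≠ 0) {p : ℕ} (hp : 0 < p) (e₁ : Qb) :
    ∃ Vp : Finset (mltpgLeg W e₁).toAffine.Point, ∀ Q, Q ∈ Vp ↔ p • Q = 0 := by
  classical
  have hVfin : Finite (mltpgTors ((s58E W)⁄Qb).Point p) :=
    Nat.finite_of_card_ne_zero (by rw [mltpg_card_tors W hΔ hp]; positivity)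
  have hfin : {Q : (mltpgLeg W e₁).toAffine.Point | p • Q = 0}.Finite := by
    refine Set.Finite.subset ((Set.toFinite
      (mltpgTors ((s58E W)⁄Qb).Point p : Set ((s58E W)⁄Qb).Point)).image (mltpgPhi W e₁)) ?_
    intro Q hQ
    refine ⟨(mltpgPhi W e₁).symm Q, ?_, (mltpgPhi W e₁).apply_symm_apply Q⟩
    show p • (mltpgPhi W e₁).symm Q = 0
    rw [← map_nsmul, show p • Q = 0 from hQ, map_zero]
  refine ⟨hfin.toFinset, fun Q => ?_⟩
  rw [Set.Finite.mem_toFinset]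
  rfl

end Coord

end Fermat.Agent.MLT
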