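/-
MLT / at p, Galois side (helper5): **PEU for a curve with good ordinary reduction at `p`**.

`W` a Weierstrass curve over `ℤ` with `p ∤ Δ`, `p` odd, `𝔓` a place of `ℚ̄` over `p`.  If `W` is
*geometrically ordinary* at `𝔓` (`MltpgOrdAt`: some non-zero `p`-torsion point has a `𝔓`-integral
abscissa, i.e. `W[p]` is not contained in the kernel of reduction), then `W[p]` has the
*peu ramifiée* structure `Delta.DlpPeu (s58E W) 𝔓 p ζ`:
the line `L₁ = W[p] ∩ (kernel of reduction)` has order `p`, inertia acts trivially on `W[p]/L₁` and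
through the cyclotomic character on `L₁`, and `W[p]` is fixed by the inertia of
`K₁(u ^ (1/p))` for a `𝔓`-unit `u` of `K₁ = K0(ζ_p)`.
-/
import Mathlib
import Fermat.Agent.Lib.Delta.Peu.Frey
import Fermat.Agent.Lib.LR.E.Roots
import Fermat.Agent.Lib.MLT.AtPG.PeuCoord

set_option autoImplicit false
set_option linter.unusedSectionVars false
set_option linter.unusedVariables false
set_option linter.style.haveILetI false

open WeierstrassCurve WeierstrassCurve.Affine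

namespace Fermat.Agent.MLT

open Fermat.Agent.S05Lib Fermat.Agent.S13Lib Fermat.Agent.TW Fermat.Agent.Delta
  Fermat.Agent.S58 Fermat.Agent.LR Fermat.Agent.X015

local notation "Qb" => AlgebraicClosure ℚ
local notation "GQ" => (AlgebraicClosure ℚ ≃ₐ[ℚ] AlgebraicClosure ℚ)

section Local

variable {K : Type*} [Field K] [DecidableEq K] {v : QVal K} {L : WeierstrassCurve K} {a b : K}

/-- for an odd-torsion point with integral abscissa on a Legendre curve with good reduction, the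
ordinate is a unit (the reduction of the point is not a two-torsion point) -/
theorem mltpg_is_y_of_good (hW : IsLeg L a b) (ha : v.Ge a 0) (hb : v.Is b 0)
    (hab : v.Is (a ^ 2 - 4 * b) 0) (h2 : v.Is (2 : K) 0)
    {n : ℕ} (hn : Odd n) {x y : K} (hxy : L.toAffine.Nonsingular x y)
    (hT : n • Point.some x y hxy = 0) (hx : v.Ge x 0) : v.Is y 0 := by
  have hy0 : y ≠ 0 := dlp_y_ne_zero_of_torsion hW hn hxy hT
  have hyge : v.Ge y 0 := y_integral hW ha hb.ge hxy hx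
  refine ⟨hy0, le_antisymm ?_ (hyge.resolve_left hy0)⟩
  by_contra hcon
  push Not at hcon
  set τ := v.ord y with hτ
  have hygt : v.Gt y 0 := Or.inr hcon
  have q := hW.eq_of_nonsingular hxy
  have h4 : v.Is (4 : K) 0 := by
    have := h2.mul h2
    norm_num at this
    exact this
  -- `x² - b` is a unit
  have hN : v.Is (x ^ 2 - b) 0 := by
    have hNge : v.Ge (x ^ 2 - b) 0 := by
      have := hx.sq
      rw [mul_zero] at this
      exact this.sub hb.ge
    by_contra hnot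
    have hNgt : v.Gt (x ^ 2 - b) 0 := by
      rcases hNge with h0 | h0
      · exact Or.inl h0
      · by_cases hz : x ^ 2 - b = 0
        · exact Or.inl hz
        · rcases lt_or_eq_of_le h0 with h | h
          · exact Or.inr h
          · exact absurd ⟨hz, h.symm⟩ hnot
    have hx2 : v.Is (x ^ 2) 0 := by
      have := hb.add_gt hNgt
      have e : b + (x ^ 2 - b) = x ^ 2 := by ring
      rwa [e] at this
    have hx0 : x ≠ 0 := fun h => hx2.1 (by rw [h]; ring)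
    have hxi : v.Is x 0 := by
      refine ⟨hx0, ?_⟩
      have := hx2.2
      rw [v.ord_pow hx0] at this
      push_cast at this
      linarith
    have hqgt : v.Gt (x ^ 2 + a * x + b) 0 := by
      have e : x ^ 2 + a * x + b = y ^ 2 / x := by
        rw [q]; field_simp
      rw [e]
      have hy2 : v.Gt (y ^ 2) 0 := by
        have := hygt.mul_ge hyge
        rw [add_zero] at this
        rwa [pow_two]
      have := hy2.div_is hxi
      rwa [sub_zero] at this
    set N := x ^ 2 - b with hNdef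
    set qq := x ^ 2 + a * x + b with hqdef
    have hid : b * (a ^ 2 - 4 * b) = (qq - N) * (qq - N - 4 * b) - a ^ 2 * N := by
      rw [hqdef, hNdef]; ring
    have hL : v.Is (b * (a ^ 2 - 4 * b)) 0 := by
      have := hb.mul hab
      rwa [add_zero] at this
    have h4b : v.Ge (4 * b) 0 := by
      have := (h4.mul hb).ge
      rwa [add_zero] at this
    have hR : v.Gt ((qq - N) * (qq - N - 4 * b) - a ^ 2 * N) 0 := by
      have t1 : v.Gt (qq - N) 0 := hqgt.sub hNgt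
      have t2 : v.Ge (qq - N - 4 * b) 0 := t1.ge.sub h4b
      have t3 : v.Gt ((qq - N) * (qq - N - 4 * b)) 0 := by
        have := t1.mul_ge t2
        rwa [add_zero] at this
      have t4 : v.Gt (a ^ 2 * N) 0 := by
        have ha2 : v.Ge (a ^ 2) 0 := by
          have := ha.sq
          rwa [mul_zero] at this
        have := ha2.mul_gt hNgt
        rwa [add_zero] at this
      exact t3.sub t4
    rw [← hid] at hR
    exact hL.not_gt hR le_rfl
  -- `x(2T) = (x² - b)² / (4 y²)` has order `-2τ`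
  obtain ⟨w, h', e⟩ := hW.add_self_of_Y_ne_zero h2.1 hxy hy0
  have hxc : xc (2 • Point.some x y hxy) = (x ^ 2 - b) ^ 2 / (4 * y ^ 2) := by
    rw [two_nsmul, e, xc_some, hW.dup_formula h2.1 hxy hy0]
  have hnum : v.Is ((x ^ 2 - b) ^ 2) 0 := by
    have := hN.sq
    rwa [mul_zero] at this
  have hden : v.Is (4 * y ^ 2) (2 * τ) := by
    have := h4.mul (QVal.is_ord (v := v) hy0).sq
    rwa [zero_add] at this
  have hX : v.Is ((x ^ 2 - b) ^ 2 / (4 * y ^ 2)) (-(2 * τ)) := (hnum.div hden).congr (by ring)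
  have h2T : InE v (2 * τ) (2 • Point.some x y hxy) := by
    apply inE_of_le
    rw [hxc]
    exact hX.le
  -- `T = ((n + 1) / 2) • (2 T)`
  obtain ⟨k, hk⟩ := hn
  have hTT : (k + 1) • (2 • Point.some x y hxy) = Point.some x y hxy := by
    rw [← mul_nsmul]
    have : 2 * (k + 1) = n + 1 := by omega
    rw [this, succ_nsmul, hT, zero_add]
  have hin := dlp_inE_nsmul hW ha hb.ge h2 (by linarith) h2T (k + 1)
  rw [hTT] at hin
  have hle : v.Le x (-(2 * τ)) := hin
  exact hle.not_ge hx (by linarith)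

/-- in the same situation the abscissa is a unit as well -/
theorem mltpg_is_x_of_good (hW : IsLeg L a b) (ha : v.Ge a 0) (hb : v.Is b 0)
    (hab : v.Is (a ^ 2 - 4 * b) 0) (h2 : v.Is (2 : K) 0)
    {n : ℕ} (hn : Odd n) {x y : K} (hxy : L.toAffine.Nonsingular x y)
    (hT : n • Point.some x y hxy = 0) (hx : v.Ge x 0) : v.Is x 0 := by
  have hy := mltpg_is_y_of_good hW ha hb hab h2 hn hxy hT hx
  have q := hW.eq_of_nonsingular hxy
  have hfac : y ^ 2 = x * (x ^ 2 + a * x + b) := by rw [q]; ring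
  have hx0 : x ≠ 0 := by
    rintro rfl
    apply hy.1
    have : y ^ 2 = 0 := by rw [hfac]; ring
    exact pow_eq_zero_iff (two_ne_zero) |>.mp this
  have hq0 : x ^ 2 + a * x + b ≠ 0 := by
    intro h0
    apply hy.1
    have : y ^ 2 = 0 := by rw [hfac, h0]; ring
    exact pow_eq_zero_iff (two_ne_zero) |>.mp this
  have hqge : v.Ge (x ^ 2 + a * x + b) 0 := by
    have t1 : v.Ge (x ^ 2) 0 := by
      have := hx.sq
      rwa [mul_zero] at this
    have t2 : v.Ge (a * x) 0 := by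
      have := ha.mul hx
      rwa [add_zero] at this
    exact (t1.add t2).add hb.ge
  have h1 : 0 ≤ v.ord x := hx.resolve_left hx0
  have h2' : 0 ≤ v.ord (x ^ 2 + a * x + b) := hqge.resolve_left hq0
  have h3 : v.ord (y ^ 2) = v.ord x + v.ord (x ^ 2 + a * x + b) := by
    rw [hfac, v.ord_mul' hx0 hq0]
  have h4 : v.ord (y ^ 2) = 0 := by
    rw [v.ord_pow hy.1, hy.2]; ring
  exact ⟨hx0, by linarith⟩

end Local

section Main

/-- **geometric ordinarity at `𝔓`**: some non-zero `p`-torsion point has a `𝔓`-integral abscissa,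
i.e. the `p`-torsion is not contained in the kernel of reduction -/
def MltpgOrdAt (W : WeierstrassCurve ℤ) (𝔓 : FFPlace) : Prop :=
  ∃ (x y : Qb) (h : ((s58E W)⁄Qb).Nonsingular x y),
    𝔓.p • (Point.some x y h : ((s58E W)⁄Qb).Point) = 0 ∧ 𝔓.v.Ge x 0

/-- **PEU for good ordinary reduction** -/
theorem mltpg_peu_good (W : WeierstrassCurve ℤ) (hΔ : W.Δ ≠ 0) (𝔓 : FFPlace) (hp2 : 𝔓.p ≠ 2)
    (hgood : ¬ (𝔓.p : ℤ) ∣ W.Δ) (hord : MltpgOrdAt W 𝔓) {ζ : Qb}
    (hζ : IsPrimitiveRoot ζ 𝔓.p) : DlpPeu (s58E W) 𝔓 𝔓.p ζ := by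
  classical
  have hp := 𝔓.hp
  have hv := dlp_qvalFor 𝔓
  have h2 := hv.is_two hp hp2
  have hpodd : Odd 𝔓.p := hp.odd_of_ne_two hp2
  -- the roots of the two-torsion polynomial
  obtain ⟨e₁, e₂, e₃, hr, hdisc⟩ := lre_exists_roots h2.1 ((s58E W)⁄Qb)
  have hb₂ : 𝔓.v.Ge ((s58E W)⁄Qb).b₂ 0 := by
    rw [s58l_curve_eq, WeierstrassCurve.map_b₂, eq_intCast]; exact hv.ge_int _
  have hb₄ : 𝔓.v.Ge ((s58E W)⁄Qb).b₄ 0 := by
    rw [s58l_curve_eq, WeierstrassCurve.map_b₄, eq_intCast]; exact hv.ge_int _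
  have hb₆ : 𝔓.v.Ge ((s58E W)⁄Qb).b₆ 0 := by
    rw [s58l_curve_eq, WeierstrassCurve.map_b₆, eq_intCast]; exact hv.ge_int _
  have ha₁ : 𝔓.v.Ge ((s58E W)⁄Qb).a₁ 0 := by
    rw [s58l_curve_eq, WeierstrassCurve.map_a₁, eq_intCast]; exact hv.ge_int _
  have ha₃ : 𝔓.v.Ge ((s58E W)⁄Qb).a₃ 0 := by
    rw [s58l_curve_eq, WeierstrassCurve.map_a₃, eq_intCast]; exact hv.ge_int _
  have g₁ := lre_root_integral h2 hb₂ hb₄ hb₆ hr.root₁
  have g₂ := lre_root_integral h2 hb₂ hb₄ hb₆ hr.root₂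
  have g₃ := lre_root_integral h2 hb₂ hb₄ hb₆ hr.root₃
  have hΔK : 𝔓.v.Is ((s58E W)⁄Qb).Δ 0 := by
    rw [s58l_Δ_eq]; exact hv.is_int hgood
  obtain ⟨i12, i13, i23⟩ := lre_units_of_Δ h2 hΔK hdisc g₁ g₂ g₃
  have hg : LreGood 𝔓.v ((s58E W)⁄Qb) e₁ e₂ e₃ := ⟨hr, h2, ha₁, ha₃, g₁, g₂, g₃, i12, i13, i23⟩
  have hW := hg.isLeg
  have hfix : ∀ σ ∈ 𝔓.I, σ e₁ = e₁ := fun σ hσ => mltpg_root_fixed W 𝔓 hr g₁ i12 i13 hσ
  have hbI : 𝔓.v.Is ((e₂ - e₁) * (e₃ - e₁)) 0 := hg.is_e.mul0 hg.is_r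
  have habI : 𝔓.v.Is ((-((e₂ - e₁) + (e₃ - e₁))) ^ 2 - 4 * ((e₂ - e₁) * (e₃ - e₁))) 0 := by
    have e : (-((e₂ - e₁) + (e₃ - e₁))) ^ 2 - 4 * ((e₂ - e₁) * (e₃ - e₁)) =
        ((e₂ - e₁) - (e₃ - e₁)) ^ 2 := by ring
    rw [e]
    have := hg.is_er.sq
    rwa [mul_zero] at this
  -- the ordinary point
  obtain ⟨x, y, hxy, hTtor, hxge⟩ := hord
  obtain ⟨h1, e1⟩ := mltpg_phi_some W e₁ hxy
  have hXge : 𝔓.v.Ge (x - e₁) 0 := hxge.sub g₁
  have hTL : 𝔓.p • Point.some _ _ h1 = 0 := by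
    rw [← e1, ← map_nsmul, hTtor, map_zero]
  have hY := mltpg_is_y_of_good hW hg.ge_a hbI habI h2 hpodd h1 hTL hXge
  have hX := mltpg_is_x_of_good hW hg.ge_a hbI habI h2 hpodd h1 hTL hXge
  refine mltpg_leg_peu 𝔓 hp2 hW (mltpgPhi W e₁) hbI.1 habI.1 hg.ge_a hg.ge_b
    (mltpg_card_tors W hΔ hp.pos) ?_ ?_ hζ ?_ ?_ (Point.some x y hxy) hTtor h1 e1 (n := 0)
    le_rfl (by simpa using hX) (by simpa using hY) (by simpa using hbI.ge)
  · exact fun σ hσ T ⟨τ, hτ, i⟩ => ⟨τ, hτ, mltpg_inE_smul W 𝔓 g₁ hσ hτ T i⟩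
  · intro σ hσ P hP
    have hT := mltpg_inertiaLike W 𝔓 hσ (hfix σ hσ)
    obtain ⟨τ, hτ, i⟩ := exists_inE_map_sub_of_good hW hg.ge_a hg.ge_b h2 hT
      (good_of_roots hW hg.is_e hg.is_r hg.is_er) (mltpgPhi W e₁ P)
    refine ⟨τ, hτ, ?_⟩
    rw [map_sub, ← mltpgT_phi]
    exact i
  · exact fun σ hσ N k h1 h2 h3 h4 => mltpg_det W hΔ hp hζ σ N k h1 h2 h3 h4
  · exact fun σ hσ _ P => mltpg_xc_phi_smul W (hfix σ hσ) P

end Main

end Fermat.Agent.MLT
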