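/-
MLT / at p, Galois side (helper5): **the node datum of an integral Weierstrass model at a prime of
multiplicative reduction** (`p` odd, `p ∣ Δ`, `p ∤ c₄`).

* `mltpg_ord_intCast` : the normalised valuation of an integer is the multiplicity of `p`;
* `MltpgNode W 𝔓 e₁ e₂ e₃ h` : the roots `e₁, e₂, e₃` of the two-torsion polynomial are
  `𝔓`-integral, `e₁ ≡ e₂` with `ord (e₂ - e₁) = h > 0`, `e₃ - e₁` is a unit;
* `mltpg_exists_node` : existence, with `2 h = ord_p Δ`;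
* consequences: the Legendre model `mltpgLeg W e₁` is `y² = x³ + a x² + b x` with `ord a = 0`,
  `ord b = h`; inertia fixes `e₃` and `e₁ + e₂`, and either fixes or exchanges `e₁, e₂`.
-/
import Mathlib
import Fermat.Agent.Lib.S58.LocalLeg
import Fermat.Agent.Lib.LR.E.Roots
import Fermat.Agent.Lib.MLT.AtPG.PeuCoord

set_option autoImplicit false
set_option linter.unusedSectionVars false
set_option linter.unusedVariables false
set_option linter.style.haveILetI false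

open WeierstrassCurve WeierstrassCurve.Affine

namespace Fermat.Agent.MLT

open Fermat.Agent.S05Lib Fermat.Agent.S13Lib Fermat.Agent.TW Fermat.Agent.Delta
  Fermat.Agent.S58 Fermat.Agent.LR Fermat.Agent.X015

local notation "Qb" => AlgebraicClosure ℚ
local notation "GQ" => (AlgebraicClosure ℚ ≃ₐ[ℚ] AlgebraicClosure ℚ)

/-- the normalised valuation of a non-zero integer is the multiplicity of `p` -/
theorem mltpg_ord_intCast (𝔓 : FFPlace) {n : ℤ} (hn : n ≠ 0) :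
    𝔓.v.ord ((n : ℤ) : Qb) = (multiplicity (𝔓.p : ℤ) n : ℕ) := by
  have hv := dlp_qvalFor 𝔓
  have hq := 𝔓.hp
  have hqZ : Prime (𝔓.p : ℤ) := Nat.prime_iff_prime_int.mp hq
  have hfin : FiniteMultiplicity (𝔓.p : ℤ) n := FiniteMultiplicity.of_prime_left hqZ hn
  obtain ⟨c, hc, hdvd⟩ := hfin.exists_eq_pow_mul_and_not_dvd
  have hc0 : ((c : ℤ) : Qb) ≠ 0 := by
    have : c ≠ 0 := by
      rintro rfl
      exact hdvd (dvd_zero _)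
    exact_mod_cast this
  have hq0 : ((𝔓.p : ℕ) : Qb) ≠ 0 := by exact_mod_cast hq.ne_zero
  have e : ((n : ℤ) : Qb) = ((𝔓.p : ℕ) : Qb) ^ multiplicity (𝔓.p : ℤ) n * ((c : ℤ) : Qb) := by
    conv_lhs => rw [hc]
    push_cast
    ring
  rw [e, 𝔓.v.ord_mul' (pow_ne_zero _ hq0) hc0, 𝔓.v.ord_pow hq0, 𝔓.is_p.2, hv.ord_int c hdvd]
  ring

/-- the normalised valuation of a non-zero integer is its `p`-adic valuation -/
theorem mltpg_ord_intCast' (𝔓 : FFPlace) {n : ℤ} (hn : n ≠ 0) :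
    𝔓.v.ord ((n : ℤ) : Qb) = ((padicValRat 𝔓.p (n : ℚ) : ℤ) : ℚ) := by
  rw [mltpg_ord_intCast 𝔓 hn, padicValRat.of_int_multiplicity 𝔓.hp.ne_one hn]
  norm_cast

section Perm

variable {R : Type*} [CommRing R] {E : WeierstrassCurve R} {e₁ e₂ e₃ : R}

theorem mltpg_roots_swap23 (h : LreRoots E e₁ e₂ e₃) : LreRoots E e₁ e₃ e₂ :=
  ⟨by rw [h.hb₂]; ring, by rw [h.hb₄]; ring, by rw [h.hb₆]; ring⟩

theorem mltpg_roots_rot (h : LreRoots E e₁ e₂ e₃) : LreRoots E e₂ e₃ e₁ :=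
  ⟨by rw [h.hb₂]; ring, by rw [h.hb₄]; ring, by rw [h.hb₆]; ring⟩

end Perm

/-- the node datum -/
structure MltpgNode (W : WeierstrassCurve ℤ) (𝔓 : FFPlace) (e₁ e₂ e₃ : Qb) (h : ℚ) : Prop where
  roots : LreRoots ((s58E W)⁄Qb) e₁ e₂ e₃
  ge₁ : 𝔓.v.Ge e₁ 0
  ge₂ : 𝔓.v.Ge e₂ 0
  ge₃ : 𝔓.v.Ge e₃ 0
  pos : 0 < h
  is_e : 𝔓.v.Is (e₂ - e₁) h
  is_r : 𝔓.v.Is (e₃ - e₁) 0

/-- **existence of the node datum** at a prime of multiplicative reduction -/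
theorem mltpg_exists_node (W : WeierstrassCurve ℤ) (hΔ : W.Δ ≠ 0) (𝔓 : FFPlace) (hp2 : 𝔓.p ≠ 2)
    (hpΔ : (𝔓.p : ℤ) ∣ W.Δ) (hc₄ : ¬ (𝔓.p : ℤ) ∣ W.c₄) :
    ∃ e₁ e₂ e₃ : Qb, MltpgNode W 𝔓 e₁ e₂ e₃ ((multiplicity (𝔓.p : ℤ) W.Δ : ℕ) / 2) := by
  classical
  have hp := 𝔓.hp
  have hv := dlp_qvalFor 𝔓
  have h2 := hv.is_two hp hp2
  have h4 : 𝔓.v.Is (4 : Qb) 0 := lre_is_four h2
  set m : ℕ := multiplicity (𝔓.p : ℤ) W.Δ with hm
  have hqZ : Prime (𝔓.p : ℤ) := Nat.prime_iff_prime_int.mp hp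
  have hfin : FiniteMultiplicity (𝔓.p : ℤ) W.Δ := FiniteMultiplicity.of_prime_left hqZ hΔ
  have hm1 : 1 ≤ m := by
    have := (hfin.pow_dvd_iff_le_multiplicity (k := 1)).mp (by rwa [pow_one])
    exact this
  have hmpos : (0 : ℚ) < (m : ℚ) / 2 := by
    have : (1 : ℚ) ≤ m := by exact_mod_cast hm1
    linarith
  have hΔ0 : ((W.Δ : ℤ) : Qb) ≠ 0 := by exact_mod_cast hΔ
  have hΔK : 𝔓.v.Is ((s58E W)⁄Qb).Δ (2 * ((m : ℚ) / 2)) := by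
    rw [s58l_Δ_eq]
    refine ⟨hΔ0, ?_⟩
    rw [mltpg_ord_intCast 𝔓 hΔ]
    ring
  have hcK : 𝔓.v.Is ((s58E W)⁄Qb).c₄ 0 := by
    rw [s58l_c₄_eq]; exact hv.is_int hc₄
  -- the roots
  obtain ⟨x, y, z, hr, hdisc⟩ := lre_exists_roots h2.1 ((s58E W)⁄Qb)
  have hb₂ : 𝔓.v.Ge ((s58E W)⁄Qb).b₂ 0 := by
    rw [s58l_curve_eq, WeierstrassCurve.map_b₂, eq_intCast]; exact hv.ge_int _
  have hb₄ : 𝔓.v.Ge ((s58E W)⁄Qb).b₄ 0 := by
    rw [s58l_curve_eq, WeierstrassCurve.map_b₄, eq_intCast]; exact hv.ge_int _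
  have hb₆ : 𝔓.v.Ge ((s58E W)⁄Qb).b₆ 0 := by
    rw [s58l_curve_eq, WeierstrassCurve.map_b₆, eq_intCast]; exact hv.ge_int _
  have gx := lre_root_integral h2 hb₂ hb₄ hb₆ hr.root₁
  have gy := lre_root_integral h2 hb₂ hb₄ hb₆ hr.root₂
  have gz := lre_root_integral h2 hb₂ hb₄ hb₆ hr.root₃
  -- one of the differences is small
  have hsmall : 𝔓.v.Gt (x - y) 0 ∨ 𝔓.v.Gt (x - z) 0 ∨ 𝔓.v.Gt (y - z) 0 := by
    have h16 : 𝔓.v.Is (16 : Qb) 0 := by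
      have : (16 : Qb) = 4 * 4 := by norm_num
      rw [this]
      exact h4.mul0 h4
    have hprod : 𝔓.v.Gt (((x - y) * (x - z) * (y - z)) ^ 2) 0 := by
      have hne : ((x - y) * (x - z) * (y - z)) ^ 2 ≠ 0 := by
        intro h0
        apply hΔK.1
        rw [hdisc, h0, mul_zero]
      right
      have h1 := h16.mul (QVal.is_ord (v := 𝔓.v) hne)
      rw [← hdisc] at h1
      have := hΔK.unique h1
      linarith
    have hprod' : 𝔓.v.Gt ((x - y) * (x - z) * (y - z)) 0 := by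
      rw [pow_two] at hprod
      rcases s58l_gt_of_mul_gt hprod with h | h <;> exact h
    rcases s58l_gt_of_mul_gt hprod' with h | h
    · rcases s58l_gt_of_mul_gt h with h | h
      · exact Or.inl h
      · exact Or.inr (Or.inl h)
    · exact Or.inr (Or.inr h)
  -- the ordered roots
  obtain ⟨e₁, e₂, e₃, hr', hdisc', g₁, g₂, g₃, hu⟩ : ∃ e₁ e₂ e₃ : Qb,
      LreRoots ((s58E W)⁄Qb) e₁ e₂ e₃ ∧
      ((s58E W)⁄Qb).Δ = 16 * ((e₁ - e₂) * (e₁ - e₃) * (e₂ - e₃)) ^ 2 ∧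
      𝔓.v.Ge e₁ 0 ∧ 𝔓.v.Ge e₂ 0 ∧ 𝔓.v.Ge e₃ 0 ∧ 𝔓.v.Gt (e₁ - e₂) 0 := by
    rcases hsmall with h | h | h
    · exact ⟨x, y, z, hr, hdisc, gx, gy, gz, h⟩
    · exact ⟨x, z, y, mltpg_roots_swap23 hr, by rw [hdisc]; ring, gx, gz, gy, h⟩
    · exact ⟨y, z, x, mltpg_roots_rot hr, by rw [hdisc]; ring, gy, gz, gx, h⟩
  have hu4 : 𝔓.v.Gt (4 * (e₁ - e₂)) 0 := by
    have := h4.ge.mul_gt hu
    rwa [add_zero] at this
  obtain ⟨hc, hb⟩ := s58l_leg_val hr' hdisc' h2.ge h2.1 hcK hΔK hu4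
  -- `a` is a unit
  have ha : 𝔓.v.Is (-((e₂ - e₁) + (e₃ - e₁))) 0 := by
    have := hc.div h4
    rw [sub_zero] at this
    have e : 4 * (-((e₂ - e₁) + (e₃ - e₁))) / 4 = -((e₂ - e₁) + (e₃ - e₁)) := by
      field_simp
    rwa [e] at this
  have hegt : 𝔓.v.Gt (e₂ - e₁) 0 := by
    have := hu.neg
    rwa [neg_sub] at this
  have hrI : 𝔓.v.Is (e₃ - e₁) 0 := by
    have h1 := ha.neg
    rw [neg_neg] at h1
    have h2' := h1.sub_gt hegt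
    have e : (e₂ - e₁) + (e₃ - e₁) - (e₂ - e₁) = e₃ - e₁ := by ring
    rwa [e] at h2'
  have heI : 𝔓.v.Is (e₂ - e₁) ((m : ℚ) / 2) := by
    have hne : e₂ - e₁ ≠ 0 := fun h0 => hb.1 (by rw [h0, zero_mul])
    refine ⟨hne, ?_⟩
    have h1 := (QVal.is_ord (v := 𝔓.v) hne).mul hrI
    have := hb.unique h1
    linarith
  exact ⟨e₁, e₂, e₃, hr', g₁, g₂, g₃, hmpos, heI, hrI⟩

namespace MltpgNode

variable {W : WeierstrassCurve ℤ} {𝔓 : FFPlace} {e₁ e₂ e₃ : Qb} {h : ℚ}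
  (hN : MltpgNode W 𝔓 e₁ e₂ e₃ h)
include hN

theorem gt_e : 𝔓.v.Gt (e₂ - e₁) 0 := hN.is_e.gt hN.pos

theorem isLeg (hp2 : 𝔓.p ≠ 2) :
    IsLeg (mltpgLeg W e₁) (-((e₂ - e₁) + (e₃ - e₁))) ((e₂ - e₁) * (e₃ - e₁)) :=
  lre_isLeg ((dlp_qvalFor 𝔓).is_two 𝔓.hp hp2).1 hN.roots

theorem is_a : 𝔓.v.Is (-((e₂ - e₁) + (e₃ - e₁))) 0 := (hN.is_r.add_gt' hN.gt_e).neg

theorem is_b : 𝔓.v.Is ((e₂ - e₁) * (e₃ - e₁)) h := (hN.is_e.mul hN.is_r).congr (add_zero h)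

theorem is_er : 𝔓.v.Is ((e₂ - e₁) - (e₃ - e₁)) 0 := hN.is_r.sub_gt' hN.gt_e

theorem disc_ne : (-((e₂ - e₁) + (e₃ - e₁))) ^ 2 - 4 * ((e₂ - e₁) * (e₃ - e₁)) ≠ 0 := by
  have e : (-((e₂ - e₁) + (e₃ - e₁))) ^ 2 - 4 * ((e₂ - e₁) * (e₃ - e₁)) =
      ((e₂ - e₁) - (e₃ - e₁)) ^ 2 := by ring
  rw [e]
  exact pow_ne_zero 2 hN.is_er.1

/-- inertia fixes the root which does not reduce to the node -/
theorem fix₃ {σ : GQ} (hσ : σ ∈ 𝔓.I) : σ e₃ = e₃ := by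
  refine mltpg_root_fixed W 𝔓 (mltpg_roots_rot (mltpg_roots_rot hN.roots)) hN.ge₃ hN.is_r ?_ hσ
  have := hN.is_er.neg
  have e : -((e₂ - e₁) - (e₃ - e₁)) = e₃ - e₂ := by ring
  rwa [e] at this

/-- inertia fixes the sum of the two roots reducing to the node -/
theorem fix_sum {σ : GQ} (hσ : σ ∈ 𝔓.I) : σ (e₁ + e₂) = e₁ + e₂ := by
  have e : e₁ + e₂ = -((s58E W)⁄Qb).b₂ / 4 - e₃ := by
    rw [hN.roots.hb₂]; ring
  rw [e, map_sub, map_div₀, map_neg, mltpg_map_b₂, hN.fix₃ hσ, map_ofNat]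

/-- inertia fixes or exchanges the two roots reducing to the node -/
theorem perm₁ {σ : GQ} (hσ : σ ∈ 𝔓.I) : σ e₁ = e₁ ∨ σ e₁ = e₂ := by
  have hv := dlp_qvalFor 𝔓
  rcases mltpg_root_perm W hN.roots σ hN.roots.root₁ with h | h | h
  · exact Or.inl h
  · exact Or.inr h
  · left
    rcases hv.inert σ hσ e₁ ((hv.mem_iff e₁).mpr hN.ge₁) with h' | h'
    · exact h'
    · exfalso
      rw [h, hN.is_r.2] at h'
      exact lt_irrefl _ h'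

theorem smul_e₂ {σ : GQ} (hσ : σ ∈ 𝔓.I) : σ e₂ = e₁ + e₂ - σ e₁ := by
  have := hN.fix_sum hσ
  rw [map_add] at this
  linear_combination this

/-- the translation `σ e₁ - e₁` lies in the maximal ideal -/
theorem gt_c {σ : GQ} (hσ : σ ∈ 𝔓.I) : 𝔓.v.Gt (σ e₁ - e₁) 0 := by
  rcases hN.perm₁ hσ with h | h
  · rw [h, sub_self]; exact Or.inl rfl
  · rw [h]; exact hN.gt_e

end MltpgNode

end Fermat.Agent.MLT
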