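/-
MLT / at p, Galois side (helper5): **(P1) at a node for a twisted inertia-like endomorphism**.

Variant of `S13Lib.exists_inE_map_sub_of_node`.  There the endomorphism `T` of the points of the
Legendre curve `L : y² = x³ + a x² + b x` (`ord a = 0`, `ord b = h > 0`) acts on coordinates through
a field automorphism fixing `a` and `b`.  Here `T` is only assumed to move integral points to
congruent points and to preserve the depth of the points of the kernel of reduction
(`MltpgNodeLike`); this covers the elements of inertia which exchange the two roots `e₁, e₂` of the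
two-torsion polynomial reducing to the node (then `T (x, y) = (σ x + (e₂ - e₁), σ y)`).
The existence of `T`-fixed points in every admissible component is a hypothesis (`hfix`), and the
torsion order `n` is odd.
-/
import Mathlib
import Fermat.Agent.Lib.S13.AtP1

set_option autoImplicit false
set_option linter.unusedSectionVars false
set_option linter.unusedVariables false

open WeierstrassCurve WeierstrassCurve.Affine

namespace Fermat.Agent.MLT

open Fermat.Agent.S05Lib Fermat.Agent.S13Lib

variable {K : Type*} [Field K] [DecidableEq K]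

/-- a twisted inertia-like endomorphism of the points of `L` -/
structure MltpgNodeLike (v : QVal K) (L : WeierstrassCurve K)
    (T : L.toAffine.Point →+ L.toAffine.Point) : Prop where
  close : ∀ (x y : K) (h : L.toAffine.Nonsingular x y), v.Ge x 0 → v.Ge y 0 →
    ∃ (x' y' : K) (h' : L.toAffine.Nonsingular x' y'),
      T (Point.some x y h) = Point.some x' y' h' ∧ v.Gt (x' - x) 0 ∧ v.Gt (y' - y) 0
  deep : ∀ (x y : K) (h : L.toAffine.Nonsingular x y), v.Lt x 0 →
    ∃ (x' y' : K) (h' : L.toAffine.Nonsingular x' y'),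
      T (Point.some x y h) = Point.some x' y' h' ∧ v.Is x' (v.ord x)

section

variable {v : QVal K} {L : WeierstrassCurve K} {a b : K}
  {T : L.toAffine.Point →+ L.toAffine.Point}

/-- `T P₀ - P₀` lies in the kernel of reduction for `P₀` in good position -/
theorem mltpg_inE_map_sub (hW : IsLeg L a b) (ha : v.Ge a 0) (hb : v.Ge b 0)
    (h2 : v.Is (2 : K) 0) (hT : MltpgNodeLike v L T) {P₀ : L.toAffine.Point}
    (hP₀ : GoodPos v a b P₀) : ∃ τ : ℚ, 0 < τ ∧ InE v τ (T P₀ - P₀) := by
  rcases P₀ with _ | ⟨x, y, hxy⟩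
  · refine ⟨1, one_pos, ?_⟩
    have e0 : (Point.zero : L.toAffine.Point) = 0 := rfl
    rw [e0, map_zero, sub_zero]
    trivial
  · rcases hP₀ with hlt | ⟨hge, hns⟩
    · obtain ⟨x', y', h', e, hx'⟩ := hT.deep x y hxy hlt
      rw [e]
      have hτ : 0 < -v.ord x := by linarith [hlt.2]
      refine ⟨-v.ord x, hτ, ?_⟩
      have i1 : InE v (-v.ord x) (Point.some x y hxy) := by
        rw [inE_some]
        exact ⟨hlt.1, by linarith⟩
      have i2 : InE v (-v.ord x) (Point.some x' y' h') := by
        rw [inE_some]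
        exact ⟨hx'.1, by rw [hx'.2]; linarith⟩
      exact (inE_add_sub hW ha hb h2 hτ i2 i1).2.1
    · have hy : v.Ge y 0 := y_integral hW ha hb hxy hge
      obtain ⟨x', y', h', e, hxx, hyy⟩ := hT.close x y hxy hge hy
      rw [e]
      exact exists_inE_sub_of_close hW ha hb h2 hxy h' hge hns hxx hyy

/-- If `P = P₀ + R` with `P₀` in good position and `R` fixed by `T`, then `T P - P` lies in the
kernel of reduction. -/
theorem mltpg_inE_map_sub_of_goodPos_add (hW : IsLeg L a b) (ha : v.Ge a 0) (hb : v.Ge b 0)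
    (h2 : v.Is (2 : K) 0) (hT : MltpgNodeLike v L T)
    {P₀ R : L.toAffine.Point} (hP₀ : GoodPos v a b P₀) (hR : T R = R) :
    ∃ τ : ℚ, 0 < τ ∧ InE v τ (T (P₀ + R) - (P₀ + R)) := by
  obtain ⟨τ, hτ, hin⟩ := mltpg_inE_map_sub hW ha hb h2 hT hP₀
  have e1 : T (P₀ + R) - (P₀ + R) = T P₀ - P₀ := by
    rw [map_add, hR]
    abel
  exact ⟨τ, hτ, by rw [e1]; exact hin⟩

/-- **(P1) at a node for a twisted inertia-like endomorphism**, odd torsion -/
theorem mltpg_inE_map_sub_of_node (hW : IsLeg L a b) (ha : v.Is a 0) {h : ℚ} (hb : v.Is b h)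
    (hh : 0 < h) (h2 : v.Is (2 : K) 0) (hT : MltpgNodeLike v L T) {n : ℕ} (hn : Odd n)
    (hfix : ∀ j : ℚ, 0 < j → j < h → (∃ k : ℤ, (n : ℚ) * j = 2 * h * k) →
      ∃ R : L.toAffine.Point, T R = R ∧ fP v h R = j)
    (hnode : ∀ x y : K, L.toAffine.Nonsingular x y → v.Is x 0 →
      v.Is y 0 ∨ v.Is (3 * x ^ 2 + 2 * a * x + b) 0)
    {P : L.toAffine.Point} (hP : n • P = 0) :
    ∃ τ : ℚ, 0 < τ ∧ InE v τ (T P - P) := by
  have hh' := hh.le
  set j := fP v h P with hj
  have hj0 : 0 ≤ j := fP_nonneg hh' P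
  have hjh : j ≤ h := fP_le hh' P
  have hmem := nsmul_fP_mem hW ha hb hh h2 P hP
  have hR : ∃ R : L.toAffine.Point, T R = R ∧ fP v h R = j := by
    rcases hj0.lt_or_eq with hpos | hzero
    · rcases hjh.lt_or_eq with hlt | heq
      · exact hfix j hpos hlt hmem
      · exfalso
        obtain ⟨k, hk⟩ := hmem
        rw [← hj, heq] at hk
        have h1 : (n : ℚ) = 2 * k := by
          have hh0 : h ≠ 0 := hh.ne'
          field_simp at hk
          linarith
        have h3 : (n : ℤ) = 2 * k := by exact_mod_cast h1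
        obtain ⟨i, hi⟩ := hn
        omega
    · exact ⟨0, map_zero T, by rw [fP_zero, hzero]⟩
  obtain ⟨R, hTR, hfR⟩ := hR
  have pl := pairLaw_points hW ha hb hh h2 P R
  unfold PairLaw at pl
  rw [hfR, ← hj, sub_self, abs_zero] at pl
  have goodPos_of_fP : ∀ P₀ : L.toAffine.Point, fP v h P₀ = 0 → GoodPos v a b P₀ := by
    intro P₀ h0
    rcases P₀ with _ | ⟨x, y, hxy⟩
    · trivial
    · rw [fP_some] at h0
      have hle : v.Le x 0 := by
        rcases fx_cases v h x with c | ⟨t, ht0, hth, c⟩ | c
        · exact c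
        · rw [fx_of_is c ht0.le hth.le] at h0
          linarith
        · rw [fx_of_ge hh' c] at h0
          linarith
      rcases hle.2.lt_or_eq with hlt | heq
      · exact Or.inl ⟨hle.1, hlt⟩
      · have hx0 : v.Is x 0 := ⟨hle.1, heq⟩
        exact Or.inr ⟨hx0.ge, hnode x y hxy hx0⟩
  have ha' : v.Ge a 0 := ha.ge
  have hb' : v.Ge b 0 := hb.ge' hh'
  rcases pl with ⟨_, pb⟩ | ⟨pa, _⟩
  · have hgp := goodPos_of_fP (P - R) pb
    have := mltpg_inE_map_sub_of_goodPos_add hW ha' hb' h2 hT hgp hTR
    rwa [sub_add_cancel] at this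
  · have hgp := goodPos_of_fP (P + R) pa
    have hTR' : T (-R) = -R := by rw [map_neg, hTR]
    have := mltpg_inE_map_sub_of_goodPos_add hW ha' hb' h2 hT hgp hTR'
    rwa [add_neg_cancel_right] at this

end

end Fermat.Agent.MLT
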