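/-
MLT / at p, Galois side (helper5): **PEU for a curve with multiplicative reduction at `p` and
`p ∣ ord_p Δ`**.

`W` a Weierstrass curve over `ℤ`, `p` odd, `p ∣ Δ`, `p ∤ c₄`, `p ∣ ord_p Δ`.  Then `W[p]` has the
*peu ramifiée* structure `Delta.DlpPeu (s58E W) 𝔓 p ζ` (`mltpg_peu_mult`).  No hypothesis on the
parity of `ord_p Δ`: when it is odd the two roots `e₁, e₂` of the two-torsion polynomial reducing to
the node are exchanged by half of the inertia group; (P1) is proved for all of inertia through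
`mltpg_inE_map_sub_of_node`, and the elements of inertia fixing `ζ_p` fix `e₁` because
`(e₁ - e₂) / (ζ_p - 1) ^ ((p - 1) / 2 · ord_p Δ)` is a unit whose square is inertia-invariant.
-/
import Mathlib
import Fermat.Prelude.Def_WeierstrassCurve_PeuRamifiee
import Fermat.Agent.Lib.Delta.Peu.Frey
import Fermat.Agent.Lib.MLT.AtPG.PeuNode
import Fermat.Agent.Lib.MLT.AtPG.PeuNodeP1

set_option autoImplicit false
set_option linter.unusedSectionVars false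
set_option linter.unusedVariables false
set_option linter.style.haveILetI false

open WeierstrassCurve WeierstrassCurve.Affine

namespace Fermat.Agent.MLT

open Fermat.Agent.S05Lib Fermat.Agent.S13Lib Fermat.Agent.TW Fermat.Agent.Delta
  Fermat.Agent.S58 Fermat.Agent.LR Fermat.Agent.X015

local notation "Qb" => AlgebraicClosure ℚ
local notation "GQ" => (AlgebraicClosure ℚ ≃ₐ[ℚ] AlgebraicClosure ℚ)

namespace MltpgNode

variable {W : WeierstrassCurve ℤ} {𝔓 : FFPlace} {e₁ e₂ e₃ : Qb} {h : ℚ}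
  (hN : MltpgNode W 𝔓 e₁ e₂ e₃ h)
include hN

/-- an element of inertia is congruent to the identity on integral elements -/
theorem gt_inert {σ : GQ} (hσ : σ ∈ 𝔓.I) {x : Qb} (hx : 𝔓.v.Ge x 0) : 𝔓.v.Gt (σ x - x) 0 := by
  have hv := dlp_qvalFor 𝔓
  rcases hv.inert σ hσ x ((hv.mem_iff x).mpr hx) with h | h
  · exact Or.inl (sub_eq_zero.mpr h)
  · exact Or.inr h

/-- every element of inertia is twisted-inertia-like on the Legendre model -/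
theorem nodeLike {σ : GQ} (hσ : σ ∈ 𝔓.I) :
    MltpgNodeLike 𝔓.v (mltpgLeg W e₁) (mltpgT W e₁ σ) where
  close X Y hXY hX hY := by
    obtain ⟨h', e⟩ := (mltpg_phi_smul_gen W σ
      ((mltpgPhi W e₁).symm (Point.some X Y hXY))).2 X Y hXY (AddEquiv.apply_symm_apply _ _)
    refine ⟨σ X + (σ e₁ - e₁), σ Y, h', by rw [mltpgT_apply]; exact e, ?_, ?_⟩
    · have := (hN.gt_inert hσ hX).add (hN.gt_c hσ)
      have e' : σ X - X + (σ e₁ - e₁) = σ X + (σ e₁ - e₁) - X := by ring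
      rwa [e'] at this
    · exact hN.gt_inert hσ hY
  deep X Y hXY hX := by
    have hv := dlp_qvalFor 𝔓
    obtain ⟨h', e⟩ := (mltpg_phi_smul_gen W σ
      ((mltpgPhi W e₁).symm (Point.some X Y hXY))).2 X Y hXY (AddEquiv.apply_symm_apply _ _)
    refine ⟨σ X + (σ e₁ - e₁), σ Y, h', by rw [mltpgT_apply]; exact e, ?_⟩
    have hσX : 𝔓.v.Is (σ X) (𝔓.v.ord X) :=
      ⟨(map_ne_zero σ).mpr hX.1, hv.ord_inertia σ hσ X⟩
    exact hσX.add_gt ((hN.gt_c hσ).mono hX.2.le)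

/-- **inertia-fixed points in every integral component** -/
theorem exists_fixed (hp2 : 𝔓.p ≠ 2) {j : ℕ} (hj0 : 0 < j) (hjh : (j : ℚ) < h) :
    ∃ R : (mltpgLeg W e₁).toAffine.Point,
      (∀ σ ∈ 𝔓.I, mltpgT W e₁ σ R = R) ∧ fP 𝔓.v h R = j := by
  have hv := dlp_qvalFor 𝔓
  have h2 := hv.is_two 𝔓.hp hp2
  have hW := hN.isLeg hp2
  set e := e₂ - e₁ with he
  set r := e₃ - e₁ with hr
  set π : Qb := ((𝔓.p : ℕ) : Qb) ^ j with hπ
  have hπi : 𝔓.v.Is π j := (𝔓.is_p.pow j).congr (by ring)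
  have hhalf : 𝔓.v.Is (e / 2) h := (hN.is_e.div h2).congr (sub_zero h)
  set X : Qb := e / 2 + π with hX
  have hXi : 𝔓.v.Is X j := hπi.add_gt' (hhalf.gt hjh)
  have hXe : 𝔓.v.Is (X - e) j := by
    have e' : X - e = -(e / 2) + π := by rw [hX]; ring
    rw [e']
    exact hπi.add_gt' (hhalf.neg.gt hjh)
  have hjpos : (0 : ℚ) < j := by exact_mod_cast hj0
  have hXr : 𝔓.v.Is (X - r) 0 := by
    have := hN.is_r.neg.add_gt' (hXi.gt hjpos)
    rwa [← sub_eq_add_neg] at this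
  have hfac : X ^ 3 + (-(e + r)) * X ^ 2 + e * r * X = X * (X - e) * (X - r) := by ring
  have hc : 𝔓.v.Is (X ^ 3 + (-(e + r)) * X ^ 2 + e * r * X) ((j : ℚ) + j) := by
    rw [hfac]
    exact ((hXi.mul hXe).mul hXr).congr (by ring)
  obtain ⟨Y, hY⟩ := IsAlgClosed.exists_pow_nat_eq (X ^ 3 + (-(e + r)) * X ^ 2 + e * r * X) two_pos
  have hY0 : Y ≠ 0 := by
    intro h0
    rw [h0] at hY
    apply hc.1
    rw [← hY]
    ring
  have hYi : 𝔓.v.Is Y j := by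
    refine ⟨hY0, ?_⟩
    have := (QVal.is_ord (v := 𝔓.v) hY0).sq
    rw [hY] at this
    have := this.unique hc
    linarith
  have hns : (mltpgLeg W e₁).toAffine.Nonsingular X Y := by
    rw [Affine.nonsingular_iff]
    refine ⟨(hW.equation_iff X Y).mpr hY, Or.inr ?_⟩
    rw [hW.a₁, hW.a₃]
    intro h0
    have : 2 * Y = 0 := by linear_combination h0
    exact (mul_ne_zero h2.1 hY0) this
  refine ⟨Point.some X Y hns, ?_, ?_⟩
  · intro σ hσ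
    obtain ⟨h', e'⟩ := (mltpg_phi_smul_gen W σ
      ((mltpgPhi W e₁).symm (Point.some X Y hns))).2 X Y hns (AddEquiv.apply_symm_apply _ _)
    rw [mltpgT_apply, e', Point.some.injEq]
    have hσπ : σ π = π := by rw [hπ, map_pow, map_natCast]
    have hσ2 := hN.smul_e₂ hσ
    have hσX : σ X + (σ e₁ - e₁) = X := by
      rw [hX, he, map_add, map_div₀, map_sub, hσπ, hσ2, map_ofNat]
      ring
    refine ⟨hσX, ?_⟩
    -- `σ Y = ± Y`
    have hY' : Y ^ 2 = (X + e₁ - e₁) * (X + e₁ - e₂) * (X + e₁ - e₃) := by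
      rw [hY, hfac, he, hr]; ring
    have hσc : σ (X + e₁) = X + e₁ := by
      have : σ (X + e₁) = σ X + (σ e₁ - e₁) + e₁ := by rw [map_add]; ring
      rw [this, hσX]
    have hsq' : (σ Y) ^ 2 = Y ^ 2 := by
      rw [← map_pow, hY', map_mul, map_mul, map_sub, map_sub, map_sub, hσc, hN.fix₃ hσ, hσ2]
      rcases hN.perm₁ hσ with h1 | h1 <;> rw [h1] <;> ring
    have : (σ Y - Y) * (σ Y + Y) = 0 := by linear_combination hsq'
    rcases mul_eq_zero.mp this with h0 | h0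
    · exact sub_eq_zero.mp h0
    · exfalso
      have hneg : σ Y = -Y := by linear_combination h0
      have ht : 𝔓.v.Is (Y / π) 0 := by
        have := hYi.div hπi
        simpa using this
      have hin := hN.gt_inert hσ ht.ge
      have e2 : σ (Y / π) - Y / π = -(2 * (Y / π)) := by
        rw [map_div₀, hσπ, hneg]
        ring
      rw [e2] at hin
      have : 𝔓.v.Is (-(2 * (Y / π))) 0 := by
        have := (h2.mul ht).neg
        simpa using this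
      exact this.not_gt hin le_rfl
  · rw [fP_some]
    exact fx_of_is hXi hjpos.le hjh.le

/-- **(P1) for all of inertia** -/
theorem p1 (hp2 : 𝔓.p ≠ 2) {h₁ : ℕ} (hh : 2 * h = ((𝔓.p * h₁ : ℕ) : ℚ)) {σ : GQ} (hσ : σ ∈ 𝔓.I)
    (P : ((s58E W)⁄Qb).Point) (hP : 𝔓.p • P = 0) :
    ∃ τ : ℚ, 0 < τ ∧ InE 𝔓.v τ (mltpgPhi W e₁ (σ • P - P)) := by
  have hv := dlp_qvalFor 𝔓
  have hp := 𝔓.hp
  have h2 := hv.is_two hp hp2
  have hW := hN.isLeg hp2
  have hpodd : Odd 𝔓.p := hp.odd_of_ne_two hp2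
  have hppos : (0 : ℚ) < 𝔓.p := by exact_mod_cast hp.pos
  have hfix : ∀ j : ℚ, 0 < j → j < h → (∃ k : ℤ, (𝔓.p : ℚ) * j = 2 * h * k) →
      ∃ R : (mltpgLeg W e₁).toAffine.Point, mltpgT W e₁ σ R = R ∧ fP 𝔓.v h R = j := by
    intro j hj0 hjh ⟨k, hk⟩
    -- `j = h₁ k`
    have hj : j = (h₁ : ℚ) * k := by
      have : (𝔓.p : ℚ) * j = 𝔓.p * ((h₁ : ℚ) * k) := by
        rw [hk, hh]; push_cast; ring
      exact mul_left_cancel₀ hppos.ne' this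
    have hkpos : 0 < k := by
      by_contra hcon
      push Not at hcon
      have : (k : ℚ) ≤ 0 := by exact_mod_cast hcon
      have h1 : (0 : ℚ) ≤ h₁ := Nat.cast_nonneg _
      nlinarith
    obtain ⟨m, rfl⟩ : ∃ m : ℕ, (m : ℤ) = k := ⟨k.toNat, Int.toNat_of_nonneg hkpos.le⟩
    have hjJ : j = ((h₁ * m : ℕ) : ℚ) := by rw [hj]; push_cast; ring
    have hJpos : 0 < h₁ * m := by
      have : (0 : ℚ) < ((h₁ * m : ℕ) : ℚ) := by rw [← hjJ]; exact hj0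
      exact_mod_cast this
    obtain ⟨R, hR1, hR2⟩ := hN.exists_fixed hp2 hJpos (by rw [← hjJ]; exact hjh)
    exact ⟨R, hR1 σ hσ, by rw [hR2, hjJ]⟩
  obtain ⟨τ, hτ, i⟩ := mltpg_inE_map_sub_of_node hW hN.is_a hN.is_b hN.pos h2 (hN.nodeLike hσ)
    hpodd hfix (node_of_roots hW hN.gt_e hN.is_r)
    (P := mltpgPhi W e₁ P) (by rw [← map_nsmul, hP, map_zero])
  refine ⟨τ, hτ, ?_⟩
  rw [map_sub, ← mltpgT_phi]
  exact i

/-- the elements of inertia fixing `ζ_p` fix the roots reducing to the node -/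
theorem fix₁_of_zeta (hp2 : 𝔓.p ≠ 2) {m : ℕ} (hh : 2 * h = m) {ζ : Qb}
    (hζ : IsPrimitiveRoot ζ 𝔓.p) {σ : GQ} (hσ : σ ∈ 𝔓.I) (hσζ : σ ζ = ζ) : σ e₁ = e₁ := by
  have hv := dlp_qvalFor 𝔓
  have hp := 𝔓.hp
  have h2 := hv.is_two hp hp2
  by_contra hne
  have h1 : σ e₁ = e₂ := (hN.perm₁ hσ).resolve_left hne
  have h2' : σ e₂ = e₁ := by rw [hN.smul_e₂ hσ, h1]; ring
  have hz : 𝔓.v.Is (ζ - 1) (1 / ((𝔓.p : ℚ) - 1)) := by
    have := dlp_is_zeta_pow_sub_one (v := 𝔓.v) hp hζ 𝔓.is_p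
      (fun h => hp.one_lt.ne' (Nat.dvd_one.mp h))
    rwa [pow_one] at this
  obtain ⟨k, hk⟩ := hp.odd_of_ne_two hp2
  have hk' : (𝔓.p : ℚ) - 1 = 2 * k := by
    have : (𝔓.p : ℚ) = ((2 * k + 1 : ℕ) : ℚ) := by rw [← hk]
    rw [this]; push_cast; ring
  have hkpos : (0 : ℚ) < k := by
    have h3 : (3 : ℚ) ≤ 𝔓.p := by
      have := hp.two_le
      have : 3 ≤ 𝔓.p := by omega
      exact_mod_cast this
    linarith
  set g : Qb := (ζ - 1) ^ k with hg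
  have hgi : 𝔓.v.Is g (1 / 2) := by
    refine (hz.pow k).congr ?_
    rw [hk']
    field_simp
  have hGi : 𝔓.v.Is (g ^ m) h := by
    refine (hgi.pow m).congr ?_
    linarith
  have hσg : σ g = g := by rw [hg, map_pow, map_sub, hσζ, map_one]
  have ht : 𝔓.v.Is ((e₂ - e₁) / g ^ m) 0 := (hN.is_e.div hGi).congr (sub_self h)
  have hin := hN.gt_inert hσ ht.ge
  have e2 : σ ((e₂ - e₁) / g ^ m) - (e₂ - e₁) / g ^ m = -(2 * ((e₂ - e₁) / g ^ m)) := by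
    rw [map_div₀, map_pow, hσg, map_sub, h1, h2']
    ring
  rw [e2] at hin
  have : 𝔓.v.Is (-(2 * ((e₂ - e₁) / g ^ m))) 0 := by
    have := (h2.mul ht).neg
    simpa using this
  exact this.not_gt hin le_rfl

end MltpgNode

/-- **PEU for multiplicative reduction with `p ∣ ord_p Δ`** -/
theorem mltpg_peu_mult (W : WeierstrassCurve ℤ) (hΔ : W.Δ ≠ 0) (𝔓 : FFPlace) (hp2 : 𝔓.p ≠ 2)
    (hpΔ : (𝔓.p : ℤ) ∣ W.Δ) (hc₄ : ¬ (𝔓.p : ℤ) ∣ W.c₄)
    (hpeu : (s58E W).IsPeuRamifieeAt 𝔓.p 𝔓.p) {ζ : Qb} (hζ : IsPrimitiveRoot ζ 𝔓.p) :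
    DlpPeu (s58E W) 𝔓 𝔓.p ζ := by
  classical
  have hp := 𝔓.hp
  have hv := dlp_qvalFor 𝔓
  have h2 := hv.is_two hp hp2
  have hpodd : Odd 𝔓.p := hp.odd_of_ne_two hp2
  have hp3 : 3 ≤ 𝔓.p := by
    have := hp.two_le
    omega
  have hp1 : 𝔓.v.Is ((𝔓.p : ℕ) : Qb) 1 := 𝔓.is_p
  have hppos : (0 : ℚ) < 𝔓.p := by exact_mod_cast hp.pos
  obtain ⟨e₁, e₂, e₃, hN⟩ := mltpg_exists_node W hΔ 𝔓 hp2 hpΔ hc₄
  set m : ℕ := multiplicity (𝔓.p : ℤ) W.Δ with hm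
  -- `m = p h₁`
  have hdvd : (𝔓.p : ℤ) ∣ (m : ℤ) := by
    have h1 : (𝔓.p : ℤ) ∣ padicValRat 𝔓.p (s58E W).Δ := hpeu
    have e : (s58E W).Δ = ((W.Δ : ℤ) : ℚ) := by
      rw [WeierstrassCurve.map_Δ, eq_intCast]
    rwa [e, padicValRat.of_int_multiplicity hp.ne_one hΔ] at h1
  obtain ⟨h₁, hh₁⟩ : ∃ h₁ : ℕ, m = 𝔓.p * h₁ := Int.natCast_dvd_natCast.mp hdvd
  have hh : 2 * ((m : ℚ) / 2) = ((𝔓.p * h₁ : ℕ) : ℚ) := by rw [← hh₁]; ring
  have hm1 : 1 ≤ m := by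
    have h0 : (0 : ℚ) < m := by linarith [hN.pos]
    have : 0 < m := by exact_mod_cast h0
    exact this
  have hh₁1 : 1 ≤ h₁ := by
    rcases Nat.eq_zero_or_pos h₁ with h0 | h0
    · rw [h0, mul_zero] at hh₁; omega
    · exact h0
  have hh1 : (1 : ℚ) ≤ (m : ℚ) / 2 := by
    have h3 : (3 : ℚ) ≤ 𝔓.p := by exact_mod_cast hp3
    have h4 : (1 : ℚ) ≤ h₁ := by exact_mod_cast hh₁1
    have h5 : (m : ℚ) = 𝔓.p * h₁ := by rw [hh₁]; push_cast; ring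
    rw [h5]
    nlinarith
  have hW := hN.isLeg hp2
  -- a torsion point outside the kernel of reduction
  obtain ⟨Vp, hVp⟩ := mltpg_exists_finset_tors W hΔ hp.pos e₁
  obtain ⟨TL, hTV, hT0, hTge⟩ := dlp_exists_not_ker hW hN.is_b.1 hN.disc_ne hN.is_a.ge hh1
    hN.is_b.ge hpodd hp3 hp1 Vp hVp
  have hTtor : 𝔓.p • TL = 0 := (hVp TL).mp hTV
  have hxT0 : xc TL ≠ 0 := xc_ne_zero_of_odd_torsion hW hpodd hTtor hT0
  rcases TL with _ | ⟨x₁, y₁, h₁'⟩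
  · exact absurd rfl hT0
  set α : ℚ := 𝔓.v.ord x₁ with hα
  have hxT : 𝔓.v.Is x₁ α := ⟨hxT0, rfl⟩
  have hα0 : 0 ≤ α := hTge.resolve_left hxT0
  obtain ⟨hαh, kα, hkα⟩ := dlp_lt_of_torsion hW hN.is_a hN.is_b hN.pos h2 hpodd h₁' hTtor hxT hα0
  have hy₁ := dlp_is_y_of_torsion hW hN.is_a hN.is_b hN.pos h2 hpodd h₁' hTtor hxT hα0 hαh
  have hαint : α = (((h₁ : ℤ) * kα : ℤ) : ℚ) := by
    push_cast
    have : (𝔓.p : ℚ) * α = (𝔓.p : ℚ) * ((h₁ : ℚ) * kα) := by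
      rw [hkα, hh]; push_cast; ring
    exact mul_left_cancel₀ hppos.ne' this
  have hn0 : (0 : ℤ) ≤ (h₁ : ℤ) * kα := by
    have : (0 : ℚ) ≤ (((h₁ : ℤ) * kα : ℤ) : ℚ) := by rw [← hαint]; exact hα0
    exact_mod_cast this
  refine mltpg_leg_peu 𝔓 hp2 hW (mltpgPhi W e₁) hN.is_b.1 hN.disc_ne hN.is_a.ge
    (hN.is_b.ge' hN.pos.le) (mltpg_card_tors W hΔ hp.pos) ?_ ?_ hζ ?_ ?_
    ((mltpgPhi W e₁).symm (Point.some x₁ y₁ h₁')) ?_ h₁' (AddEquiv.apply_symm_apply _ _)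
    (n := (h₁ : ℤ) * kα) hn0 (hαint ▸ hxT) (hαint ▸ hy₁) (hαint ▸ hN.is_b.ge' hαh.le)
  · exact fun σ hσ T ⟨τ, hτ, i⟩ => ⟨τ, hτ, mltpg_inE_smul W 𝔓 hN.ge₁ hσ hτ T i⟩
  · exact fun σ hσ P hP => hN.p1 hp2 hh hσ P hP
  · exact fun σ hσ N k h1 h2 h3 h4 => mltpg_det W hΔ hp hζ σ N k h1 h2 h3 h4
  · exact fun σ hσ hσζ P => mltpg_xc_phi_smul W (hN.fix₁_of_zeta hp2 (m := m) (by ring) hζ hσ hσζ) P
  · rw [← map_nsmul, hTtor, map_zero]

end Fermat.Agent.MLT
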