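/-
MLT / at p, Galois side (helper5): **the line through two points of a Legendre curve**.

`L : y² = x³ + a x² + b x` over a field.  For two affine points `P₁ ≠ -P₂` the sum is
`P₁ + P₂ = (x₃, -y₃)` where the three points `(xᵢ, yᵢ)` lie on a line `y = ℓ x + ν`
and `x₁, x₂, x₃` are the roots of `x³ + a x² + b x - (ℓ x + ν)²`:
`x₁ + x₂ + x₃ = ℓ² - a`, `x₁x₂ + x₁x₃ + x₂x₃ = b - 2ℓν`, `x₁x₂x₃ = ν²` (`mltpg_line`).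
Consequence (`mltpg_line_prod`): for `ρ² = a`,
`∏ (yᵢ - ρ xᵢ) = ν (ν² + b (ℓ - ρ)²)` — for `b = 0` (nodal cubic) this is the statement that
`t = (y - ρ x) / (y + ρ x)` is multiplicative.
-/
import Mathlib
import Fermat.Agent.Lib.S05.Legendre
import Fermat.Agent.Lib.ET.Reduction

set_option autoImplicit false
set_option linter.unusedSectionVars false
set_option linter.unusedVariables false

open WeierstrassCurve WeierstrassCurve.Affine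

namespace Fermat.Agent.MLT

open Fermat.Agent.S05Lib Fermat.Agent.ET

variable {K : Type*} [Field K] [DecidableEq K] {W : WeierstrassCurve K} {a b : K}

/-- **the line through two points** -/
theorem mltpg_line (hW : IsLeg W a b) {x₁ y₁ x₂ y₂ : K} (h₁ : W.toAffine.Nonsingular x₁ y₁)
    (h₂ : W.toAffine.Nonsingular x₂ y₂)
    (hxy : ¬(x₁ = x₂ ∧ y₁ = W.toAffine.negY x₂ y₂)) :
    ∃ (ℓ ν x₃ y₃ : K) (h₃ : W.toAffine.Nonsingular x₃ (-y₃)),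
      Point.some x₁ y₁ h₁ + Point.some x₂ y₂ h₂ = Point.some x₃ (-y₃) h₃ ∧
      y₁ = ℓ * x₁ + ν ∧ y₂ = ℓ * x₂ + ν ∧ y₃ = ℓ * x₃ + ν ∧
      x₁ + x₂ + x₃ = ℓ ^ 2 - a ∧ x₁ * x₂ + x₁ * x₃ + x₂ * x₃ = b - 2 * ℓ * ν ∧
      x₁ * x₂ * x₃ = ν ^ 2 := by
  set ℓ := W.toAffine.slope x₁ x₂ y₁ y₂ with hℓ
  have r1 := etg_slope_mul_sub_X W.toAffine h₁.1 h₂.1 hxy
  have r2 := etg_slope_mul_sub_Y W.toAffine h₁.1 h₂.1 hxy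
  rw [← hℓ] at r1 r2
  rw [hW.negY_eq] at r2
  have ea₁ : W.toAffine.a₁ = 0 := hW.a₁
  have ea₂ : W.toAffine.a₂ = a := hW.a₂
  have ea₄ : W.toAffine.a₄ = b := hW.a₄
  rw [ea₁, ea₂, ea₄] at r2
  have q₁ := hW.eq_of_nonsingular h₁
  have hsum := Point.add_some hxy (h₁ := h₁) (h₂ := h₂)
  have hX : W.toAffine.addX x₁ x₂ ℓ = ℓ ^ 2 - a - x₁ - x₂ := by
    simp only [Affine.addX]
    rw [ea₁, ea₂]
    ring
  have hY : W.toAffine.addY x₁ x₂ y₁ ℓ = -(ℓ * (ℓ ^ 2 - a - x₁ - x₂) + (y₁ - ℓ * x₁)) := by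
    simp only [Affine.addY, Affine.negAddY, Affine.negY]
    rw [hX, ea₁, hW.a₃]
    ring
  have hns := nonsingular_add h₁ h₂ hxy
  rw [← hℓ, hX, hY] at hns
  refine ⟨ℓ, y₁ - ℓ * x₁, ℓ ^ 2 - a - x₁ - x₂, ℓ * (ℓ ^ 2 - a - x₁ - x₂) + (y₁ - ℓ * x₁), hns,
    ?_, by ring, by linear_combination r1, rfl, by ring, ?_, ?_⟩
  · rw [hsum, Point.some.injEq]
    exact ⟨hX, hY⟩
  · linear_combination r2 - ℓ * r1
  · linear_combination (-1 : K) * q₁ + x₁ * r2 - ℓ * x₁ * r1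

/-- **the product formula** -/
theorem mltpg_line_prod {ρ x₁ x₂ x₃ ℓ ν : K} (hρ : ρ ^ 2 = a)
    (e₁ : x₁ + x₂ + x₃ = ℓ ^ 2 - a) (e₂ : x₁ * x₂ + x₁ * x₃ + x₂ * x₃ = b - 2 * ℓ * ν)
    (e₃ : x₁ * x₂ * x₃ = ν ^ 2) :
    (ℓ * x₁ + ν - ρ * x₁) * (ℓ * x₂ + ν - ρ * x₂) * (ℓ * x₃ + ν - ρ * x₃) =
      ν * (ν ^ 2 + b * (ℓ - ρ) ^ 2) := by
  have key : (ℓ * x₁ + ν - ρ * x₁) * (ℓ * x₂ + ν - ρ * x₂) * (ℓ * x₃ + ν - ρ * x₃) =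
      (ℓ - ρ) ^ 3 * (x₁ * x₂ * x₃) + (ℓ - ρ) ^ 2 * ν * (x₁ * x₂ + x₁ * x₃ + x₂ * x₃) +
        (ℓ - ρ) * ν ^ 2 * (x₁ + x₂ + x₃) + ν ^ 3 := by ring
  rw [key, e₁, e₂, e₃, ← hρ]
  ring

end Fermat.Agent.MLT
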