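/-
MLT / at p, Galois side (helper5): **the multiplicative parameter at a node**.

`L : y² = x³ + a x² + b x` over a valued field `(K, v)` with `ord 2 = 0`, `ord a = 0`,
`ord b = h > 0` (node at `(0, 0)`), `ρ² = a`.  `E₀ = {fP = 0}` is the subgroup of the points with
nonsingular reduction (`ord x ≤ 0`), `E₁ = {ord x < 0}` the kernel of reduction.

* `mltpgTf ρ P = (y - ρ x) / (y + ρ x)` is a unit on `E₀` (`mltpg_tf_is`), congruent to `1` exactly
  on `E₁` (`mltpg_tf_sub_one_is`);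
* `mltpg_tf_add` : `t (P + Q) ≡ t P · t Q` modulo the maximal ideal for `P, Q ∈ E₀`
  (the reduction `E₀ → k^×` is a homomorphism);
* `mltpg_E0_torsion` : if the residue characteristic is `p`, a point of `E₀` killed by `p ^ k`
  lies in `E₁`.
-/
import Mathlib
import Fermat.Agent.Lib.S05.Node
import Fermat.Agent.Lib.S13.AtP2
import Fermat.Agent.Lib.S13.DivPoly.Roots
import Fermat.Agent.Lib.MLT.AtPG.NodeLine

set_option autoImplicit false
set_option linter.unusedSectionVars false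
set_option linter.unusedVariables false

open WeierstrassCurve WeierstrassCurve.Affine

namespace Fermat.Agent.MLT

open Fermat.Agent.S05Lib Fermat.Agent.S13Lib

variable {K : Type*} [Field K] [DecidableEq K]

section QValAux

variable {v : QVal K}

theorem mltpg_ge_of_sq_ge {x : K} {s : ℚ} (h : v.Ge (x ^ 2) (2 * s)) : v.Ge x s := by
  by_cases hx : x = 0
  · exact Or.inl hx
  · right
    have := h.resolve_left (pow_ne_zero 2 hx)
    rw [v.ord_pow hx] at this
    push_cast at this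
    linarith

/-- two elements with a given product and difference of orders `3ξ` and `ξ ≤ 0` both have order
`3ξ/2` -/
theorem mltpg_is_of_mul_sub {A B : K} {ξ : ℚ} (hξ : ξ ≤ 0) (hmul : v.Is (A * B) (3 * ξ))
    (hsub : v.Is (B - A) ξ) : v.Is A (3 * ξ / 2) ∧ v.Is B (3 * ξ / 2) := by
  have hA0 : A ≠ 0 := fun h0 => hmul.1 (by rw [h0, zero_mul])
  have hB0 : B ≠ 0 := fun h0 => hmul.1 (by rw [h0, mul_zero])
  have hAi := QVal.is_ord (v := v) hA0
  have hBi := QVal.is_ord (v := v) hB0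
  have hsum : v.ord A + v.ord B = 3 * ξ := (hAi.mul hBi).unique hmul
  rcases lt_trichotomy (v.ord A) (v.ord B) with hlt | heq | hgt
  · exfalso
    have h1 : v.Is (B - A) (v.ord A) := hAi.sub_gt' (hBi.gt hlt)
    have h2 := h1.unique hsub
    -- ord A = ξ, ord B = 2ξ, ξ < 2ξ
    linarith
  · exact ⟨⟨hA0, by linarith⟩, ⟨hB0, by linarith⟩⟩
  · exfalso
    have h1 : v.Is (B - A) (v.ord B) := hBi.sub_gt (hAi.gt hgt)
    have h2 := h1.unique hsub
    linarith

end QValAux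

/-- the multiplicative parameter `t = (y - ρ x) / (y + ρ x)` -/
noncomputable def mltpgTf {W : WeierstrassCurve K} (ρ : K) : W.toAffine.Point → K
  | .zero => 1
  | .some x y _ => (y - ρ * x) / (y + ρ * x)

section

variable {v : QVal K} {W : WeierstrassCurve K} {a b ρ : K} {h : ℚ}

@[simp] theorem mltpgTf_zero : mltpgTf ρ (0 : W.toAffine.Point) = 1 := rfl

@[simp] theorem mltpgTf_some {x y : K} (hxy : W.toAffine.Nonsingular x y) :
    mltpgTf ρ (Point.some x y hxy) = (y - ρ * x) / (y + ρ * x) := rfl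

/-- membership in `E₀` for an affine point -/
theorem mltpg_fP_eq_zero_iff (hh : 0 < h) {x y : K} (hxy : W.toAffine.Nonsingular x y) :
    fP v h (Point.some x y hxy) = 0 ↔ v.Le x 0 := by
  rw [fP_some]
  constructor
  · intro h0
    rcases fx_cases v h x with c | ⟨t, ht0, hth, c⟩ | c
    · exact c
    · rw [fx_of_is c ht0.le hth.le] at h0
      linarith
    · rw [fx_of_ge hh.le c] at h0
      linarith
  · exact fx_of_le hh.le

variable (hW : IsLeg W a b) (ha : v.Is a 0) (hb : v.Is b h) (hh : 0 < h) (h2 : v.Is (2 : K) 0)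
  (hρ : ρ ^ 2 = a)
include hW ha hb hh h2 hρ

omit hW hb hh h2 in
theorem mltpg_is_rho : v.Is ρ 0 := by
  have hρ0 : ρ ≠ 0 := by
    rintro rfl
    apply ha.1
    rw [← hρ]; ring
  refine ⟨hρ0, ?_⟩
  have := ha.2
  rw [← hρ, v.ord_pow hρ0] at this
  push_cast at this
  linarith

/-- the orders of `y ∓ ρ x` on `E₀` -/
theorem mltpg_is_y_pm {x y : K} (hxy : W.toAffine.Nonsingular x y) (hx : v.Le x 0) :
    v.Is (y - ρ * x) (3 * v.ord x / 2) ∧ v.Is (y + ρ * x) (3 * v.ord x / 2) := by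
  have hρi := mltpg_is_rho ha hρ
  have hxi : v.Is x (v.ord x) := hx.is
  have q := hW.eq_of_nonsingular hxy
  have hprod : (y - ρ * x) * (y + ρ * x) = x * (x ^ 2 + b) := by
    have : (y - ρ * x) * (y + ρ * x) = y ^ 2 - ρ ^ 2 * x ^ 2 := by ring
    rw [this, q, hρ]; ring
  have hx2b : v.Is (x ^ 2 + b) (2 * v.ord x) := hxi.sq.add_gt (hb.gt (by linarith [hx.2]))
  have hmul : v.Is ((y - ρ * x) * (y + ρ * x)) (3 * v.ord x) := by
    rw [hprod]
    exact (hxi.mul hx2b).congr (by ring)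
  have hsub : v.Is ((y + ρ * x) - (y - ρ * x)) (v.ord x) := by
    have e : (y + ρ * x) - (y - ρ * x) = 2 * ρ * x := by ring
    rw [e]
    exact ((h2.mul hρi).mul hxi).congr (by ring)
  exact mltpg_is_of_mul_sub hx.2 hmul hsub

/-- `t` is a unit on `E₀` -/
theorem mltpg_tf_is {P : W.toAffine.Point} (hP : fP v h P = 0) : v.Is (mltpgTf ρ P) 0 := by
  rcases P with _ | ⟨x, y, hxy⟩
  · exact v.is_one
  · have hx := (mltpg_fP_eq_zero_iff hh hxy).mp hP
    obtain ⟨h1, h2'⟩ := mltpg_is_y_pm hW ha hb hh h2 hρ hxy hx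
    rw [mltpgTf_some]
    exact (h1.div h2').congr (sub_self _)

/-- `t - 1` has order `- ord x / 2` on `E₀` -/
theorem mltpg_tf_sub_one_is {x y : K} (hxy : W.toAffine.Nonsingular x y) (hx : v.Le x 0) :
    v.Is (mltpgTf ρ (Point.some x y hxy) - 1) (-(v.ord x) / 2) := by
  have hρi := mltpg_is_rho ha hρ
  obtain ⟨h1, h2'⟩ := mltpg_is_y_pm hW ha hb hh h2 hρ hxy hx
  have e : mltpgTf ρ (Point.some x y hxy) - 1 = -(2 * ρ * x) / (y + ρ * x) := by
    rw [mltpgTf_some]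
    field_simp [h2'.1]
    ring
  rw [e]
  have hnum : v.Is (-(2 * ρ * x)) (v.ord x) := (((h2.mul hρi).mul hx.is).neg).congr (by ring)
  exact (hnum.div h2').congr (by ring)

/-- `E₀` is closed under addition -/
theorem mltpg_E0_add {P Q : W.toAffine.Point} (hP : fP v h P = 0) (hQ : fP v h Q = 0) :
    fP v h (P + Q) = 0 := by
  have pl := pairLaw_points hW ha hb hh h2 P Q
  unfold PairLaw at pl
  rw [hP, hQ, sub_self, abs_zero] at pl
  have ho : oplus h 0 0 = 0 := by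
    unfold oplus
    rw [add_zero, if_pos hh.le]
  rcases pl with ⟨p1, _⟩ | ⟨p1, _⟩
  · rw [p1, ho]
  · exact p1

omit ha hb h2 hρ in
/-- `E₀` is closed under negation -/
theorem mltpg_E0_neg {P : W.toAffine.Point} (hP : fP v h P = 0) : fP v h (-P) = 0 := by
  rw [fP_neg hW]; exact hP

/-- `E₀` is closed under multiples -/
theorem mltpg_E0_nsmul {P : W.toAffine.Point} (hP : fP v h P = 0) (n : ℕ) :
    fP v h (n • P) = 0 := by
  induction n with
  | zero => rw [zero_nsmul]; exact fP_zero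
  | succ n ih =>
    rw [succ_nsmul]
    exact mltpg_E0_add hW ha hb hh h2 hρ ih hP

/-- **the reduction `E₀ → k^×` is a homomorphism**: `t (P + Q) ≡ t P · t Q` -/
theorem mltpg_tf_add {P Q : W.toAffine.Point} (hP : fP v h P = 0) (hQ : fP v h Q = 0) :
    v.Gt (mltpgTf ρ (P + Q) - mltpgTf ρ P * mltpgTf ρ Q) 0 := by
  have hρi := mltpg_is_rho ha hρ
  rcases P with _ | ⟨x₁, y₁, h₁⟩
  · left
    have e0 : (Point.zero : W.toAffine.Point) = 0 := rfl
    rw [e0, zero_add, mltpgTf_zero, one_mul, sub_self]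
  rcases Q with _ | ⟨x₂, y₂, h₂⟩
  · left
    have e0 : (Point.zero : W.toAffine.Point) = 0 := rfl
    rw [e0, add_zero, mltpgTf_zero, mul_one, sub_self]
  have hx₁ := (mltpg_fP_eq_zero_iff hh h₁).mp hP
  have hx₂ := (mltpg_fP_eq_zero_iff hh h₂).mp hQ
  obtain ⟨hA₁, hB₁⟩ := mltpg_is_y_pm hW ha hb hh h2 hρ h₁ hx₁
  obtain ⟨hA₂, hB₂⟩ := mltpg_is_y_pm hW ha hb hh h2 hρ h₂ hx₂
  by_cases hxy : x₁ = x₂ ∧ y₁ = W.toAffine.negY x₂ y₂
  · left
    obtain ⟨hx, hy⟩ := hxy
    rw [Point.add_of_Y_eq hx hy, mltpgTf_zero, mltpgTf_some, mltpgTf_some]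
    rw [hW.negY_eq] at hy
    subst hx hy
    have n1 : -y₂ + ρ * x₁ ≠ 0 := hB₁.1
    have n2 : y₂ + ρ * x₁ ≠ 0 := hB₂.1
    have n3 : y₂ - ρ * x₁ ≠ 0 := hA₂.1
    have n4 : -y₂ - ρ * x₁ ≠ 0 := hA₁.1
    have n5 : -y₂ + ρ * x₁ = -(y₂ - ρ * x₁) := by ring
    rw [n5]
    field_simp
    ring
  · obtain ⟨ℓ, ν, x₃, y₃, h₃, hsum, e1, e2, e3, s1, s2, s3⟩ := mltpg_line hW h₁ h₂ hxy
    have hP₃ : fP v h (Point.some x₃ (-y₃) h₃) = 0 := by
      rw [← hsum]; exact mltpg_E0_add hW ha hb hh h2 hρ hP hQ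
    have hx₃ := (mltpg_fP_eq_zero_iff hh h₃).mp hP₃
    obtain ⟨hA₃', hB₃'⟩ := mltpg_is_y_pm hW ha hb hh h2 hρ h₃ hx₃
    rw [hsum, mltpgTf_some, mltpgTf_some, mltpgTf_some]
    set ξ₁ := v.ord x₁ with hξ₁
    set ξ₂ := v.ord x₂ with hξ₂
    set ξ₃ := v.ord x₃ with hξ₃
    have hξ₁0 : ξ₁ ≤ 0 := hx₁.2
    have hξ₂0 : ξ₂ ≤ 0 := hx₂.2
    have hξ₃0 : ξ₃ ≤ 0 := hx₃.2
    set S := ξ₁ + ξ₂ + ξ₃ with hS
    -- the products
    have pMinus := mltpg_line_prod (b := b) hρ s1 s2 s3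
    have hρ' : (-ρ) ^ 2 = a := by rw [neg_sq]; exact hρ
    have pPlus := mltpg_line_prod (b := b) hρ' s1 s2 s3
    -- `ν`
    have hν2 : v.Is (ν ^ 2) S := by
      rw [← s3]
      exact (hx₁.is.mul hx₂.is).mul hx₃.is
    have hν0 : ν ≠ 0 := fun h0 => hν2.1 (by rw [h0]; ring)
    have hνi : v.Is ν (S / 2) := by
      refine ⟨hν0, ?_⟩
      have := hν2.2
      rw [v.ord_pow hν0] at this
      push_cast at this
      linarith
    -- `ℓ`
    have hℓ : v.Ge ℓ (S / 2) := by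
      apply mltpg_ge_of_sq_ge
      have e : ℓ ^ 2 = x₁ + x₂ + x₃ + a := by rw [s1]; ring
      rw [e]
      have g1 : v.Ge x₁ (2 * (S / 2)) := hx₁.is.ge' (by linarith)
      have g2 : v.Ge x₂ (2 * (S / 2)) := hx₂.is.ge' (by linarith)
      have g3 : v.Ge x₃ (2 * (S / 2)) := hx₃.is.ge' (by linarith)
      have g4 : v.Ge a (2 * (S / 2)) := ha.ge' (by linarith)
      exact ((g1.add g2).add g3).add g4
    have h4 : v.Is (4 : K) 0 := by
      have := h2.mul h2
      norm_num at this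
      exact this
    -- the difference
    set D := (-y₃ - ρ * x₃) / (-y₃ + ρ * x₃) - (y₁ - ρ * x₁) / (y₁ + ρ * x₁) *
      ((y₂ - ρ * x₂) / (y₂ + ρ * x₂)) with hD
    have hden : v.Is ((-y₃ + ρ * x₃) * (y₁ + ρ * x₁) * (y₂ + ρ * x₂)) (3 * S / 2) :=
      ((hB₃'.mul hB₁).mul hB₂).congr (by rw [hS]; ring)
    have hkey : D * ((-y₃ + ρ * x₃) * (y₁ + ρ * x₁) * (y₂ + ρ * x₂)) =
        -(4 * ν * b * ℓ * ρ) := by
      have n1 : -y₃ + ρ * x₃ ≠ 0 := hB₃'.1
      have n2 : y₁ + ρ * x₁ ≠ 0 := hB₁.1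
      have n3 : y₂ + ρ * x₂ ≠ 0 := hB₂.1
      rw [hD]
      field_simp
      rw [e1, e2, e3]
      linear_combination pMinus - pPlus
    by_cases hD0 : D = 0
    · exact Or.inl hD0
    · have hDe : D = -(4 * ν * b * ℓ * ρ) / ((-y₃ + ρ * x₃) * (y₁ + ρ * x₁) * (y₂ + ρ * x₂)) :=
        eq_div_of_mul_eq hden.1 hkey
      rw [hDe]
      have hnum : v.Ge (-(4 * ν * b * ℓ * ρ)) (S + h) := by
        have t1 : v.Ge (4 * ν * b) (S / 2 + h) := ((h4.mul hνi).mul hb).ge.mono (by linarith)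
        have t2 : v.Ge (4 * ν * b * ℓ) (S / 2 + h + S / 2) := t1.mul hℓ
        have t3 : v.Ge (4 * ν * b * ℓ * ρ) (S / 2 + h + S / 2 + 0) := t2.mul hρi.ge
        exact (t3.mono (by linarith)).neg
      have := hnum.div_is hden
      exact this.gt (by linarith)

/-- `t (n P) ≡ t P ^ n` on `E₀` -/
theorem mltpg_tf_nsmul {P : W.toAffine.Point} (hP : fP v h P = 0) (n : ℕ) :
    v.Gt (mltpgTf ρ (n • P) - mltpgTf ρ P ^ n) 0 := by
  induction n with
  | zero =>
    left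
    rw [zero_nsmul, mltpgTf_zero, pow_zero, sub_self]
  | succ n ih =>
    have hn := mltpg_E0_nsmul hW ha hb hh h2 hρ hP n
    have h1 := mltpg_tf_add hW ha hb hh h2 hρ hn hP
    have ht := (mltpg_tf_is hW ha hb hh h2 hρ hP).ge
    have h3 := ih.mul_ge ht
    rw [add_zero] at h3
    have e : mltpgTf ρ ((n + 1) • P) - mltpgTf ρ P ^ (n + 1) =
        (mltpgTf ρ (n • P + P) - mltpgTf ρ (n • P) * mltpgTf ρ P) +
          (mltpgTf ρ (n • P) - mltpgTf ρ P ^ n) * mltpgTf ρ P := by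
      rw [succ_nsmul]; ring
    rw [e]
    exact h1.add h3

end

section CharP

variable {v : QVal K}

/-- Frobenius is injective on the residue field: `w ^ p ≡ 1 ⇒ w ≡ 1` -/
theorem mltpg_gt_sub_one_of_pow_prime {p : ℕ} (hp : p.Prime) (hpv : v.Gt (p : K) 0) {w : K}
    (hw : v.Ge w 0) (h : v.Gt (w ^ p - 1) 0) : v.Gt (w - 1) 0 := by
  have hz : v.Ge (w - 1) 0 := hw.sub v.is_one.ge
  obtain ⟨r, hr⟩ := exists_add_pow_prime_eq hp (⟨w - 1, hz⟩ : integerSubring v) 1
  have hr' := congrArg (fun z : integerSubring v => (z : K)) hr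
  simp only [Subring.coe_add, Subring.coe_pow, Subring.coe_mul, Subring.coe_one,
    Subring.coe_natCast, one_pow, mul_one, sub_add_cancel] at hr'
  have hrge : v.Ge (r : K) 0 := r.2
  have e : (w - 1) ^ p = (w ^ p - 1) - (p : K) * (w - 1) * r := by
    rw [hr']; ring
  have h1 : v.Gt ((p : K) * (w - 1) * r) 0 := by
    have := (hpv.mul_ge hz).mul_ge hrge
    simpa using this
  have h2 : v.Gt ((w - 1) ^ p) 0 := by
    rw [e]; exact h.sub h1
  by_cases h0 : w - 1 = 0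
  · exact Or.inl h0
  · right
    have := h2.resolve_left (pow_ne_zero p h0)
    rw [v.ord_pow h0] at this
    have hppos : (0 : ℚ) < p := by exact_mod_cast hp.pos
    by_contra hcon
    push Not at hcon
    have : (p : ℚ) * v.ord (w - 1) ≤ 0 := mul_nonpos_of_nonneg_of_nonpos hppos.le hcon
    linarith

theorem mltpg_gt_sub_one_of_pow {p : ℕ} (hp : p.Prime) (hpv : v.Gt (p : K) 0) (k : ℕ) {w : K}
    (hw : v.Ge w 0) (h : v.Gt (w ^ (p ^ k) - 1) 0) : v.Gt (w - 1) 0 := by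
  induction k generalizing w with
  | zero => simpa using h
  | succ k ih =>
    apply ih hw
    apply mltpg_gt_sub_one_of_pow_prime hp hpv
    · have := hw.pow (p ^ k)
      simpa using this
    · rw [← pow_mul, ← pow_succ]
      exact h

end CharP

section

variable {v : QVal K} {W : WeierstrassCurve K} {a b ρ : K} {h : ℚ}
variable (hW : IsLeg W a b) (ha : v.Is a 0) (hb : v.Is b h) (hh : 0 < h) (h2 : v.Is (2 : K) 0)
  (hρ : ρ ^ 2 = a)
include hW ha hb hh h2 hρ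

/-- **`E₀ / E₁` has no `p`-torsion**: a point of `E₀` killed by `p ^ k` (`p` the residue
characteristic) lies in the kernel of reduction -/
theorem mltpg_E0_torsion {p : ℕ} (hp : p.Prime) (hpv : v.Gt (p : K) 0) {x y : K}
    (hxy : W.toAffine.Nonsingular x y) (hP : fP v h (Point.some x y hxy) = 0) {k : ℕ}
    (hk : p ^ k • Point.some x y hxy = 0) : v.Lt x 0 := by
  have hx := (mltpg_fP_eq_zero_iff hh hxy).mp hP
  refine ⟨hx.1, lt_of_le_of_ne hx.2 ?_⟩
  intro h0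
  have ht := mltpg_tf_is hW ha hb hh h2 hρ hP
  have h1 := mltpg_tf_nsmul hW ha hb hh h2 hρ hP (p ^ k)
  rw [hk, mltpgTf_zero] at h1
  have h3 : v.Gt (mltpgTf ρ (Point.some x y hxy) ^ p ^ k - 1) 0 := by
    have := h1.neg
    rwa [neg_sub] at this
  have h4 := mltpg_gt_sub_one_of_pow hp hpv k ht.ge h3
  have h5 := mltpg_tf_sub_one_is hW ha hb hh h2 hρ hxy hx
  rw [h0] at h5
  exact h5.not_gt h4 (by norm_num)

end

end Fermat.Agent.MLT
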