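/-
MLT / at p, Galois side (helper5): **the `p`-power torsion of the kernel of reduction at a node**.

`L : y² = x³ + a x² + b x` over an algebraically closed valued field of characteristic `0` and
residue characteristic `p` odd, `ord p = 1`, `ord 2 = 0`, `ord a = 0`, `ord b = h ≥ 1/2`, `ρ² = a`,
and `# L[n] = n²` for `n = p ^ j`.

* `mltpgE1` : the kernel of reduction `E₁ = {ord x < 0}` as a subgroup;
* `mltpg_exists_not_ker` : `L[p] ⊄ E₁` (sharpening of `Delta.dlp_exists_not_ker` to `2 h ≥ 1`);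
* `mltpg_card_E1_tors` : `# E₁[p ^ j] = p ^ j`.
-/
import Mathlib
import Fermat.Agent.Lib.S58.LocalCount
import Fermat.Agent.Lib.Delta.Peu.Depth
import Fermat.Agent.Lib.MLT.AtPG.PeuAbs
import Fermat.Agent.Lib.MLT.AtPG.NodeT

set_option autoImplicit false
set_option linter.unusedSectionVars false
set_option linter.unusedVariables false
set_option linter.style.haveILetI false

open WeierstrassCurve WeierstrassCurve.Affine

namespace Fermat.Agent.MLT

open Fermat.Agent.S05Lib Fermat.Agent.S13Lib Fermat.Agent.Delta Fermat.Agent.S58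

variable {K : Type*} [Field K] [DecidableEq K]

section E1

variable {W : WeierstrassCurve K} {a b : K}

/-- the kernel of reduction as a subgroup -/
def mltpgE1 (v : QVal K) (hW : IsLeg W a b) (ha : v.Ge a 0) (hb : v.Ge b 0)
    (h2 : v.Is (2 : K) 0) : AddSubgroup W.toAffine.Point where
  carrier := {Q | ∃ τ : ℚ, 0 < τ ∧ InE v τ Q}
  zero_mem' := ⟨1, one_pos, inE_zero⟩
  add_mem' := by
    rintro P Q ⟨τ₁, h₁, i₁⟩ ⟨τ₂, h₂, i₂⟩
    exact ⟨min τ₁ τ₂, lt_min h₁ h₂, (inE_add_sub hW ha hb h2 (lt_min h₁ h₂)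
      (i₁.mono (min_le_left _ _)) (i₂.mono (min_le_right _ _))).1⟩
  neg_mem' := by
    rintro P ⟨τ, hτ, i⟩
    exact ⟨τ, hτ, i.neg hW⟩

variable {v : QVal K} (hW : IsLeg W a b) (ha : v.Ge a 0) (hb : v.Ge b 0) (h2 : v.Is (2 : K) 0)

theorem mem_mltpgE1 {Q : W.toAffine.Point} :
    Q ∈ mltpgE1 v hW ha hb h2 ↔ ∃ τ : ℚ, 0 < τ ∧ InE v τ Q := Iff.rfl

theorem mltpg_some_mem_E1 {x y : K} (hxy : W.toAffine.Nonsingular x y) :
    Point.some x y hxy ∈ mltpgE1 v hW ha hb h2 ↔ v.Lt x 0 := by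
  rw [mem_mltpgE1]
  constructor
  · rintro ⟨τ, hτ, i⟩
    have hle : v.Le x (-τ) := i
    exact ⟨hle.1, by linarith [hle.2]⟩
  · intro hlt
    exact ⟨-v.ord x, by linarith [hlt.2], (inE_some hxy).mpr ⟨hlt.1, by linarith⟩⟩

theorem mltpg_xc_lt_of_mem_E1 {Q : W.toAffine.Point} (hQ : Q ∈ mltpgE1 v hW ha hb h2)
    (hQ0 : Q ≠ 0) : v.Lt (xc Q) 0 := by
  rcases Q with _ | ⟨x, y, hxy⟩
  · exact absurd rfl hQ0
  · exact (mltpg_some_mem_E1 hW ha hb h2 hxy).mp hQ

end E1

section NotKer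

variable [IsAlgClosed K] [CharZero K] {v : QVal K} {W : WeierstrassCurve K} {a b : K}

/-- **the `p`-torsion is not contained in the kernel of reduction** when `2 ord b ≥ 1` -/
theorem mltpg_exists_not_ker (hW : IsLeg W a b) (hb0 : b ≠ 0) (hab : a ^ 2 - 4 * b ≠ 0)
    (ha : v.Ge a 0) {h : ℚ} (hh : 1 ≤ 2 * h) (hb : v.Ge b h) {p : ℕ} (hp : Odd p) (hp3 : 3 ≤ p)
    (hp1 : v.Is (p : K) 1) (Vp : Finset W.toAffine.Point) (hVp : ∀ T, T ∈ Vp ↔ p • T = 0)
    (hne : (Vp.erase 0).Nonempty) :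
    ∃ T ∈ Vp, T ≠ 0 ∧ v.Ge (xc T) 0 := by
  by_contra hcon
  push Not at hcon
  have hlt : ∀ T ∈ Vp.erase 0, v.Lt (xc T) 0 := by
    intro T hT
    have := hcon T (Finset.mem_of_mem_erase hT) (Finset.ne_of_mem_erase hT)
    rcases v.lt_or_ge (xc T) 0 with h | h
    · exact h
    · exact absurd h this
  have hx₀ : ∀ T ∈ Vp.erase 0, (0 : K) - xc T ≠ 0 := by
    intro T hT
    rw [zero_sub]
    exact neg_ne_zero.mpr (hlt T hT).1
  obtain ⟨hΨ0, hord⟩ := dlp_two_ord_preΨ'_eval (v := v) hW hb0 hab hp Vp hVp hx₀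
  have hge := (dlp_ge_preΨ'_eval_zero' hW ha (by linarith) hb p hp hp3).resolve_left hΨ0
  rw [hp1.2] at hord
  have hsum : ∑ T ∈ Vp.erase 0, v.ord ((0 : K) - xc T) < 0 := by
    refine Finset.sum_neg (fun T hT => ?_) hne
    rw [zero_sub, v.ord_neg]
    exact (hlt T hT).2
  linarith

end NotKer

section Count

variable [IsAlgClosed K] [CharZero K] {v : QVal K} {W : WeierstrassCurve K} {a b ρ : K} {h : ℚ}

variable (hW : IsLeg W a b) (ha : v.Is a 0) (hb : v.Is b h) (hh : 1 ≤ 2 * h)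
  (h2 : v.Is (2 : K) 0) (hρ : ρ ^ 2 = a) {p : ℕ} (hp : p.Prime) (hp2 : p ≠ 2)
  (hp1 : v.Is (p : K) 1)
  (hcard : ∀ j : ℕ, Nat.card (mltpgTors W.toAffine.Point (p ^ j)) = (p ^ j) ^ 2)

/-- the `p ^ j`-torsion of the kernel of reduction -/
noncomputable abbrev mltpgE1T (v : QVal K) (hW : IsLeg W a b) (ha : v.Ge a 0) (hb : v.Ge b 0)
    (h2 : v.Is (2 : K) 0) (n : ℕ) : AddSubgroup W.toAffine.Point :=
  mltpgE1 v hW ha hb h2 ⊓ mltpgTors W.toAffine.Point n

include hcard hp in
omit [IsAlgClosed K] [CharZero K] in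
theorem mltpg_finite_tors (j : ℕ) : Finite (mltpgTors W.toAffine.Point (p ^ j)) :=
  Nat.finite_of_card_ne_zero (by rw [hcard j]; exact pow_ne_zero _ (pow_ne_zero _ hp.ne_zero))

include hW ha hb hh h2 hρ hp hp2 hp1 hcard

omit [IsAlgClosed K] [CharZero K] in
/-- the lower bound -/
theorem mltpg_le_card_E1_tors (hpos : 0 < h) (j : ℕ) :
    p ^ j ≤ Nat.card (mltpgE1T v hW ha.ge (hb.ge' hpos.le) h2 (p ^ j)) := by
  classical
  have hodd : Odd (p ^ j) := (hp.odd_of_ne_two hp2).pow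
  have h4 : v.Is (4 * a) 0 := by
    have h4' : v.Is (4 : K) 0 := by
      have := h2.mul h2
      norm_num at this
      exact this
    exact (h4'.mul ha).congr (add_zero 0)
  have hcard' : Nat.card {Q : W.toAffine.Point // p ^ j • Q = 0} = (p ^ j) ^ 2 := hcard j
  have hlow := s58l_count hW h4 hb hpos h2.ge h2.1 hodd hcard'
  refine hlow.trans ?_
  haveI : Finite (mltpgTors W.toAffine.Point (p ^ j)) := mltpg_finite_tors hp hcard j
  haveI : Finite (mltpgE1T v hW ha.ge (hb.ge' hpos.le) h2 (p ^ j)) :=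
    Finite.of_injective
      (fun Q => (⟨Q.1, Q.2.2⟩ : mltpgTors W.toAffine.Point (p ^ j)))
      (fun Q Q' e => Subtype.ext (Subtype.mk.injEq _ _ _ _ ▸ e : Q.1 = Q'.1))
  have hpv : v.Gt (p : K) 0 := hp1.gt one_pos
  have hmem : ∀ Q : {Q : W.toAffine.Point // p ^ j • Q = 0 ∧ fP v h Q = 0},
      Q.1 ∈ mltpgE1T v hW ha.ge (hb.ge' hpos.le) h2 (p ^ j) := by
    rintro ⟨Q, hQ1, hQ2⟩
    refine ⟨?_, hQ1⟩
    rcases Q with _ | ⟨x, y, hxy⟩
    · exact (mltpgE1 v hW ha.ge (hb.ge' hpos.le) h2).zero_mem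
    · exact (mltpg_some_mem_E1 hW ha.ge (hb.ge' hpos.le) h2 hxy).mpr
        (mltpg_E0_torsion hW ha hb hpos h2 hρ hp hpv hxy hQ2 hQ1)
  exact Nat.card_le_card_of_injective (fun Q => ⟨Q.1, hmem Q⟩)
    (fun Q Q' e => Subtype.ext (Subtype.mk.injEq _ _ _ _ ▸ e : Q.1 = Q'.1))

/-- the kernel of reduction contains exactly `p` points of order dividing `p` -/
theorem mltpg_card_E1_tors_one (hpos : 0 < h) :
    Nat.card (mltpgE1T v hW ha.ge (hb.ge' hpos.le) h2 p) = p := by
  classical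
  have hodd : Odd p := hp.odd_of_ne_two hp2
  have hp3 : 3 ≤ p := by
    have := hp.two_le
    omega
  have hc1 : Nat.card (mltpgTors W.toAffine.Point p) = p ^ 2 := by
    have := hcard 1
    rwa [pow_one] at this
  haveI : Finite (mltpgTors W.toAffine.Point p) :=
    Nat.finite_of_card_ne_zero (by rw [hc1]; exact pow_ne_zero _ hp.ne_zero)
  have hle : mltpgE1T v hW ha.ge (hb.ge' hpos.le) h2 p ≤ mltpgTors W.toAffine.Point p :=
    inf_le_right
  have hdvd : Nat.card (mltpgE1T v hW ha.ge (hb.ge' hpos.le) h2 p) ∣ p ^ 2 := by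
    rw [← hc1]
    exact AddSubgroup.card_dvd_of_le hle
  have hlow : p ≤ Nat.card (mltpgE1T v hW ha.ge (hb.ge' hpos.le) h2 p) := by
    have := mltpg_le_card_E1_tors hW ha hb hh h2 hρ hp hp2 hp1 hcard hpos 1
    rwa [pow_one] at this
  obtain ⟨i, hi2, hi⟩ := (Nat.dvd_prime_pow hp).mp hdvd
  -- `i ≠ 2`
  have hne2 : i ≠ 2 := by
    rintro rfl
    have heq : mltpgE1T v hW ha.ge (hb.ge' hpos.le) h2 p = mltpgTors W.toAffine.Point p :=
      AddSubgroup.eq_of_le_of_card_ge hle (by rw [hi, hc1])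
    -- a torsion point outside the kernel of reduction
    have hfin : {Q : W.toAffine.Point | p • Q = 0}.Finite :=
      Set.toFinite (mltpgTors W.toAffine.Point p : Set W.toAffine.Point)
    set Vp : Finset W.toAffine.Point := hfin.toFinset with hVpdef
    have hVp : ∀ T, T ∈ Vp ↔ p • T = 0 := fun T => by
      rw [hVpdef, Set.Finite.mem_toFinset]; rfl
    have hab : a ^ 2 - 4 * b ≠ 0 := by
      have h4' : v.Is (4 : K) 0 := by
        have := h2.mul h2
        norm_num at this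
        exact this
      have : v.Is (a ^ 2 - 4 * b) (2 * 0) :=
        ha.sq.sub_gt (((h4'.mul hb).congr (zero_add h)).gt (by linarith))
      exact this.1
    have hnonempty : (Vp.erase 0).Nonempty := by
      by_contra hcon
      rw [Finset.not_nonempty_iff_eq_empty] at hcon
      have hsub : ∀ x : mltpgTors W.toAffine.Point p, x = 0 := by
        intro x
        by_contra hx
        have : x.1 ∈ Vp.erase 0 := by
          rw [Finset.mem_erase]
          exact ⟨fun h0 => hx (Subtype.ext h0), (hVp x.1).mpr x.2⟩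
        rw [hcon] at this
        exact absurd this (Finset.notMem_empty _)
      haveI : Subsingleton (mltpgTors W.toAffine.Point p) :=
        ⟨fun x y => by rw [hsub x, hsub y]⟩
      have := Finite.card_le_one_iff_subsingleton.mpr this
      rw [hc1] at this
      have : 9 ≤ p ^ 2 := by nlinarith
      omega
    obtain ⟨T, hTV, hT0, hTge⟩ := mltpg_exists_not_ker hW hb.1 hab ha.ge hh hb.ge hodd hp3 hp1
      Vp hVp hnonempty
    have hTmem : T ∈ mltpgE1T v hW ha.ge (hb.ge' hpos.le) h2 p := by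
      rw [heq]; exact (hVp T).mp hTV
    have hlt := mltpg_xc_lt_of_mem_E1 hW ha.ge (hb.ge' hpos.le) h2 hTmem.1 hT0
    exact hlt.not_ge hTge le_rfl
  -- `i ≠ 0`
  have hne0 : i ≠ 0 := by
    rintro rfl
    rw [hi, pow_zero] at hlow
    have := hp.two_le
    omega
  have hi1 : i = 1 := by omega
  rw [hi, hi1, pow_one]

/-- **the kernel of reduction contains exactly `p ^ j` points of order dividing `p ^ j`** -/
theorem mltpg_card_E1_tors (hpos : 0 < h) (j : ℕ) :
    Nat.card (mltpgE1T v hW ha.ge (hb.ge' hpos.le) h2 (p ^ j)) = p ^ j := by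
  classical
  refine le_antisymm ?_ (mltpg_le_card_E1_tors hW ha hb hh h2 hρ hp hp2 hp1 hcard hpos j)
  induction j with
  | zero =>
    have : Subsingleton (mltpgE1T v hW ha.ge (hb.ge' hpos.le) h2 (p ^ 0)) := by
      refine ⟨fun x y => ?_⟩
      rcases x with ⟨Q, hQ1, hQ2⟩
      rcases y with ⟨Q', hQ1', hQ2'⟩
      have hx : p ^ 0 • Q = 0 := hQ2
      have hy : p ^ 0 • Q' = 0 := hQ2'
      rw [pow_zero, one_nsmul] at hx hy
      exact Subtype.ext (show Q = Q' by rw [hx, hy])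
    calc Nat.card (mltpgE1T v hW ha.ge (hb.ge' hpos.le) h2 (p ^ 0)) ≤ 1 :=
          Finite.card_le_one_iff_subsingleton.mpr this
      _ = p ^ 0 := (pow_zero p).symm
  | succ j ih =>
    set E1 := mltpgE1 v hW ha.ge (hb.ge' hpos.le) h2 with hE1
    set G := mltpgE1T v hW ha.ge (hb.ge' hpos.le) h2 (p ^ (j + 1)) with hG
    set H := mltpgE1T v hW ha.ge (hb.ge' hpos.le) h2 (p ^ j) with hH
    set G₁ := mltpgE1T v hW ha.ge (hb.ge' hpos.le) h2 p with hG₁
    haveI : Finite (mltpgTors W.toAffine.Point (p ^ (j + 1))) := mltpg_finite_tors hp hcard (j + 1)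
    haveI : Finite G :=
      Finite.of_injective
        (fun Q => (⟨Q.1, Q.2.2⟩ : mltpgTors W.toAffine.Point (p ^ (j + 1))))
        (fun Q Q' e => Subtype.ext (Subtype.mk.injEq _ _ _ _ ▸ e : Q.1 = Q'.1))
    haveI : Finite (mltpgTors W.toAffine.Point (p ^ j)) := mltpg_finite_tors hp hcard j
    haveI : Finite H :=
      Finite.of_injective
        (fun Q => (⟨Q.1, Q.2.2⟩ : mltpgTors W.toAffine.Point (p ^ j)))
        (fun Q Q' e => Subtype.ext (Subtype.mk.injEq _ _ _ _ ▸ e : Q.1 = Q'.1))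
    haveI : Finite (mltpgTors W.toAffine.Point p) := by
      have := mltpg_finite_tors hp hcard 1
      rwa [pow_one] at this
    haveI : Finite G₁ :=
      Finite.of_injective
        (fun Q => (⟨Q.1, Q.2.2⟩ : mltpgTors W.toAffine.Point p))
        (fun Q Q' e => Subtype.ext (Subtype.mk.injEq _ _ _ _ ▸ e : Q.1 = Q'.1))
    -- multiplication by `p`
    have hmap : ∀ x : G, p • x.1 ∈ H := by
      intro x
      refine ⟨E1.nsmul_mem x.2.1 p, ?_⟩
      show p ^ j • p • x.1 = 0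
      rw [← mul_nsmul, ← pow_succ']
      exact x.2.2
    let f : G →+ H :=
      { toFun := fun x => ⟨p • x.1, hmap x⟩
        map_zero' := Subtype.ext (by simp)
        map_add' := fun x y => Subtype.ext (by simp) }
    have hker : Nat.card f.ker ≤ Nat.card G₁ := by
      have hmem : ∀ x : f.ker, x.1.1 ∈ G₁ := by
        intro x
        refine ⟨x.1.2.1, ?_⟩
        have := x.2
        rw [AddMonoidHom.mem_ker] at this
        exact congrArg Subtype.val this
      exact Nat.card_le_card_of_injective (fun x => (⟨x.1.1, hmem x⟩ : G₁))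
        (fun x y e => Subtype.ext (Subtype.ext (Subtype.mk.injEq _ _ _ _ ▸ e : x.1.1 = y.1.1)))
    have hquot : Nat.card (G ⧸ f.ker) ≤ Nat.card H := by
      rw [Nat.card_congr (QuotientAddGroup.quotientKerEquivRange f).toEquiv]
      exact Nat.card_le_card_of_injective Subtype.val Subtype.val_injective
    have h1 := mltpg_card_E1_tors_one hW ha hb hh h2 hρ hp hp2 hp1 hcard hpos
    calc Nat.card G = Nat.card (G ⧸ f.ker) * Nat.card f.ker :=
          AddSubgroup.card_eq_card_quotient_mul_card_addSubgroup f.ker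
      _ ≤ Nat.card H * Nat.card G₁ := Nat.mul_le_mul hquot hker
      _ ≤ p ^ j * p := Nat.mul_le_mul ih (le_of_eq h1)
      _ = p ^ (j + 1) := (pow_succ p j).symm

end Count

end Fermat.Agent.MLT
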