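/-
MLT / at p, Galois side (helper5): **the sign of a point reducing to the node**.

`L : y² = x³ + a x² + b x` over a valued field with `ord 2 = 0`, `ord a = 0`, `ord b = h > 0`.
A point `P = (X, Y)` with `0 < ord X = j < h` reduces to the node `(0, 0)`; its *slope*
`s(P) = Y / X` is a unit with `s² ≡ a` (the two branches of the node).

* `mltpg_slope_is` : `s(P)` is a unit;
* `mltpg_slope_add` : for `R ∈ E₀` affine, `P + R` again has `ord X = j` and `s(P + R) ≡ s(P)`
  modulo the maximal ideal;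
* `mltpg_sub_mem_E0` : two points with the same `ord X = j ∈ (0, h)` and congruent slopes differ by
  an element of `E₀`.
-/
import Mathlib
import Fermat.Agent.Lib.MLT.AtPG.NodeT

set_option autoImplicit false
set_option linter.unusedSectionVars false
set_option linter.unusedVariables false

open WeierstrassCurve WeierstrassCurve.Affine

namespace Fermat.Agent.MLT

open Fermat.Agent.S05Lib Fermat.Agent.S13Lib

variable {K : Type*} [Field K] [DecidableEq K]

section

variable {v : QVal K} {W : WeierstrassCurve K} {a b : K} {h : ℚ}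

/-- a clamped order strictly between `0` and `h` is the order -/
theorem mltpg_is_of_fx {x : K} {j : ℚ} (hj0 : 0 < j) (hjh : j < h) (hx : fx v h x = j) :
    v.Is x j := by
  have hh : 0 ≤ h := by linarith
  rcases fx_cases v h x with c | ⟨t, ht0, hth, c⟩ | c
  · rw [fx_of_le hh c] at hx; linarith
  · rw [fx_of_is c ht0.le hth.le] at hx
    rw [← hx]; exact c
  · rw [fx_of_ge hh c] at hx; linarith

variable (hW : IsLeg W a b) (ha : v.Is a 0) (hb : v.Is b h) (hh : 0 < h) (h2 : v.Is (2 : K) 0)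
include hW ha hb hh h2

omit hh h2 in
/-- the slope of a point reducing to the node is a unit -/
theorem mltpg_slope_is {X Y : K} (hXY : W.toAffine.Nonsingular X Y) {j : ℚ} (hj0 : 0 < j)
    (hjh : j < h) (hX : v.Is X j) : v.Is (Y / X) 0 := by
  have q := hW.eq_of_nonsingular hXY
  have hX0 := hX.1
  have e : (Y / X) ^ 2 = a + (X + b / X) := by
    field_simp
    rw [q]; ring
  have h1 : v.Gt (X + b / X) 0 := by
    have t1 : v.Gt X 0 := hX.gt hj0
    have t2 : v.Gt (b / X) 0 := (hb.div hX).gt (by linarith)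
    exact t1.add t2
  have h3 : v.Is ((Y / X) ^ 2) 0 := by
    rw [e]; exact ha.add_gt h1
  have hne : Y / X ≠ 0 := fun h0 => h3.1 (by rw [h0]; ring)
  refine ⟨hne, ?_⟩
  have := h3.2
  rw [v.ord_pow hne] at this
  push_cast at this
  linarith

/-- **adding a point of `E₀` does not change the branch** -/
theorem mltpg_slope_add {X Y x y : K} (hXY : W.toAffine.Nonsingular X Y)
    (hxy : W.toAffine.Nonsingular x y) {j : ℚ} (hj0 : 0 < j) (hjh : j < h) (hX : v.Is X j)
    (hx : v.Le x 0) :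
    ∃ (X₃ Y₃ : K) (h₃ : W.toAffine.Nonsingular X₃ Y₃),
      Point.some X Y hXY + Point.some x y hxy = Point.some X₃ Y₃ h₃ ∧ v.Is X₃ j ∧
        v.Gt (Y₃ / X₃ - Y / X) 0 := by
  have hne : ¬(X = x ∧ Y = W.toAffine.negY x y) := by
    rintro ⟨e, _⟩
    rw [e] at hX
    have := hx.2
    rw [hX.2] at this
    linarith
  obtain ⟨ℓ, ν, X₃, y₃, h₃, hsum, e1, e2, e3, s1, s2, s3⟩ := mltpg_line hW hXY hxy hne
  -- the order of `X₃`
  have hfP : fP v h (Point.some X₃ (-y₃) h₃) = j := by
    rw [← hsum]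
    have pl := pairLaw_points hW ha hb hh h2 (Point.some X Y hXY) (Point.some x y hxy)
    unfold PairLaw at pl
    rw [fP_some, fP_some, fx_of_is hX hj0.le hjh.le, fx_of_le hh.le hx] at pl
    have ho : oplus h j 0 = j := by
      unfold oplus
      rw [add_zero, if_pos hjh.le]
    have ha' : |j - 0| = j := by rw [sub_zero, abs_of_pos hj0]
    rcases pl with ⟨p1, _⟩ | ⟨p1, _⟩
    · rw [p1, ho]
    · rw [p1, ha']
  have hX₃ : v.Is X₃ j := mltpg_is_of_fx hj0 hjh (by rw [← hfP, fP_some])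
  refine ⟨X₃, -y₃, h₃, hsum, hX₃, ?_⟩
  -- `ν`
  set ξ := v.ord x with hξ
  have hξ0 : ξ ≤ 0 := hx.2
  have hν2 : v.Is (ν ^ 2) (j + ξ + j) := by
    rw [← s3]
    exact (hX.mul hx.is).mul hX₃
  have hν0 : ν ≠ 0 := fun h0 => hν2.1 (by rw [h0]; ring)
  have hνi : v.Is ν (j + ξ / 2) := by
    refine ⟨hν0, ?_⟩
    have := hν2.2
    rw [v.ord_pow hν0] at this
    push_cast at this
    linarith
  have hu : v.Is (ν / X) (ξ / 2) := (hνi.div hX).congr (by ring)
  -- the key identity
  have hX0 := hX.1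
  have hX₃0 := hX₃.1
  have key : ν / X * (ν / X₃ + ν / X + 2 * ℓ) = b / X - X₃ := by
    have e4 : ν / X * (ν / X₃ + ν / X + 2 * ℓ) =
        (ν ^ 2 * X + ν ^ 2 * X₃ + 2 * ℓ * ν * X * X₃) / (X ^ 2 * X₃) := by
      field_simp
    rw [e4, div_sub' hX0, div_eq_div_iff (mul_ne_zero (pow_ne_zero 2 hX0) hX₃0) hX0]
    have e5 : 2 * ℓ * ν = b - (X * x + X * X₃ + x * X₃) := by rw [s2]; ring
    calc (ν ^ 2 * X + ν ^ 2 * X₃ + 2 * ℓ * ν * X * X₃) * X
        = (ν ^ 2 * X + ν ^ 2 * X₃ + (2 * ℓ * ν) * X * X₃) * X := by ring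
      _ = (X * x * X₃ * X + X * x * X₃ * X₃ + (b - (X * x + X * X₃ + x * X₃)) * X * X₃) * X := by
          rw [e5, ← s3]
      _ = (b - X * X₃) * (X ^ 2 * X₃) := by ring
  have hrhs : v.Gt (b / X - X₃) 0 := by
    have t1 : v.Gt (b / X) 0 := (hb.div hX).gt (by linarith)
    exact t1.sub (hX₃.gt hj0)
  have hsum3 : v.Gt (ν / X₃ + ν / X + 2 * ℓ) 0 := by
    have e6 : ν / X₃ + ν / X + 2 * ℓ = (b / X - X₃) / (ν / X) :=
      eq_div_of_mul_eq hu.1 (by rw [mul_comm]; exact key)
    rw [e6]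
    exact (hrhs.div_is hu).mono (by linarith)
  have e7 : -y₃ / X₃ - Y / X = -(ν / X₃ + ν / X + 2 * ℓ) := by
    rw [e1, e3]
    field_simp
    ring
  rw [e7]
  exact hsum3.neg

/-- **two points on the same branch of the node differ by an element of `E₀`** -/
theorem mltpg_sub_mem_E0 {X Y X' Y' : K} (hXY : W.toAffine.Nonsingular X Y)
    (hXY' : W.toAffine.Nonsingular X' Y') {j : ℚ} (hj0 : 0 < j) (hjh : j < h) (hX : v.Is X j)
    (hX' : v.Is X' j) (hs : v.Gt (Y / X - Y' / X') 0) :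
    fP v h (Point.some X Y hXY - Point.some X' Y' hXY') = 0 := by
  have hs0 := mltpg_slope_is hW ha hb hXY hj0 hjh hX
  have h2s : v.Is (2 * (Y / X)) 0 := (h2.mul hs0).congr (add_zero 0)
  have pl := pairLaw_points hW ha hb hh h2 (Point.some X Y hXY) (Point.some X' Y' hXY')
  unfold PairLaw at pl
  rw [fP_some, fP_some, fx_of_is hX hj0.le hjh.le, fx_of_is hX' hj0.le hjh.le, sub_self,
    abs_zero] at pl
  rcases pl with ⟨_, p2⟩ | ⟨p1, _⟩
  · exact p2
  · exfalso
    obtain ⟨hn', en⟩ := hW.neg_some hXY'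
    -- `R = P + Q ∈ E₀`, `P = -Q + R`
    rcases hR : Point.some X Y hXY + Point.some X' Y' hXY' with _ | ⟨x, y, hxy⟩
    · -- `P = -Q`
      have e0 : (Point.zero : W.toAffine.Point) = 0 := rfl
      rw [e0] at hR
      have hPQ : Point.some X Y hXY = -Point.some X' Y' hXY' := eq_neg_of_add_eq_zero_left hR
      rw [en, Point.some.injEq] at hPQ
      obtain ⟨eX, eY⟩ := hPQ
      have e8 : Y / X - Y' / X' = 2 * (Y / X) := by
        rw [← eX]
        have : Y' = -Y := by rw [eY]; ring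
        rw [this]
        ring
      rw [e8] at hs
      exact h2s.not_gt hs le_rfl
    · rw [hR] at p1
      have hx : v.Le x 0 := (mltpg_fP_eq_zero_iff hh hxy).mp p1
      obtain ⟨X₃, Y₃, h₃, hsum, hX₃, hgt⟩ :=
        mltpg_slope_add hW ha hb hh h2 hn' hxy hj0 hjh hX' hx
      have hP : Point.some X Y hXY = Point.some X' (-Y') hn' + Point.some x y hxy := by
        rw [← hR, ← en]
        abel
      rw [hsum, Point.some.injEq] at hP
      obtain ⟨eX, eY⟩ := hP
      rw [← eX, ← eY] at hgt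
      have e9 : Y / X - -Y' / X' + (Y / X - Y' / X') = 2 * (Y / X) := by ring
      have := hgt.add hs
      rw [e9] at this
      exact h2s.not_gt this le_rfl

end

end Fermat.Agent.MLT
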