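/-
MLT / at p, Galois side (helper5): **the ordinary filtration of `W[p^∞]` at a prime of
multiplicative reduction** (local input `MltwOrdInput` of the stream `Wloc`).

`W` a Weierstrass curve over `ℤ`, `p` odd, `p ∣ Δ`, `p ∤ c₄` (any `ord_p Δ ≥ 1`), `𝔓` a place of
`ℚ̄` over `p`.  The kernel of reduction `T = {P : ord x(P) < 0}` (`MltpgNode.ker`) is a subgroup
of `W(ℚ̄)` with

* `MltpgNode.card_ker_tors` : `# T[p ^ j] = p ^ j`;
* `MltpgNode.smul_mem_ker` : `T` is stable under the decomposition group of `𝔓`;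
* `MltpgNode.sub_mem_ker` : `σ x - x ∈ T` for `σ` in the inertia group and `x ∈ W[p ^ n]`.

`mltpg_ordInput_mult` packages the three statements; `mltpg_ordInput_of_mult` is the same for an
arbitrary valuation subring over `p` (the literal consumed by helper8).
-/
import Mathlib
import Fermat.Agent.Lib.MLT.AtPG.PeuMult
import Fermat.Agent.Lib.MLT.AtPG.NodeSign
import Fermat.Agent.Lib.MLT.AtPG.NodeCount

set_option autoImplicit false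
set_option linter.unusedSectionVars false
set_option linter.unusedVariables false
set_option linter.style.haveILetI false

open WeierstrassCurve WeierstrassCurve.Affine

namespace Fermat.Agent.MLT

open Fermat.Agent.S05Lib Fermat.Agent.S13Lib Fermat.Agent.TW Fermat.Agent.Delta
  Fermat.Agent.S58 Fermat.Agent.LR Fermat.Agent.X015

local notation "Qb" => AlgebraicClosure ℚ
local notation "GQ" => (AlgebraicClosure ℚ ≃ₐ[ℚ] AlgebraicClosure ℚ)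

namespace MltpgNode

variable {W : WeierstrassCurve ℤ} {𝔓 : FFPlace} {e₁ e₂ e₃ : Qb} {h : ℚ}
  (hN : MltpgNode W 𝔓 e₁ e₂ e₃ h)
include hN

/-- the translation `σ e₁ - e₁` has order at least `h` -/
theorem ge_c {σ : GQ} (hσ : σ ∈ 𝔓.I) : 𝔓.v.Ge (σ e₁ - e₁) h := by
  rcases hN.perm₁ hσ with h1 | h1
  · rw [h1, sub_self]; exact Or.inl rfl
  · rw [h1]; exact hN.is_e.ge

/-- **the kernel of reduction** of the Weierstrass model, as a subgroup of `W(ℚ̄)` -/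
noncomputable def ker (hp2 : 𝔓.p ≠ 2) : AddSubgroup ((s58E W)⁄Qb).Point :=
  (mltpgE1 𝔓.v (hN.isLeg hp2) hN.is_a.ge (hN.is_b.ge' hN.pos.le)
    ((dlp_qvalFor 𝔓).is_two 𝔓.hp hp2)).comap (mltpgPhi W e₁).toAddMonoidHom

theorem mem_ker (hp2 : 𝔓.p ≠ 2) {x : ((s58E W)⁄Qb).Point} :
    x ∈ hN.ker hp2 ↔ ∃ τ : ℚ, 0 < τ ∧ InE 𝔓.v τ (mltpgPhi W e₁ x) := Iff.rfl

/-- the difference `σ P - P` lies in `E₀` (in Legendre coordinates) -/
theorem sub_mem_E0 (hp2 : 𝔓.p ≠ 2) {σ : GQ} (hσ : σ ∈ 𝔓.I) {n : ℕ}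
    (P : ((s58E W)⁄Qb).Point) (hP : 𝔓.p ^ n • P = 0) :
    fP 𝔓.v h (mltpgPhi W e₁ (σ • P) - mltpgPhi W e₁ P) = 0 := by
  have hv := dlp_qvalFor 𝔓
  have hp := 𝔓.hp
  have h2 := hv.is_two hp hp2
  have hW := hN.isLeg hp2
  have hpodd : Odd (𝔓.p ^ n) := (hp.odd_of_ne_two hp2).pow
  obtain ⟨ρ, hρ⟩ := IsAlgClosed.exists_pow_nat_eq (-((e₂ - e₁) + (e₃ - e₁))) two_pos
  obtain ⟨hz, hs⟩ := mltpg_phi_smul_gen W (e₁ := e₁) σ P
  rcases hQ : mltpgPhi W e₁ P with _ | ⟨X, Y, hXY⟩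
  · have e0 : (Point.zero : (mltpgLeg W e₁).toAffine.Point) = 0 := rfl
    rw [e0] at hQ ⊢
    rw [hz hQ, sub_self]
    exact fP_zero
  · obtain ⟨h', e'⟩ := hs X Y hXY hQ
    rw [e']
    have htorQ : 𝔓.p ^ n • Point.some X Y hXY = 0 := by
      rw [← hQ, ← map_nsmul, hP, map_zero]
    set c := σ e₁ - e₁ with hc
    have hcge : 𝔓.v.Ge c h := hN.ge_c hσ
    rcases fx_cases 𝔓.v h X with hX | ⟨j, hj0, hjh, hX⟩ | hX
    · -- both points in `E₀`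
      have hσX : 𝔓.v.Is (σ X) (𝔓.v.ord X) :=
        ⟨(map_ne_zero σ).mpr hX.1, hv.ord_inertia σ hσ X⟩
      have hX' : 𝔓.v.Is (σ X + c) (𝔓.v.ord X) :=
        hσX.add_gt ((hcge.gt hN.pos).mono hX.2)
      have f1 : fP 𝔓.v h (Point.some (σ X + c) (σ Y) h') = 0 :=
        (mltpg_fP_eq_zero_iff hN.pos h').mpr (hX'.le' hX.2)
      have f2 : fP 𝔓.v h (Point.some X Y hXY) = 0 := (mltpg_fP_eq_zero_iff hN.pos hXY).mpr hX
      rw [sub_eq_add_neg]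
      exact mltpg_E0_add hW hN.is_a hN.is_b hN.pos h2 hρ f1 (mltpg_E0_neg hW hN.pos f2)
    · -- both points on the same branch of the node
      have hσX : 𝔓.v.Is (σ X) j :=
        ⟨(map_ne_zero σ).mpr hX.1, by rw [hv.ord_inertia σ hσ X, hX.2]⟩
      have hX' : 𝔓.v.Is (σ X + c) j := hσX.add_gt (hcge.gt hjh)
      have hs0 := mltpg_slope_is hW hN.is_a hN.is_b hXY hj0 hjh hX
      have hin := hN.gt_inert hσ hs0.ge
      have hσs : 𝔓.v.Is (σ (Y / X)) 0 :=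
        ⟨(map_ne_zero σ).mpr hs0.1, by rw [hv.ord_inertia σ hσ, hs0.2]⟩
      have hq : 𝔓.v.Gt (c / (σ X + c)) 0 := ((hcge.gt hjh).div_is hX').mono (by linarith)
      have e : σ Y / (σ X + c) - Y / X =
          (σ (Y / X) - Y / X) - σ (Y / X) * (c / (σ X + c)) := by
        have n1 := hσX.1
        have n2 := hX'.1
        have n3 := hX.1
        rw [map_div₀]
        field_simp
        ring
      have hgt : 𝔓.v.Gt (σ Y / (σ X + c) - Y / X) 0 := by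
        rw [e]
        have := hσs.ge.mul_gt hq
        rw [add_zero] at this
        exact hin.sub this
      exact mltpg_sub_mem_E0 hW hN.is_a hN.is_b hN.pos h2 h' hXY hj0 hjh hX' hX hgt
    · -- impossible for a point of odd order
      exfalso
      have hT0 : Point.some X Y hXY ≠ 0 := Point.some_ne_zero hXY
      have hX0 : X ≠ 0 := xc_ne_zero_of_odd_torsion hW hpodd htorQ hT0
      have hge : h ≤ 𝔓.v.ord X := hX.resolve_left hX0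
      have := (dlp_lt_of_torsion hW hN.is_a hN.is_b hN.pos h2 hpodd hXY htorQ
        (QVal.is_ord (v := 𝔓.v) hX0) (by linarith [hN.pos])).1
      linarith

/-- **inertia moves the `p`-power torsion by elements of the kernel of reduction** -/
theorem sub_mem_ker (hp2 : 𝔓.p ≠ 2) {σ : GQ} (hσ : σ ∈ 𝔓.I) {n : ℕ}
    (P : ((s58E W)⁄Qb).Point) (hP : 𝔓.p ^ n • P = 0) : σ • P - P ∈ hN.ker hp2 := by
  have hv := dlp_qvalFor 𝔓
  have hp := 𝔓.hp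
  have h2 := hv.is_two hp hp2
  have hW := hN.isLeg hp2
  have hpv : 𝔓.v.Gt ((𝔓.p : ℕ) : Qb) 0 := 𝔓.is_p.gt one_pos
  obtain ⟨ρ, hρ⟩ := IsAlgClosed.exists_pow_nat_eq (-((e₂ - e₁) + (e₃ - e₁))) two_pos
  have hE0 := hN.sub_mem_E0 hp2 hσ P hP
  have htor : 𝔓.p ^ n • (mltpgPhi W e₁ (σ • P) - mltpgPhi W e₁ P) = 0 := by
    rw [← map_sub, ← map_nsmul, nsmul_sub, mltpg_smul_mem_tors σ hP, hP, sub_self, map_zero]
  rw [mem_ker, map_sub]
  rcases hD : mltpgPhi W e₁ (σ • P) - mltpgPhi W e₁ P with _ | ⟨x, y, hxy⟩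
  · exact ⟨1, one_pos, trivial⟩
  · rw [hD] at hE0 htor
    have hlt := mltpg_E0_torsion hW hN.is_a hN.is_b hN.pos h2 hρ hp hpv hxy hE0 htor
    exact ⟨-𝔓.v.ord x, by linarith [hlt.2], (inE_some hxy).mpr ⟨hlt.1, by linarith⟩⟩

/-- **the kernel of reduction is stable under the decomposition group** -/
theorem smul_mem_ker (hp2 : 𝔓.p ≠ 2) {σ : GQ} (hσ : σ ∈ 𝔓.D) {x : ((s58E W)⁄Qb).Point}
    (hx : x ∈ hN.ker hp2) : σ • x ∈ hN.ker hp2 := by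
  rw [mem_ker] at hx ⊢
  obtain ⟨τ, hτ, i⟩ := hx
  obtain ⟨hz, hs⟩ := mltpg_phi_smul_gen W (e₁ := e₁) σ x
  rcases hQ : mltpgPhi W e₁ x with _ | ⟨X, Y, hXY⟩
  · have e0 : (Point.zero : (mltpgLeg W e₁).toAffine.Point) = 0 := rfl
    rw [e0] at hQ
    rw [hz hQ]
    exact ⟨1, one_pos, trivial⟩
  · obtain ⟨h', e'⟩ := hs X Y hXY hQ
    rw [e']
    rw [hQ] at i
    have hle : 𝔓.v.Le X (-τ) := i
    have hσD : σ ∈ 𝔓.P.decompositionSubgroup ℚ := hσ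
    have hXnot : X ∉ 𝔓.P := fun hmem =>
      hle.not_ge ((𝔓.mem_P_iff X).mp hmem) (by linarith)
    have hσX : σ X ∉ 𝔓.P := by
      intro hmem
      apply hXnot
      have := qv_decomp_mem 𝔓.P (inv_mem hσD) hmem
      have e : σ⁻¹ (σ X) = X := by
        show (σ⁻¹ * σ) X = X
        rw [inv_mul_cancel]
        rfl
      rwa [e] at this
    have he₁ : e₁ ∈ 𝔓.P := (𝔓.mem_P_iff e₁).mpr hN.ge₁
    have hc : σ e₁ - e₁ ∈ 𝔓.P := sub_mem (qv_decomp_mem 𝔓.P hσD he₁) he₁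
    have hsum : σ X + (σ e₁ - e₁) ∉ 𝔓.P := by
      intro hmem
      apply hσX
      have := sub_mem hmem hc
      rwa [add_sub_cancel_right] at this
    have hlt : 𝔓.v.Lt (σ X + (σ e₁ - e₁)) 0 := by
      rcases 𝔓.v.lt_or_ge (σ X + (σ e₁ - e₁)) 0 with h | h
      · exact h
      · exact absurd ((𝔓.mem_P_iff _).mpr h) hsum
    exact ⟨-𝔓.v.ord (σ X + (σ e₁ - e₁)), by linarith [hlt.2],
      (inE_some h').mpr ⟨hlt.1, by linarith⟩⟩

/-- **the kernel of reduction contains exactly `p ^ j` points of order dividing `p ^ j`** -/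
theorem card_ker_tors (hΔ : W.Δ ≠ 0) (hp2 : 𝔓.p ≠ 2) (hh : 1 ≤ 2 * h) (j : ℕ) :
    Nat.card {x : ((s58E W)⁄Qb).Point // x ∈ hN.ker hp2 ∧ 𝔓.p ^ j • x = 0} = 𝔓.p ^ j := by
  have hv := dlp_qvalFor 𝔓
  have hp := 𝔓.hp
  have h2 := hv.is_two hp hp2
  have hW := hN.isLeg hp2
  obtain ⟨ρ, hρ⟩ := IsAlgClosed.exists_pow_nat_eq (-((e₂ - e₁) + (e₃ - e₁))) two_pos
  have hcard : ∀ j : ℕ, Nat.card (mltpgTors (mltpgLeg W e₁).toAffine.Point (𝔓.p ^ j)) =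
      (𝔓.p ^ j) ^ 2 := by
    intro j
    rw [← mltpg_card_tors W hΔ (pow_pos hp.pos j)]
    refine Nat.card_congr ((mltpgPhi W e₁).symm.toEquiv.subtypeEquiv fun Q => ?_)
    rw [mem_mltpgTors, mem_mltpgTors]
    show _ ↔ 𝔓.p ^ j • (mltpgPhi W e₁).symm Q = 0
    rw [← map_nsmul]
    exact ((mltpgPhi W e₁).symm.map_eq_zero_iff).symm
  refine Eq.trans ?_ (mltpg_card_E1_tors hW hN.is_a hN.is_b hh h2 hρ hp hp2 𝔓.is_p hcard hN.pos j)
  refine Nat.card_congr ((mltpgPhi W e₁).toEquiv.subtypeEquiv fun x => ?_)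
  show _ ↔ (mltpgPhi W e₁ x ∈ mltpgE1 𝔓.v hW hN.is_a.ge (hN.is_b.ge' hN.pos.le) h2 ∧
    𝔓.p ^ j • mltpgPhi W e₁ x = 0)
  rw [← map_nsmul, (mltpgPhi W e₁).map_eq_zero_iff]
  exact Iff.rfl

end MltpgNode

/-- **the ordinary filtration at a prime of multiplicative reduction** -/
theorem mltpg_ordInput_mult (W : WeierstrassCurve ℤ) (hΔ : W.Δ ≠ 0) (𝔓 : FFPlace)
    (hp2 : 𝔓.p ≠ 2) (hpΔ : (𝔓.p : ℤ) ∣ W.Δ) (hc₄ : ¬ (𝔓.p : ℤ) ∣ W.c₄) :
    ∃ T : AddSubgroup ((s58E W)⁄Qb).Point,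
      (∀ j : ℕ, Nat.card {x : ((s58E W)⁄Qb).Point // x ∈ T ∧ 𝔓.p ^ j • x = 0} = 𝔓.p ^ j) ∧
      (∀ σ ∈ 𝔓.P.decompositionSubgroup ℚ, ∀ x ∈ T, σ • x ∈ T) ∧
      (∀ σ ∈ 𝔓.P.inertiaSubgroupIn ℚ, ∀ (n : ℕ) (x : ((s58E W)⁄Qb).Point),
        𝔓.p ^ n • x = 0 → σ • x - x ∈ T) := by
  obtain ⟨e₁, e₂, e₃, hN⟩ := mltpg_exists_node W hΔ 𝔓 hp2 hpΔ hc₄
  have hh : (1 : ℚ) ≤ 2 * ((multiplicity (𝔓.p : ℤ) W.Δ : ℕ) / 2) := by
    have h0 : (0 : ℚ) < (multiplicity (𝔓.p : ℤ) W.Δ : ℕ) := by linarith [hN.pos]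
    have h1 : 0 < multiplicity (𝔓.p : ℤ) W.Δ := by exact_mod_cast h0
    have h2 : (1 : ℚ) ≤ (multiplicity (𝔓.p : ℤ) W.Δ : ℕ) := by exact_mod_cast h1
    linarith
  exact ⟨hN.ker hp2, fun j => hN.card_ker_tors hΔ hp2 hh j,
    fun σ hσ x hx => hN.smul_mem_ker hp2 hσ hx,
    fun σ hσ n x hx => hN.sub_mem_ker hp2 hσ x hx⟩

/-- the same for an arbitrary valuation subring over `p`: **the literal `MltwOrdInput W p`** of the
stream `Wloc` for `W` with multiplicative reduction at the odd prime `p` -/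
theorem mltpg_ordInput_of_mult (W : WeierstrassCurve ℤ) (hΔ : W.Δ ≠ 0) {p : ℕ} (hp : p.Prime)
    (hp2 : p ≠ 2) (hpΔ : (p : ℤ) ∣ W.Δ) (hc₄ : ¬ (p : ℤ) ∣ W.c₄) :
    ∀ P : ValuationSubring Qb, P.LiesOverPrime p →
      ∃ T : AddSubgroup ((s58E W)⁄Qb).Point,
        (∀ j : ℕ, Nat.card {x : ((s58E W)⁄Qb).Point // x ∈ T ∧ p ^ j • x = 0} = p ^ j) ∧
        (∀ σ ∈ P.decompositionSubgroup ℚ, ∀ x ∈ T, σ • x ∈ T) ∧
        (∀ σ ∈ P.inertiaSubgroupIn ℚ, ∀ (n : ℕ) (x : ((s58E W)⁄Qb).Point),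
          p ^ n • x = 0 → σ • x - x ∈ T) :=
  fun P hP => mltpg_ordInput_mult W hΔ ⟨P, p, hp, hP⟩ hp2 hpΔ hc₄

end Fermat.Agent.MLT
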