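/-
MLT / at p, Galois side (helper5): **the local hypothesis `MltrLocalAtP` of the stream [R]**
(for every odd prime `p` and every `W` semistable at `p`), including **(SL2)**: in the
supersingular case the inertia group is transitive on `W[p] ∖ 0`.

`W` a Weierstrass curve over `ℤ`, `p` odd, `𝔓` a place of `ℚ̄` over `p`.

* multiplicative reduction (`p ∣ Δ`, `p ∤ c₄`): `L = W[p] ∩ (kernel of reduction)` has order `p`
  and the inertia group acts trivially on `W[p] / L` (`OrdInput.lean`);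
* good reduction, `W[p] ⊄` kernel of reduction: the same `L`, by `S13Lib.exists_inE_map_sub_of_good`;
* good reduction, `W[p] ⊂` kernel of reduction (supersingular): `∑_{T ≠ 0} (- ord x(T)) ≤ 2`
  (`Delta.dlp_sum_depth_neg_le`, from the division polynomial), while for every inertia orbit `O`
  the product `∏_{T ∈ O} (x / y)(T)` is inertia-invariant, hence of INTEGRAL order (the inertia
  field is unramified, `FFPlace.lf_unr`), so `∑_{T ∈ O} (- ord x(T)) = 2 ord ∏ (x/y)(T) ≥ 2`: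
  there is only one orbit (`mltpg_transitive_of_ker`).

`mltpg_localAtP` is the literal body of `MltrLocalAtP W p` (origin/lead `Lib/MLT/Res/SL1f.lean`).
-/
import Mathlib
import Fermat.Agent.Lib.Helper6.FrobeniusExists
import Fermat.Agent.Lib.TW.LF.Unr
import Fermat.Agent.Lib.MLT.AtPG.PeuGood
import Fermat.Agent.Lib.MLT.AtPG.OrdInput

set_option autoImplicit false
set_option linter.unusedSectionVars false
set_option linter.unusedVariables false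
set_option linter.style.haveILetI false

open WeierstrassCurve WeierstrassCurve.Affine

namespace Fermat.Agent.MLT

open Fermat.Agent.S05Lib Fermat.Agent.S13Lib Fermat.Agent.TW Fermat.Agent.Delta
  Fermat.Agent.S58 Fermat.Agent.LR Fermat.Agent.X015

local notation "Qb" => AlgebraicClosure ℚ
local notation "GQ" => (AlgebraicClosure ℚ ≃ₐ[ℚ] AlgebraicClosure ℚ)

section Abs

variable {K : Type*} [Field K] [DecidableEq K] {v : QVal K} {W : WeierstrassCurve K} {a b : K}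

/-- the parameter `x / y` at the origin -/
noncomputable def mltpgZ : W.toAffine.Point → K
  | .zero => 0
  | .some x y _ => x / y

@[simp] theorem mltpgZ_some {x y : K} (hxy : W.toAffine.Nonsingular x y) :
    mltpgZ (Point.some x y hxy) = x / y := rfl

/-- the ordinate of a point of the kernel of reduction -/
theorem mltpg_is_y_of_lt (hW : IsLeg W a b) (ha : v.Ge a 0) (hb : v.Ge b 0) {x y : K}
    (hxy : W.toAffine.Nonsingular x y) (hx : v.Lt x 0) : v.Is y (3 * v.ord x / 2) := by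
  have q := hW.eq_of_nonsingular hxy
  have hxi := hx.is
  set ξ := v.ord x with hξ
  have hξ0 : ξ < 0 := hx.2
  have h3 : v.Is (x ^ 3) (3 * ξ) := by
    have := hxi.pow 3
    push_cast at this
    exact this
  have h2 : v.Gt (a * x ^ 2) (3 * ξ) := by
    have := ha.mul hxi.sq.ge
    exact this.gt (by linarith)
  have h1 : v.Gt (b * x) (3 * ξ) := by
    have := hb.mul hxi.ge
    exact this.gt (by linarith)
  have hy2 : v.Is (y ^ 2) (3 * ξ) := by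
    rw [q]
    exact (h3.add_gt h2).add_gt h1
  have hy0 : y ≠ 0 := fun h0 => hy2.1 (by rw [h0]; ring)
  refine ⟨hy0, ?_⟩
  have := hy2.2
  rw [v.ord_pow hy0] at this
  push_cast at this
  linarith

/-- the parameter of a point of the kernel of reduction -/
theorem mltpg_is_Z_of_lt (hW : IsLeg W a b) (ha : v.Ge a 0) (hb : v.Ge b 0) {x y : K}
    (hxy : W.toAffine.Nonsingular x y) (hx : v.Lt x 0) :
    v.Is (mltpgZ (Point.some x y hxy)) (-(v.ord x) / 2) := by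
  rw [mltpgZ_some]
  exact (hx.is.div (mltpg_is_y_of_lt hW ha hb hxy hx)).congr (by ring)

end Abs

section Good

variable (W : WeierstrassCurve ℤ)

theorem mltpgT_one (e₁ : Qb) (Q : (mltpgLeg W e₁).toAffine.Point) : mltpgT W e₁ 1 Q = Q := by
  rw [mltpgT_apply, one_smul, AddEquiv.apply_symm_apply]

theorem mltpgT_mul (e₁ : Qb) (σ τ : GQ) (Q : (mltpgLeg W e₁).toAffine.Point) :
    mltpgT W e₁ (σ * τ) Q = mltpgT W e₁ σ (mltpgT W e₁ τ Q) := by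
  rw [mltpgT_apply, mltpgT_apply, mltpgT_apply, AddEquiv.symm_apply_apply, mul_smul]

theorem mltpgT_inv_apply (e₁ : Qb) (σ : GQ) (Q : (mltpgLeg W e₁).toAffine.Point) :
    mltpgT W e₁ σ⁻¹ (mltpgT W e₁ σ Q) = Q := by
  rw [← mltpgT_mul, inv_mul_cancel, mltpgT_one]

theorem mltpgT_apply_inv (e₁ : Qb) (σ : GQ) (Q : (mltpgLeg W e₁).toAffine.Point) :
    mltpgT W e₁ σ (mltpgT W e₁ σ⁻¹ Q) = Q := by
  rw [← mltpgT_mul, mul_inv_cancel, mltpgT_one]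

/-- **the good reduction datum** -/
theorem mltpg_exists_good (hΔ : W.Δ ≠ 0) (𝔓 : FFPlace) (hp2 : 𝔓.p ≠ 2)
    (hgood : ¬ (𝔓.p : ℤ) ∣ W.Δ) :
    ∃ e₁ e₂ e₃ : Qb, LreGood 𝔓.v ((s58E W)⁄Qb) e₁ e₂ e₃ := by
  have hp := 𝔓.hp
  have hv := dlp_qvalFor 𝔓
  have h2 := hv.is_two hp hp2
  obtain ⟨e₁, e₂, e₃, hr, hdisc⟩ := lre_exists_roots h2.1 ((s58E W)⁄Qb)
  have hb₂ : 𝔓.v.Ge ((s58E W)⁄Qb).b₂ 0 := by
    rw [s58l_curve_eq, WeierstrassCurve.map_b₂, eq_intCast]; exact hv.ge_int _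
  have hb₄ : 𝔓.v.Ge ((s58E W)⁄Qb).b₄ 0 := by
    rw [s58l_curve_eq, WeierstrassCurve.map_b₄, eq_intCast]; exact hv.ge_int _
  have hb₆ : 𝔓.v.Ge ((s58E W)⁄Qb).b₆ 0 := by
    rw [s58l_curve_eq, WeierstrassCurve.map_b₆, eq_intCast]; exact hv.ge_int _
  have ha₁ : 𝔓.v.Ge ((s58E W)⁄Qb).a₁ 0 := by
    rw [s58l_curve_eq, WeierstrassCurve.map_a₁, eq_intCast]; exact hv.ge_int _
  have ha₃ : 𝔓.v.Ge ((s58E W)⁄Qb).a₃ 0 := by
    rw [s58l_curve_eq, WeierstrassCurve.map_a₃, eq_intCast]; exact hv.ge_int _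
  have g₁ := lre_root_integral h2 hb₂ hb₄ hb₆ hr.root₁
  have g₂ := lre_root_integral h2 hb₂ hb₄ hb₆ hr.root₂
  have g₃ := lre_root_integral h2 hb₂ hb₄ hb₆ hr.root₃
  have hΔK : 𝔓.v.Is ((s58E W)⁄Qb).Δ 0 := by
    rw [s58l_Δ_eq]; exact hv.is_int hgood
  obtain ⟨i12, i13, i23⟩ := lre_units_of_Δ h2 hΔK hdisc g₁ g₂ g₃
  exact ⟨e₁, e₂, e₃, hr, h2, ha₁, ha₃, g₁, g₂, g₃, i12, i13, i23⟩

variable {W}

/-- **one inertia orbit carries depth at least `2`** -/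
theorem mltpg_two_le_orbit_sum {𝔓 : FFPlace} (hp2 : 𝔓.p ≠ 2) {e₁ e₂ e₃ : Qb}
    (hg : LreGood 𝔓.v ((s58E W)⁄Qb) e₁ e₂ e₃)
    (Vp : Finset (mltpgLeg W e₁).toAffine.Point) (hVp : ∀ T, T ∈ Vp ↔ 𝔓.p • T = 0)
    (hker : ∀ T ∈ Vp.erase 0, 𝔓.v.Lt (xc T) 0) {z₀ : (mltpgLeg W e₁).toAffine.Point}
    (hz₀ : z₀ ∈ Vp.erase 0) (O : Finset (mltpgLeg W e₁).toAffine.Point)
    (hO : ∀ T, T ∈ O ↔ T ∈ Vp.erase 0 ∧ ∃ σ ∈ 𝔓.I, mltpgT W e₁ σ z₀ = T) :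
    2 ≤ ∑ T ∈ O, (-(𝔓.v.ord (xc T))) := by
  classical
  have hv := dlp_qvalFor 𝔓
  have hW := hg.isLeg
  have hfix : ∀ σ ∈ 𝔓.I, σ e₁ = e₁ := fun σ hσ =>
    mltpg_root_fixed W 𝔓 hg.roots hg.ge₁ hg.is₁₂ hg.is₁₃ hσ
  -- the orbit is stable
  have hstab : ∀ T ∈ O, ∀ σ ∈ 𝔓.I, mltpgT W e₁ σ T ∈ O := by
    intro T hT σ hσ
    obtain ⟨hTV, τ, hτ, hτT⟩ := (hO T).mp hT
    refine (hO _).mpr ⟨?_, σ * τ, mul_mem hσ hτ, by rw [mltpgT_mul, hτT]⟩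
    rw [Finset.mem_erase] at hTV ⊢
    refine ⟨fun h0 => hTV.1 ?_, (hVp _).mpr ?_⟩
    · have := mltpgT_inv_apply W e₁ σ T
      rw [h0, map_zero] at this
      exact this.symm
    · rw [← map_nsmul, (hVp T).mp hTV.2, map_zero]
  -- the coordinates of the points of the orbit
  have hcoord : ∀ T ∈ O, ∃ (X Y : Qb) (hXY : (mltpgLeg W e₁).toAffine.Nonsingular X Y),
      T = Point.some X Y hXY ∧ 𝔓.v.Lt X 0 := by
    intro T hT
    obtain ⟨hTV, -⟩ := (hO T).mp hT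
    have hlt := hker T hTV
    rcases T with _ | ⟨X, Y, hXY⟩
    · exact absurd rfl (Finset.mem_erase.mp hTV).1
    · exact ⟨X, Y, hXY, rfl, hlt⟩
  have hZis : ∀ T ∈ O, 𝔓.v.Is (mltpgZ T) (-(𝔓.v.ord (xc T)) / 2) := by
    intro T hT
    obtain ⟨X, Y, hXY, rfl, hlt⟩ := hcoord T hT
    exact mltpg_is_Z_of_lt hW hg.ge_a hg.ge_b hXY hlt
  have hZσ : ∀ T ∈ O, ∀ σ ∈ 𝔓.I, mltpgZ (mltpgT W e₁ σ T) = σ (mltpgZ T) := by
    intro T hT σ hσ
    obtain ⟨X, Y, hXY, rfl, hlt⟩ := hcoord T hT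
    obtain ⟨h', e'⟩ := (mltpg_phi_smul W (hfix σ hσ)
      ((mltpgPhi W e₁).symm (Point.some X Y hXY))).2 X Y hXY (AddEquiv.apply_symm_apply _ _)
    rw [mltpgT_apply, e', mltpgZ_some, mltpgZ_some, map_div₀]
  -- the invariant
  set g : Qb := ∏ T ∈ O, mltpgZ T with hgdef
  have hgfix : ∀ σ ∈ 𝔓.I, σ g = g := by
    intro σ hσ
    rw [hgdef, map_prod]
    have h1 : ∏ T ∈ O, σ (mltpgZ T) = ∏ T ∈ O, mltpgZ (mltpgT W e₁ σ T) :=
      Finset.prod_congr rfl fun T hT => (hZσ T hT σ hσ).symm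
    rw [h1]
    exact Finset.prod_nbij' (fun T => mltpgT W e₁ σ T) (fun T => mltpgT W e₁ σ⁻¹ T)
      (fun T hT => hstab T hT σ hσ) (fun T hT => hstab T hT σ⁻¹ (inv_mem hσ))
      (fun T _ => mltpgT_inv_apply W e₁ σ T) (fun T _ => mltpgT_apply_inv W e₁ σ T)
      (fun T _ => rfl)
  have hne : ∀ T ∈ O, mltpgZ T ≠ 0 := fun T hT => (hZis T hT).1
  have hg0 : g ≠ 0 := Finset.prod_ne_zero_iff.mpr hne
  have hord : 𝔓.v.ord g = ∑ T ∈ O, (-(𝔓.v.ord (xc T)) / 2) := by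
    rw [hgdef, dlp_ord_prod _ _ hne]
    exact Finset.sum_congr rfl fun T hT => (hZis T hT).2
  obtain ⟨n, hn⟩ := 𝔓.lf_unr g ((𝔓.mem_K0_iff g).mpr hgfix) hg0
  -- positivity
  have hz₀O : z₀ ∈ O := (hO z₀).mpr ⟨hz₀, 1, one_mem _, mltpgT_one W e₁ z₀⟩
  have hpos : ∀ T ∈ O, 0 < -(𝔓.v.ord (xc T)) / 2 := by
    intro T hT
    obtain ⟨hTV, -⟩ := (hO T).mp hT
    have := (hker T hTV).2
    linarith
  have hsumpos : 0 < ∑ T ∈ O, (-(𝔓.v.ord (xc T)) / 2) :=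
    Finset.sum_pos hpos ⟨z₀, hz₀O⟩
  have hn1 : (1 : ℚ) ≤ n := by
    have h0 : (0 : ℚ) < n := by rw [← hn, hord]; exact hsumpos
    have : 0 < n := by exact_mod_cast h0
    exact_mod_cast this
  have e2 : ∑ T ∈ O, (-(𝔓.v.ord (xc T))) = 2 * ∑ T ∈ O, (-(𝔓.v.ord (xc T)) / 2) := by
    rw [Finset.mul_sum]
    exact Finset.sum_congr rfl fun T _ => by ring
  rw [e2, ← hord, hn]
  linarith

/-- **(SL2) in Legendre coordinates** -/
theorem mltpg_transitive_leg {𝔓 : FFPlace} (hp2 : 𝔓.p ≠ 2) {e₁ e₂ e₃ : Qb}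
    (hg : LreGood 𝔓.v ((s58E W)⁄Qb) e₁ e₂ e₃)
    (Vp : Finset (mltpgLeg W e₁).toAffine.Point) (hVp : ∀ T, T ∈ Vp ↔ 𝔓.p • T = 0)
    (hker : ∀ T ∈ Vp.erase 0, 𝔓.v.Lt (xc T) 0) {x₀ y₀ : (mltpgLeg W e₁).toAffine.Point}
    (hx₀ : x₀ ∈ Vp.erase 0) (hy₀ : y₀ ∈ Vp.erase 0) : ∃ σ ∈ 𝔓.I, mltpgT W e₁ σ x₀ = y₀ := by
  classical
  have hv := dlp_qvalFor 𝔓
  have hp := 𝔓.hp
  have h2 := hv.is_two hp hp2
  have hW := hg.isLeg
  have hpodd : Odd 𝔓.p := hp.odd_of_ne_two hp2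
  by_contra hcon
  push Not at hcon
  set O₁ := (Vp.erase 0).filter (fun T => ∃ σ ∈ 𝔓.I, mltpgT W e₁ σ x₀ = T) with hO₁
  set O₂ := (Vp.erase 0).filter (fun T => ∃ σ ∈ 𝔓.I, mltpgT W e₁ σ y₀ = T) with hO₂
  have h1 := mltpg_two_le_orbit_sum hp2 hg Vp hVp hker hx₀ O₁
    (fun T => by rw [hO₁, Finset.mem_filter])
  have h2' := mltpg_two_le_orbit_sum hp2 hg Vp hVp hker hy₀ O₂
    (fun T => by rw [hO₂, Finset.mem_filter])
  have hdisj : Disjoint O₁ O₂ := by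
    rw [Finset.disjoint_left]
    intro T hT1 hT2
    obtain ⟨-, σ, hσ, hσT⟩ := Finset.mem_filter.mp hT1
    obtain ⟨-, τ, hτ, hτT⟩ := Finset.mem_filter.mp hT2
    apply hcon (τ⁻¹ * σ) (mul_mem (inv_mem hτ) hσ)
    rw [mltpgT_mul, hσT, ← hτT, mltpgT_inv_apply]
  have hbI : 𝔓.v.Is ((e₂ - e₁) * (e₃ - e₁)) 0 := hg.is_e.mul0 hg.is_r
  have habI : 𝔓.v.Is ((-((e₂ - e₁) + (e₃ - e₁))) ^ 2 - 4 * ((e₂ - e₁) * (e₃ - e₁))) 0 := by
    have e : (-((e₂ - e₁) + (e₃ - e₁))) ^ 2 - 4 * ((e₂ - e₁) * (e₃ - e₁)) =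
        ((e₂ - e₁) - (e₃ - e₁)) ^ 2 := by ring
    rw [e]
    have := hg.is_er.sq
    rwa [mul_zero] at this
  have hdepth := dlp_sum_depth_neg_le hW hbI.1 habI.1 hg.ge_a hg.ge_b hpodd 𝔓.is_p Vp hVp
  have hsub : O₁ ∪ O₂ ⊆ (Vp.erase 0).filter (fun T => 𝔓.v.ord (xc T) < 0) := by
    intro T hT
    rw [Finset.mem_filter]
    rcases Finset.mem_union.mp hT with h | h
    · have := (Finset.mem_filter.mp h).1
      exact ⟨this, (hker T this).2⟩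
    · have := (Finset.mem_filter.mp h).1
      exact ⟨this, (hker T this).2⟩
  have hle : ∑ T ∈ O₁ ∪ O₂, (-(𝔓.v.ord (xc T))) ≤
      ∑ T ∈ (Vp.erase 0).filter (fun T => 𝔓.v.ord (xc T) < 0), (-(𝔓.v.ord (xc T))) := by
    refine Finset.sum_le_sum_of_subset_of_nonneg hsub fun T hT _ => ?_
    have := (Finset.mem_filter.mp hT).2
    linarith
  rw [Finset.sum_union hdisj] at hle
  linarith

end Good

section Main

variable (W : WeierstrassCurve ℤ)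

/-- **(SL2)**: in the supersingular case (good reduction, `W[p]` contained in the kernel of
reduction) the inertia group is transitive on `W[p] ∖ 0` -/
theorem mltpg_transitive_of_ker (hΔ : W.Δ ≠ 0) (𝔓 : FFPlace) (hp2 : 𝔓.p ≠ 2) {e₁ e₂ e₃ : Qb}
    (hg : LreGood 𝔓.v ((s58E W)⁄Qb) e₁ e₂ e₃)
    (Vp : Finset (mltpgLeg W e₁).toAffine.Point) (hVp : ∀ T, T ∈ Vp ↔ 𝔓.p • T = 0)
    (hker : ∀ T ∈ Vp.erase 0, 𝔓.v.Lt (xc T) 0) (x y : S58Tors W 𝔓.p) (hx : x ≠ 0) (hy : y ≠ 0) :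
    ∃ σ ∈ 𝔓.P.inertiaSubgroupIn ℚ, σ • x = y := by
  have hmem : ∀ z : S58Tors W 𝔓.p, z ≠ 0 → mltpgPhi W e₁ z.1 ∈ Vp.erase 0 := by
    intro z hz
    rw [Finset.mem_erase]
    refine ⟨fun h0 => hz (Subtype.ext ?_), (hVp _).mpr ?_⟩
    · exact (mltpgPhi W e₁).map_eq_zero_iff.mp h0
    · have hz2 := z.2
      rw [Submodule.mem_torsionBy_iff, natCast_zsmul] at hz2
      rw [← map_nsmul, hz2, map_zero]
  obtain ⟨σ, hσ, hσx⟩ := mltpg_transitive_leg hp2 hg Vp hVp hker (hmem x hx) (hmem y hy)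
  refine ⟨σ, hσ, Subtype.ext ?_⟩
  rw [mltpgT_phi] at hσx
  exact (mltpgPhi W e₁).injective hσx

/-- **the local hypothesis at a place over `p`**: ordinary shape, or transitive inertia -/
theorem mltpg_localAtP_place (hΔ : W.Δ ≠ 0) (𝔓 : FFPlace) (hp2 : 𝔓.p ≠ 2)
    (hss : (𝔓.p : ℤ) ∣ W.Δ → ¬ (𝔓.p : ℤ) ∣ W.c₄) :
    (∃ L : AddSubgroup (S58Tors W 𝔓.p), L ≠ ⊤ ∧
        ∀ σ ∈ 𝔓.P.inertiaSubgroupIn ℚ, ∀ x : S58Tors W 𝔓.p, σ • x - x ∈ L) ∨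
      (∀ x y : S58Tors W 𝔓.p, x ≠ 0 → y ≠ 0 → ∃ σ ∈ 𝔓.P.inertiaSubgroupIn ℚ, σ • x = y) := by
  classical
  have hp := 𝔓.hp
  have hv := dlp_qvalFor 𝔓
  have h2 := hv.is_two hp hp2
  set ι : S58Tors W 𝔓.p →+ ((s58E W)⁄Qb).Point :=
    (Submodule.subtype (S58Tors W 𝔓.p)).toAddMonoidHom with hι
  by_cases hbad : (𝔓.p : ℤ) ∣ W.Δ
  · -- multiplicative reduction
    left
    obtain ⟨e₁, e₂, e₃, hN⟩ := mltpg_exists_node W hΔ 𝔓 hp2 hbad (hss hbad)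
    have hh : (1 : ℚ) ≤ 2 * ((multiplicity (𝔓.p : ℤ) W.Δ : ℕ) / 2) := by
      have h0 : (0 : ℚ) < (multiplicity (𝔓.p : ℤ) W.Δ : ℕ) := by linarith [hN.pos]
      have h1 : 0 < multiplicity (𝔓.p : ℤ) W.Δ := by exact_mod_cast h0
      have h2 : (1 : ℚ) ≤ (multiplicity (𝔓.p : ℤ) W.Δ : ℕ) := by exact_mod_cast h1
      linarith
    refine ⟨(hN.ker hp2).comap ι, ?_, fun σ hσ x => ?_⟩
    · intro htop
      have hc1 := hN.card_ker_tors hΔ hp2 hh 1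
      haveI : Finite {x : ((s58E W)⁄Qb).Point // x ∈ hN.ker hp2 ∧ 𝔓.p ^ 1 • x = 0} :=
        Nat.finite_of_card_ne_zero (by rw [hc1]; exact pow_ne_zero _ hp.ne_zero)
      have hall : ∀ x : S58Tors W 𝔓.p, x.1 ∈ hN.ker hp2 ∧ 𝔓.p ^ 1 • x.1 = 0 := by
        intro x
        have h1 : x ∈ (hN.ker hp2).comap ι := by rw [htop]; trivial
        have h2 := x.2
        rw [Submodule.mem_torsionBy_iff, natCast_zsmul] at h2
        exact ⟨h1, by rw [pow_one]; exact h2⟩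
      have hle := Nat.card_le_card_of_injective
        (fun x : S58Tors W 𝔓.p =>
          (⟨x.1, hall x⟩ : {x : ((s58E W)⁄Qb).Point // x ∈ hN.ker hp2 ∧ 𝔓.p ^ 1 • x = 0}))
        (fun x y e => Subtype.ext (Subtype.mk.injEq _ _ _ _ ▸ e : x.1 = y.1))
      rw [hc1, s58l_natCard_tors W hΔ hp.pos, pow_one] at hle
      have := hp.two_le
      nlinarith
    · have hx2 := x.2
      rw [Submodule.mem_torsionBy_iff, natCast_zsmul] at hx2
      have := hN.sub_mem_ker hp2 hσ (n := 1) x.1 (by rw [pow_one]; exact hx2)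
      exact this
  · -- good reduction
    obtain ⟨e₁, e₂, e₃, hg⟩ := mltpg_exists_good W hΔ 𝔓 hp2 hbad
    have hW := hg.isLeg
    obtain ⟨Vp, hVp⟩ := mltpg_exists_finset_tors W hΔ hp.pos e₁
    by_cases hker : ∀ T ∈ Vp.erase 0, 𝔓.v.Lt (xc T) 0
    · right
      exact mltpg_transitive_of_ker W hΔ 𝔓 hp2 hg Vp hVp hker
    · left
      push Not at hker
      obtain ⟨T₀, hT₀, hT₀lt⟩ := hker
      set E1 := mltpgE1 𝔓.v hW hg.ge_a hg.ge_b h2 with hE1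
      refine ⟨(E1.comap (mltpgPhi W e₁).toAddMonoidHom).comap ι, ?_, fun σ hσ x => ?_⟩
      · intro htop
        have hT₀tor : 𝔓.p • (mltpgPhi W e₁).symm T₀ = 0 := by
          rw [← map_nsmul, (hVp T₀).mp (Finset.mem_of_mem_erase hT₀), map_zero]
        set x₀ : S58Tors W 𝔓.p := ⟨(mltpgPhi W e₁).symm T₀, by
          rw [Submodule.mem_torsionBy_iff, natCast_zsmul]; exact hT₀tor⟩ with hx₀
        have h1 : x₀ ∈ (E1.comap (mltpgPhi W e₁).toAddMonoidHom).comap ι := by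
          rw [htop]; trivial
        have h3 : mltpgPhi W e₁ ((mltpgPhi W e₁).symm T₀) ∈ E1 := h1
        rw [AddEquiv.apply_symm_apply] at h3
        exact hT₀lt (mltpg_xc_lt_of_mem_E1 hW hg.ge_a hg.ge_b h2 h3
          (Finset.ne_of_mem_erase hT₀))
      · have hfix : σ e₁ = e₁ := mltpg_root_fixed W 𝔓 hg.roots hg.ge₁ hg.is₁₂ hg.is₁₃ hσ
        have hT := mltpg_inertiaLike W 𝔓 hσ hfix
        obtain ⟨τ, hτ, i⟩ := exists_inE_map_sub_of_good hW hg.ge_a hg.ge_b h2 hT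
          (good_of_roots hW hg.is_e hg.is_r hg.is_er) (mltpgPhi W e₁ x.1)
        show mltpgPhi W e₁ (σ • x.1 - x.1) ∈ E1
        rw [map_sub, ← mltpgT_phi]
        exact ⟨τ, hτ, i⟩

/-- **the literal body of `MltrLocalAtP W p`** (stream [R]), for every odd prime `p` at which `W`
is semistable -/
theorem mltpg_localAtP (hΔ : W.Δ ≠ 0) {p : ℕ} (hp : p.Prime) (hp2 : p ≠ 2)
    (hss : (p : ℤ) ∣ W.Δ → ¬ (p : ℤ) ∣ W.c₄) :
    ∃ P : ValuationSubring Qb, P.LiesOverPrime p ∧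
      ((∃ L : AddSubgroup (S58Tors W p), L ≠ ⊤ ∧
          ∀ σ ∈ P.inertiaSubgroupIn ℚ, ∀ x : S58Tors W p, σ • x - x ∈ L) ∨
        (∀ x y : S58Tors W p, x ≠ 0 → y ≠ 0 → ∃ σ ∈ P.inertiaSubgroupIn ℚ, σ • x = y)) := by
  obtain ⟨P, hP⟩ := Fermat.Agent.Lib.Helper6.exists_valuationSubring_liesOverPrime Qb hp
  exact ⟨P, hP, mltpg_localAtP_place W hΔ ⟨P, p, hp, hP⟩ hp2 hss⟩

end Main

end Fermat.Agent.MLT
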