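/-
MLT / at p, Galois side (helper5): **the strict form of the ordinary filtration at a prime of
multiplicative reduction**.

With the notation of `OrdInput.lean` (`T` = kernel of reduction of `W(ℚ̄)` at `𝔓 ∣ p`): for every
`σ` in the DECOMPOSITION group of `𝔓` there is a sign `z(σ) = ± 1` (the action of `σ` on the two
tangent directions at the node) with `σ x - z(σ) x ∈ T` for all `x ∈ W[p ^ n]`, all `n`
(`MltpgNode.strict_sub_mem_ker`, `mltpg_ordInput_mult_strict`).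

* `mltpg_ord_decomp` : the decomposition group preserves the valuation (copy of
  `Mazur2.mz2e_ord_decomp`, to keep the imports light);
* `MltpgNode.perm_D` : the decomposition group fixes `e₃` and fixes or exchanges `e₁, e₂`.
-/
import Mathlib
import Fermat.Agent.Lib.MLT.AtPG.OrdInput

set_option autoImplicit false
set_option linter.unusedSectionVars false
set_option linter.unusedVariables false
set_option linter.style.haveILetI false

open WeierstrassCurve WeierstrassCurve.Affine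

namespace Fermat.Agent.MLT

open Fermat.Agent.S05Lib Fermat.Agent.S13Lib Fermat.Agent.TW Fermat.Agent.Delta
  Fermat.Agent.S58 Fermat.Agent.LR Fermat.Agent.X015

local notation "Qb" => AlgebraicClosure ℚ
local notation "GQ" => (AlgebraicClosure ℚ ≃ₐ[ℚ] AlgebraicClosure ℚ)

section Ord

variable {A : ValuationSubring Qb} {q : ℕ} {v : QVal Qb}

/-- a field automorphism over `ℚ` mapping `A` into itself does not decrease `ord` -/
theorem mltpg_ord_le_of_map_mem (hv : QValFor A q v) (hq : q.Prime) {τ : GQ}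
    (hτ : ∀ y ∈ A, τ y ∈ A) {x : Qb} (hx : x ≠ 0) : v.ord x ≤ v.ord (τ x) := by
  have hq0 : ((q : ℕ) : Qb) ≠ 0 := by exact_mod_cast hq.ne_zero
  set c := v.ord ((q : ℕ) : Qb) with hc
  have hcpos : 0 < c := hv.ord_q
  set r : ℚ := v.ord x / c with hr
  have hden : (0 : ℚ) < (r.den : ℚ) := by exact_mod_cast r.den_pos
  have hrc : (r.den : ℚ) * v.ord x = (r.num : ℚ) * c := by
    have h1 : r * (r.den : ℚ) = (r.num : ℚ) := Rat.mul_den_eq_num r
    have h2 : v.ord x = r * c := by rw [hr]; field_simp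
    rw [h2]
    linear_combination c * h1
  set s₁ : ℕ := r.num.toNat with hs₁
  set s₂ : ℕ := (-r.num).toNat with hs₂
  have hs : (s₁ : ℚ) - (s₂ : ℚ) = (r.num : ℚ) := by
    have := Int.toNat_sub_toNat_neg r.num
    exact_mod_cast this
  set m : ℕ := r.den with hm
  have hτx : τ x ≠ 0 := (map_ne_zero τ).mpr hx
  -- `y = x^m q^s₂ / q^s₁` is integral
  have hy0 : x ^ m * ((q : ℕ) : Qb) ^ s₂ / ((q : ℕ) : Qb) ^ s₁ ≠ 0 :=
    div_ne_zero (mul_ne_zero (pow_ne_zero _ hx) (pow_ne_zero _ hq0)) (pow_ne_zero _ hq0)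
  have hordy : ∀ z : Qb, z ≠ 0 →
      v.ord (z ^ m * ((q : ℕ) : Qb) ^ s₂ / ((q : ℕ) : Qb) ^ s₁) =
        (m : ℚ) * v.ord z + (s₂ : ℚ) * c - (s₁ : ℚ) * c := by
    intro z hz
    rw [v.ord_div (mul_ne_zero (pow_ne_zero _ hz) (pow_ne_zero _ hq0)) (pow_ne_zero _ hq0),
      v.ord_mul' (pow_ne_zero _ hz) (pow_ne_zero _ hq0), v.ord_pow hz, v.ord_pow hq0,
      v.ord_pow hq0]
  have hyA : x ^ m * ((q : ℕ) : Qb) ^ s₂ / ((q : ℕ) : Qb) ^ s₁ ∈ A := by
    rw [hv.mem_iff]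
    right
    rw [hordy x hx]
    have : (m : ℚ) * v.ord x + (s₂ : ℚ) * c - (s₁ : ℚ) * c = 0 := by
      rw [hrc, ← hs]; ring
    rw [this]
  have hτy := hτ _ hyA
  have hτe : τ (x ^ m * ((q : ℕ) : Qb) ^ s₂ / ((q : ℕ) : Qb) ^ s₁) =
      (τ x) ^ m * ((q : ℕ) : Qb) ^ s₂ / ((q : ℕ) : Qb) ^ s₁ := by
    rw [map_div₀, map_mul, map_pow, map_pow, map_pow, map_natCast]
  rw [hτe, hv.mem_iff] at hτy
  have hτy0 : (τ x) ^ m * ((q : ℕ) : Qb) ^ s₂ / ((q : ℕ) : Qb) ^ s₁ ≠ 0 :=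
    div_ne_zero (mul_ne_zero (pow_ne_zero _ hτx) (pow_ne_zero _ hq0)) (pow_ne_zero _ hq0)
  have h0 := hτy.resolve_left hτy0
  rw [hordy (τ x) hτx] at h0
  have h1 : (m : ℚ) * v.ord x ≤ (m : ℚ) * v.ord (τ x) := by
    have : (m : ℚ) * v.ord x = (s₁ : ℚ) * c - (s₂ : ℚ) * c := by rw [hrc, ← hs]; ring
    linarith
  exact le_of_mul_le_mul_left h1 hden

/-- **the decomposition group preserves the valuation** -/
theorem mltpg_ord_decomp (hv : QValFor A q v) (hq : q.Prime) {σ : GQ}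
    (hσ : σ ∈ A.decompositionSubgroup ℚ) (x : Qb) : v.ord (σ x) = v.ord x := by
  by_cases hx : x = 0
  · rw [hx, map_zero]
  · have h1 := mltpg_ord_le_of_map_mem hv hq (τ := σ) (fun y hy => qv_decomp_mem A hσ hy) hx
    have hσ' : σ⁻¹ ∈ A.decompositionSubgroup ℚ := inv_mem hσ
    have h2 := mltpg_ord_le_of_map_mem hv hq (τ := σ⁻¹) (fun y hy => qv_decomp_mem A hσ' hy)
      ((map_ne_zero σ).mpr hx)
    have e : σ⁻¹ (σ x) = x := by
      show (σ⁻¹ * σ) x = x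
      rw [inv_mul_cancel]
      rfl
    rw [e] at h2
    exact le_antisymm h2 h1

end Ord

namespace MltpgNode

variable {W : WeierstrassCurve ℤ} {𝔓 : FFPlace} {e₁ e₂ e₃ : Qb} {h : ℚ}
  (hN : MltpgNode W 𝔓 e₁ e₂ e₃ h)
include hN

/-- the decomposition group preserves the valuation -/
theorem ord_D {σ : GQ} (hσ : σ ∈ 𝔓.D) (x : Qb) : 𝔓.v.ord (σ x) = 𝔓.v.ord x :=
  mltpg_ord_decomp (dlp_qvalFor 𝔓) 𝔓.hp hσ x

omit hN in
theorem is_D {σ : GQ} (hσ : σ ∈ 𝔓.D) {x : Qb} {t : ℚ} (hx : 𝔓.v.Is x t) : 𝔓.v.Is (σ x) t :=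
  ⟨(map_ne_zero σ).mpr hx.1, by rw [mltpg_ord_decomp (dlp_qvalFor 𝔓) 𝔓.hp hσ x, hx.2]⟩

omit hN in
theorem gt_D {σ : GQ} (hσ : σ ∈ 𝔓.D) {x : Qb} {t : ℚ} (hx : 𝔓.v.Gt x t) : 𝔓.v.Gt (σ x) t := by
  rcases hx with h0 | h0
  · left; rw [h0, map_zero]
  · right; rwa [mltpg_ord_decomp (dlp_qvalFor 𝔓) 𝔓.hp hσ x]

/-- the decomposition group fixes `e₃` and fixes or exchanges `e₁, e₂` -/
theorem perm_D {σ : GQ} (hσ : σ ∈ 𝔓.D) :
    (σ e₁ = e₁ ∧ σ e₂ = e₂ ∧ σ e₃ = e₃) ∨ (σ e₁ = e₂ ∧ σ e₂ = e₁ ∧ σ e₃ = e₃) := by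
  have hne : e₂ - e₁ ≠ 0 := hN.is_e.1
  have h12 : σ e₁ ≠ σ e₂ := fun h0 => hne (by rw [σ.injective h0, sub_self])
  have hσe : 𝔓.v.Is (σ e₂ - σ e₁) h := by
    have := is_D hσ hN.is_e
    rwa [map_sub] at this
  have h13 : 𝔓.v.Is (e₁ - e₃) 0 := by
    have := hN.is_r.neg
    rwa [neg_sub] at this
  have h23 : 𝔓.v.Is (e₂ - e₃) 0 := by
    have := hN.is_er
    have e : (e₂ - e₁) - (e₃ - e₁) = e₂ - e₃ := by ring
    rwa [e] at this
  have hpos := hN.pos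
  have hsum : σ e₁ + σ e₂ + σ e₃ = e₁ + e₂ + e₃ := by
    have e : e₁ + e₂ + e₃ = -((s58E W)⁄Qb).b₂ / 4 := by rw [hN.roots.hb₂]; ring
    have := congrArg σ e
    rw [map_div₀, map_neg, mltpg_map_b₂, map_ofNat, ← e, map_add, map_add] at this
    exact this
  have r1 := mltpg_root_perm W hN.roots σ hN.roots.root₁
  have r2 := mltpg_root_perm W hN.roots σ hN.roots.root₂
  -- `σ e₁ ≠ e₃`
  have n1 : σ e₁ ≠ e₃ := by
    intro h1
    rw [h1] at hσe
    rcases r2 with h2 | h2 | h2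
    · rw [h2] at hσe; linarith [hσe.unique h13]
    · rw [h2] at hσe; linarith [hσe.unique h23]
    · exact h12 (by rw [h1, h2])
  have n2 : σ e₂ ≠ e₃ := by
    intro h2
    rw [h2] at hσe
    have hσe' : 𝔓.v.Is (σ e₁ - e₃) h := by
      have := hσe.neg
      rwa [neg_sub] at this
    rcases r1 with h1 | h1 | h1
    · rw [h1] at hσe'; linarith [hσe'.unique h13]
    · rw [h1] at hσe'; linarith [hσe'.unique h23]
    · exact n1 h1
  rcases r1 with h1 | h1 | h1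
  · rcases r2 with h2 | h2 | h2
    · exact absurd (by rw [h1, h2]) h12
    · left
      refine ⟨h1, h2, ?_⟩
      rw [h1, h2] at hsum
      linear_combination hsum
    · exact absurd h2 n2
  · rcases r2 with h2 | h2 | h2
    · right
      refine ⟨h1, h2, ?_⟩
      rw [h1, h2] at hsum
      linear_combination hsum
    · exact absurd (by rw [h1, h2]) h12
    · exact absurd h2 n2
  · exact absurd h1 n1

/-- the translation `σ e₁ - e₁` has order at least `h`, for `σ` in the decomposition group -/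
theorem ge_c_D {σ : GQ} (hσ : σ ∈ 𝔓.D) : 𝔓.v.Ge (σ e₁ - e₁) h := by
  rcases hN.perm_D hσ with ⟨h1, _, _⟩ | ⟨h1, _, _⟩
  · rw [h1, sub_self]; exact Or.inl rfl
  · rw [h1]; exact hN.is_e.ge

/-- the decomposition group fixes the coefficient `a` of the Legendre model modulo the maximal
ideal -/
theorem gt_a_D {σ : GQ} (hσ : σ ∈ 𝔓.D) :
    𝔓.v.Gt (σ (-((e₂ - e₁) + (e₃ - e₁))) - -((e₂ - e₁) + (e₃ - e₁))) 0 := by
  rcases hN.perm_D hσ with ⟨h1, h2, h3⟩ | ⟨h1, h2, h3⟩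
  · left
    simp only [map_neg, map_add, map_sub, h1, h2, h3]
    ring
  · have e : σ (-((e₂ - e₁) + (e₃ - e₁))) - -((e₂ - e₁) + (e₃ - e₁)) = 3 * (e₂ - e₁) := by
      simp only [map_neg, map_add, map_sub, h1, h2, h3]
      ring
    rw [e]
    have h3' : 𝔓.v.Ge (3 : Qb) 0 := by
      have := (dlp_qvalFor 𝔓).ge_int 3
      exact_mod_cast this
    have := h3'.mul_gt hN.gt_e
    rwa [add_zero] at this

/-- **the general form**: `σ` in the decomposition group, `ζ = ± 1` with `σ ρ ≡ ζ ρ`, and a point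
`w` with the Legendre coordinates `(X, ζ Y)` of `ζ x` -/
theorem sub_mem_ker_of_sign (hp2 : 𝔓.p ≠ 2) {σ : GQ} (hσ : σ ∈ 𝔓.D) {ρ ζ : Qb}
    (hρ : ρ ^ 2 = -((e₂ - e₁) + (e₃ - e₁))) (hζ : ζ = 1 ∨ ζ = -1)
    (hσρ : 𝔓.v.Gt (σ ρ - ζ * ρ) 0) {n : ℕ} (x w : ((s58E W)⁄Qb).Point)
    (hx : 𝔓.p ^ n • x = 0) (hw : 𝔓.p ^ n • w = 0)
    (hw0 : mltpgPhi W e₁ x = 0 → mltpgPhi W e₁ w = 0)
    (hws : ∀ (X Y : Qb) (hXY : (mltpgLeg W e₁).toAffine.Nonsingular X Y),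
      mltpgPhi W e₁ x = Point.some X Y hXY →
        ∃ h', mltpgPhi W e₁ w = Point.some X (ζ * Y) h') :
    σ • x - w ∈ hN.ker hp2 := by
  have hv := dlp_qvalFor 𝔓
  have hp := 𝔓.hp
  have h2 := hv.is_two hp hp2
  have hW := hN.isLeg hp2
  have hpodd : Odd (𝔓.p ^ n) := (hp.odd_of_ne_two hp2).pow
  have hpv : 𝔓.v.Gt ((𝔓.p : ℕ) : Qb) 0 := 𝔓.is_p.gt one_pos
  have hζge : 𝔓.v.Ge ζ 0 := by
    rcases hζ with h1 | h1 <;> rw [h1]
    · exact 𝔓.v.is_one.ge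
    · exact 𝔓.v.is_one.neg.ge
  obtain ⟨hz, hs⟩ := mltpg_phi_smul_gen W (e₁ := e₁) σ x
  -- the difference lies in `E₀`
  have hE0 : fP 𝔓.v h (mltpgPhi W e₁ (σ • x) - mltpgPhi W e₁ w) = 0 := by
    rcases hQ : mltpgPhi W e₁ x with _ | ⟨X, Y, hXY⟩
    · have e0 : (Point.zero : (mltpgLeg W e₁).toAffine.Point) = 0 := rfl
      rw [e0] at hQ
      rw [hz hQ, hw0 hQ, sub_self]
      exact fP_zero
    · obtain ⟨h', e'⟩ := hs X Y hXY hQ
      obtain ⟨hw', ew⟩ := hws X Y hXY hQ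
      rw [e', ew]
      have htorQ : 𝔓.p ^ n • Point.some X Y hXY = 0 := by
        rw [← hQ, ← map_nsmul, hx, map_zero]
      set c := σ e₁ - e₁ with hc
      have hcge : 𝔓.v.Ge c h := hN.ge_c_D hσ
      rcases fx_cases 𝔓.v h X with hX | ⟨j, hj0, hjh, hX⟩ | hX
      · -- both points in `E₀`
        have hσX : 𝔓.v.Is (σ X) (𝔓.v.ord X) := is_D hσ hX.is
        have hX' : 𝔓.v.Is (σ X + c) (𝔓.v.ord X) :=
          hσX.add_gt ((hcge.gt hN.pos).mono hX.2)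
        have f1 : fP 𝔓.v h (Point.some (σ X + c) (σ Y) h') = 0 :=
          (mltpg_fP_eq_zero_iff hN.pos h').mpr (hX'.le' hX.2)
        have f2 : fP 𝔓.v h (Point.some X (ζ * Y) hw') = 0 :=
          (mltpg_fP_eq_zero_iff hN.pos hw').mpr hX
        rw [sub_eq_add_neg]
        exact mltpg_E0_add hW hN.is_a hN.is_b hN.pos h2 hρ f1 (mltpg_E0_neg hW hN.pos f2)
      · -- both points on the same branch of the node
        have hσX : 𝔓.v.Is (σ X) j := is_D hσ hX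
        have hX' : 𝔓.v.Is (σ X + c) j := hσX.add_gt (hcge.gt hjh)
        have hs0 := mltpg_slope_is hW hN.is_a hN.is_b hXY hj0 hjh hX
        have hσs : 𝔓.v.Is (σ (Y / X)) 0 := is_D hσ hs0
        have hq : 𝔓.v.Gt (c / (σ X + c)) 0 := ((hcge.gt hjh).div_is hX').mono (by linarith)
        -- the slope is congruent to `± ρ`
        have hsq : 𝔓.v.Gt ((Y / X - ρ) * (Y / X + ρ)) 0 := by
          have q := hW.eq_of_nonsingular hXY
          have hX0 := hX.1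
          have e : (Y / X - ρ) * (Y / X + ρ) = X + (e₂ - e₁) * (e₃ - e₁) / X := by
            have : (Y / X - ρ) * (Y / X + ρ) = (Y / X) ^ 2 - ρ ^ 2 := by ring
            rw [this, hρ]
            field_simp
            rw [q]; ring
          rw [e]
          exact (hX.gt hj0).add ((hN.is_b.div hX).gt (by linarith))
        have hσs' : 𝔓.v.Gt (σ (Y / X) - ζ * (Y / X)) 0 := by
          rcases s58l_gt_of_mul_gt hsq with hm | hm
          · have e : σ (Y / X) - ζ * (Y / X) =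
                σ (Y / X - ρ) + (σ ρ - ζ * ρ) - ζ * (Y / X - ρ) := by
              rw [map_sub]; ring
            rw [e]
            have t := hζge.mul_gt hm
            rw [add_zero] at t
            exact ((gt_D hσ hm).add hσρ).sub t
          · have e : σ (Y / X) - ζ * (Y / X) =
                σ (Y / X + ρ) - (σ ρ - ζ * ρ) - ζ * (Y / X + ρ) := by
              rw [map_add]; ring
            rw [e]
            have t := hζge.mul_gt hm
            rw [add_zero] at t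
            exact ((gt_D hσ hm).sub hσρ).sub t
        have e : σ Y / (σ X + c) - ζ * Y / X =
            (σ (Y / X) - ζ * (Y / X)) - σ (Y / X) * (c / (σ X + c)) := by
          have n1 := hσX.1
          have n2 := hX'.1
          have n3 := hX.1
          rw [map_div₀]
          field_simp
          ring
        have hgt : 𝔓.v.Gt (σ Y / (σ X + c) - ζ * Y / X) 0 := by
          rw [e]
          have := hσs.ge.mul_gt hq
          rw [add_zero] at this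
          exact hσs'.sub this
        exact mltpg_sub_mem_E0 hW hN.is_a hN.is_b hN.pos h2 h' hw' hj0 hjh hX' hX hgt
      · -- impossible for a point of odd order
        exfalso
        have hT0 : Point.some X Y hXY ≠ 0 := Point.some_ne_zero hXY
        have hX0 : X ≠ 0 := xc_ne_zero_of_odd_torsion hW hpodd htorQ hT0
        have hge : h ≤ 𝔓.v.ord X := hX.resolve_left hX0
        have := (dlp_lt_of_torsion hW hN.is_a hN.is_b hN.pos h2 hpodd hXY htorQ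
          (QVal.is_ord (v := 𝔓.v) hX0) (by linarith [hN.pos])).1
        linarith
  have htor : 𝔓.p ^ n • (mltpgPhi W e₁ (σ • x) - mltpgPhi W e₁ w) = 0 := by
    rw [← map_sub, ← map_nsmul, nsmul_sub, mltpg_smul_mem_tors σ hx, hw, sub_self, map_zero]
  rw [mem_ker, map_sub]
  rcases hD : mltpgPhi W e₁ (σ • x) - mltpgPhi W e₁ w with _ | ⟨x', y', hxy'⟩
  · exact ⟨1, one_pos, trivial⟩
  · rw [hD] at hE0 htor
    have hlt := mltpg_E0_torsion hW hN.is_a hN.is_b hN.pos h2 hρ hp hpv hxy' hE0 htor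
    exact ⟨-𝔓.v.ord x', by linarith [hlt.2], (inE_some hxy').mpr ⟨hlt.1, by linarith⟩⟩

/-- **the strict form**: the decomposition group acts on `W[p^∞] / T` through a sign -/
theorem strict_sub_mem_ker (hp2 : 𝔓.p ≠ 2) {σ : GQ} (hσ : σ ∈ 𝔓.D) :
    ∃ z : ℤ, (z = 1 ∨ z = -1) ∧ ∀ (n : ℕ) (x : ((s58E W)⁄Qb).Point),
      𝔓.p ^ n • x = 0 → σ • x - z • x ∈ hN.ker hp2 := by
  have hW := hN.isLeg hp2
  obtain ⟨ρ, hρ⟩ := IsAlgClosed.exists_pow_nat_eq (-((e₂ - e₁) + (e₃ - e₁))) two_pos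
  have hprod : 𝔓.v.Gt ((σ ρ - ρ) * (σ ρ + ρ)) 0 := by
    have e : (σ ρ - ρ) * (σ ρ + ρ) =
        σ (-((e₂ - e₁) + (e₃ - e₁))) - -((e₂ - e₁) + (e₃ - e₁)) := by
      rw [← hρ, map_pow]; ring
    rw [e]
    exact hN.gt_a_D hσ
  rcases s58l_gt_of_mul_gt hprod with hm | hm
  · refine ⟨1, Or.inl rfl, fun n x hx => ?_⟩
    rw [one_zsmul]
    refine hN.sub_mem_ker_of_sign hp2 hσ hρ (ζ := 1) (Or.inl rfl) (by rwa [one_mul]) x x hx hx
      (fun h0 => h0) (fun X Y hXY hQ => ⟨by rwa [one_mul], by rw [hQ]; simp only [one_mul]⟩)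
  · refine ⟨-1, Or.inr rfl, fun n x hx => ?_⟩
    rw [neg_one_zsmul]
    have hσρ : 𝔓.v.Gt (σ ρ - -1 * ρ) 0 := by
      have e : σ ρ - -1 * ρ = σ ρ + ρ := by ring
      rwa [e]
    refine hN.sub_mem_ker_of_sign hp2 hσ hρ (ζ := -1) (Or.inr rfl) hσρ x (-x) hx
      (by rw [neg_nsmul, hx, neg_zero]) (fun h0 => by rw [map_neg, h0, neg_zero])
      (fun X Y hXY hQ => ?_)
    obtain ⟨hn', en⟩ := hW.neg_some hXY
    refine ⟨by rwa [neg_one_mul], ?_⟩
    rw [map_neg, hQ, en]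
    simp only [neg_one_mul]

end MltpgNode

/-- **the ordinary filtration at a prime of multiplicative reduction, strict form** -/
theorem mltpg_ordInput_mult_strict (W : WeierstrassCurve ℤ) (hΔ : W.Δ ≠ 0) (𝔓 : FFPlace)
    (hp2 : 𝔓.p ≠ 2) (hpΔ : (𝔓.p : ℤ) ∣ W.Δ) (hc₄ : ¬ (𝔓.p : ℤ) ∣ W.c₄) :
    ∃ T : AddSubgroup ((s58E W)⁄Qb).Point,
      (∀ j : ℕ, Nat.card {x : ((s58E W)⁄Qb).Point // x ∈ T ∧ 𝔓.p ^ j • x = 0} = 𝔓.p ^ j) ∧
      (∀ σ ∈ 𝔓.P.decompositionSubgroup ℚ, ∀ x ∈ T, σ • x ∈ T) ∧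
      (∀ σ ∈ 𝔓.P.inertiaSubgroupIn ℚ, ∀ (n : ℕ) (x : ((s58E W)⁄Qb).Point),
        𝔓.p ^ n • x = 0 → σ • x - x ∈ T) ∧
      (∀ σ ∈ 𝔓.P.decompositionSubgroup ℚ, ∃ z : ℤ, (z = 1 ∨ z = -1) ∧
        ∀ (n : ℕ) (x : ((s58E W)⁄Qb).Point), 𝔓.p ^ n • x = 0 → σ • x - z • x ∈ T) := by
  obtain ⟨e₁, e₂, e₃, hN⟩ := mltpg_exists_node W hΔ 𝔓 hp2 hpΔ hc₄
  have hh : (1 : ℚ) ≤ 2 * ((multiplicity (𝔓.p : ℤ) W.Δ : ℕ) / 2) := by
    have h0 : (0 : ℚ) < (multiplicity (𝔓.p : ℤ) W.Δ : ℕ) := by linarith [hN.pos]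
    have h1 : 0 < multiplicity (𝔓.p : ℤ) W.Δ := by exact_mod_cast h0
    have h2 : (1 : ℚ) ≤ (multiplicity (𝔓.p : ℤ) W.Δ : ℕ) := by exact_mod_cast h1
    linarith
  exact ⟨hN.ker hp2, fun j => hN.card_ker_tors hΔ hp2 hh j,
    fun σ hσ x hx => hN.smul_mem_ker hp2 hσ hx,
    fun σ hσ n x hx => hN.sub_mem_ker hp2 hσ x hx,
    fun σ hσ => hN.strict_sub_mem_ker hp2 hσ⟩

/-- the same for an arbitrary valuation subring over `p` -/
theorem mltpg_ordInput_of_mult_strict (W : WeierstrassCurve ℤ) (hΔ : W.Δ ≠ 0) {p : ℕ}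
    (hp : p.Prime) (hp2 : p ≠ 2) (hpΔ : (p : ℤ) ∣ W.Δ) (hc₄ : ¬ (p : ℤ) ∣ W.c₄) :
    ∀ P : ValuationSubring Qb, P.LiesOverPrime p →
      ∃ T : AddSubgroup ((s58E W)⁄Qb).Point,
        (∀ j : ℕ, Nat.card {x : ((s58E W)⁄Qb).Point // x ∈ T ∧ p ^ j • x = 0} = p ^ j) ∧
        (∀ σ ∈ P.decompositionSubgroup ℚ, ∀ x ∈ T, σ • x ∈ T) ∧
        (∀ σ ∈ P.inertiaSubgroupIn ℚ, ∀ (n : ℕ) (x : ((s58E W)⁄Qb).Point),
          p ^ n • x = 0 → σ • x - x ∈ T) ∧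
        (∀ σ ∈ P.decompositionSubgroup ℚ, ∃ z : ℤ, (z = 1 ∨ z = -1) ∧
          ∀ (n : ℕ) (x : ((s58E W)⁄Qb).Point), p ^ n • x = 0 → σ • x - z • x ∈ T) :=
  fun P hP => mltpg_ordInput_mult_strict W hΔ ⟨P, p, hp, hP⟩ hp2 hpΔ hc₄

end Fermat.Agent.MLT
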