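/-
MLT / at p, Galois side (helper5): **`W[p] ⊗ k` is ordinary at a prime `p` of multiplicative
reduction** (`p` odd) — the literal of helper9's `MltIResOrd p` (`Lib/MLT/L1/C/DefsO.lean`,
origin/helper9), stated with the Prelude's `residualGaloisRepOf` (so that
`mltrRep W p k hΔ = ((s58E W).residualGaloisRepOf p _ _).baseChange k` of lead's `Res/Defs.lean`
matches by proof irrelevance).

The line is `T[p]`, `T` the kernel of reduction (`mltpg_ordInput_of_mult`): stable under the
decomposition group, of order `p`, and inertia acts trivially on `W[p] / T[p]`.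
-/
import Mathlib
import Fermat.Prelude.Def_GaloisRep_LocalConditions
import Fermat.Prelude.Def_GaloisRep_Adic
import Fermat.Prelude.Def_GaloisRep_Residual
import Fermat.Agent.Lib.S58.Match
import Fermat.Agent.Lib.MLT.AtPG.OrdInput

set_option autoImplicit false
set_option linter.unusedSectionVars false
set_option linter.unusedVariables false
set_option linter.style.haveILetI false

open WeierstrassCurve WeierstrassCurve.Affine
open scoped TensorProduct

namespace Fermat.Agent.MLT

open Fermat.Agent.S58 Fermat.Agent.LR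

local notation "Qb" => AlgebraicClosure ℚ
local notation "GQ" => (AlgebraicClosure ℚ ≃ₐ[ℚ] AlgebraicClosure ℚ)

/-- the ordinary line of `W[p]` over `𝔽_p` at a place over a multiplicative odd prime `p` -/
theorem mltpg_resOrd_line (W : WeierstrassCurve ℤ) (hΔ : W.Δ ≠ 0) {p : ℕ} [hpF : Fact p.Prime]
    (hp2 : p ≠ 2) (hpΔ : (p : ℤ) ∣ W.Δ) (hc₄ : ¬ (p : ℤ) ∣ W.c₄)
    (P : ValuationSubring Qb) (hP : P.LiesOverPrime p) :
    ∃ L : Submodule (ZMod p) (S58Tors W p),
      (∃ b : Module.Basis (Fin 2) (ZMod p) (S58Tors W p), L = ZMod p ∙ b 0) ∧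
      (∀ σ ∈ P.decompositionSubgroup ℚ, ∀ v ∈ L, s58Gal W p σ v ∈ L) ∧
      (∀ σ ∈ P.inertiaSubgroupIn ℚ, ∀ v : S58Tors W p, s58Gal W p σ v - v ∈ L) := by
  classical
  have hp : p.Prime := hpF.out
  obtain ⟨T, hTcard, hTD, hTI⟩ := mltpg_ordInput_of_mult W hΔ hp hp2 hpΔ hc₄ P hP
  set ι : S58Tors W p →+ ((s58E W)⁄Qb).Point :=
    (Submodule.subtype (S58Tors W p)).toAddMonoidHom with hι
  obtain ⟨hfree, hfin, hrank⟩ := s58m_free W hΔ hp (pow_one p).symm
  haveI := hfree
  haveI := hfin
  have hV2 : Module.finrank (ZMod p) (S58Tors W p) = 2 := hrank one_ne_zero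
  haveI : Finite (S58Tors W p) := s58d_finite_tors W hΔ hp.pos
  set L : Submodule (ZMod p) (S58Tors W p) := AddSubgroup.toZModSubmodule p (T.comap ι) with hL
  have hmemL : ∀ x : S58Tors W p, x ∈ L ↔ (x : ((s58E W)⁄Qb).Point) ∈ T := fun x => Iff.rfl
  have htor : ∀ x : S58Tors W p, p ^ 1 • (x : ((s58E W)⁄Qb).Point) = 0 := by
    intro x
    have h2 := x.2
    rw [Submodule.mem_torsionBy_iff, natCast_zsmul] at h2
    rw [pow_one]
    exact h2
  -- the cardinality of the line
  have hcardL : Nat.card L = p := by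
    have h1 := hTcard 1
    rw [pow_one] at h1
    refine Eq.trans (Nat.card_congr ?_) h1
    exact
      { toFun := fun x => ⟨(x.1 : ((s58E W)⁄Qb).Point), (hmemL x.1).mp x.2, by
          have := htor x.1; rwa [pow_one] at this⟩
        invFun := fun y => ⟨⟨y.1, by
          rw [Submodule.mem_torsionBy_iff, natCast_zsmul]
          exact y.2.2⟩, y.2.1⟩
        left_inv := fun x => rfl
        right_inv := fun y => rfl }
  have hrankL : Module.finrank (ZMod p) L = 1 := by
    have h := Module.natCard_eq_pow_finrank (K := ZMod p) (V := L)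
    rw [hcardL, Nat.card_zmod] at h
    have h' : p ^ 1 = p ^ Module.finrank (ZMod p) L := by rw [pow_one]; exact h
    exact (Nat.pow_right_injective hp.two_le h').symm
  obtain ⟨v, hv0, hvgen⟩ := finrank_eq_one_iff'.mp hrankL
  -- a vector outside the line
  have hLtop : L ≠ ⊤ := by
    intro htop
    have h1 : Nat.card L = Nat.card (S58Tors W p) := by
      rw [htop]
      exact Nat.card_congr (Submodule.topEquiv (R := ZMod p) (M := S58Tors W p)).toEquiv
    rw [hcardL, s58l_natCard_tors W hΔ hp.pos] at h1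
    have := hp.two_le
    nlinarith
  obtain ⟨w, hw⟩ : ∃ w : S58Tors W p, w ∉ L := by
    by_contra hall
    push Not at hall
    exact hLtop (eq_top_iff.mpr fun x _ => hall x)
  have hv0' : (v : S58Tors W p) ≠ 0 := fun h => hv0 (Subtype.ext h)
  have hli : LinearIndependent (ZMod p) ![(v : S58Tors W p), w] := by
    rw [LinearIndependent.pair_iff]
    intro s t hst
    by_cases ht : t = 0
    · subst ht
      rw [zero_smul, add_zero] at hst
      exact ⟨(smul_eq_zero.mp hst).resolve_right hv0', rfl⟩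
    · exfalso
      apply hw
      have h1 : w = (-(t⁻¹ * s)) • (v : S58Tors W p) := by
        have h2 : t • w = -(s • (v : S58Tors W p)) := by
          rw [eq_neg_iff_add_eq_zero, add_comm]; exact hst
        calc w = t⁻¹ • (t • w) := by rw [smul_smul, inv_mul_cancel₀ ht, one_smul]
          _ = (-(t⁻¹ * s)) • (v : S58Tors W p) := by
            rw [h2, smul_neg, smul_smul, neg_smul]
      rw [h1]
      exact L.smul_mem _ v.2
  have hcard2 : Fintype.card (Fin 2) = Module.finrank (ZMod p) (S58Tors W p) := by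
    rw [hV2]; rfl
  let b : Module.Basis (Fin 2) (ZMod p) (S58Tors W p) :=
    basisOfLinearIndependentOfCardEqFinrank hli hcard2
  have hb0 : b 0 = (v : S58Tors W p) := by
    show (basisOfLinearIndependentOfCardEqFinrank hli hcard2) 0 = _
    rw [coe_basisOfLinearIndependentOfCardEqFinrank]
    rfl
  refine ⟨L, ⟨b, ?_⟩, ?_, ?_⟩
  · rw [hb0]
    apply le_antisymm
    · intro x hx
      obtain ⟨c, hc⟩ := hvgen ⟨x, hx⟩
      rw [Submodule.mem_span_singleton]
      exact ⟨c, congrArg Subtype.val hc⟩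
    · rw [Submodule.span_le, Set.singleton_subset_iff]
      exact v.2
  · intro σ hσ x hx
    exact hTD σ hσ _ hx
  · intro σ hσ x
    exact hTI σ hσ 1 _ (htor x)

/-- base change of the ordinary shape -/
theorem mltpg_ordShape_baseChange {A : Type} [CommRing A] {V : Type} [AddCommGroup V]
    [Module A V] {B : Type} [CommRing B] [Algebra A B] (r : GQ → Module.End A V) (D I : Set GQ)
    (h : ∃ L : Submodule A V, (∃ b : Module.Basis (Fin 2) A V, L = A ∙ b 0) ∧
      (∀ σ ∈ D, ∀ v ∈ L, r σ v ∈ L) ∧ (∀ σ ∈ I, ∀ v : V, r σ v - v ∈ L)) :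
    ∃ L : Submodule B (B ⊗[A] V), (∃ b : Module.Basis (Fin 2) B (B ⊗[A] V), L = B ∙ b 0) ∧
      (∀ σ ∈ D, ∀ v ∈ L, (r σ).baseChange B v ∈ L) ∧
      (∀ σ ∈ I, ∀ v : B ⊗[A] V, (r σ).baseChange B v - v ∈ L) := by
  obtain ⟨L, ⟨b, hb⟩, hD, hI⟩ := h
  have hmem : ∀ (c : B) (v : V), v ∈ L → c ⊗ₜ[A] v ∈ B ∙ ((1 : B) ⊗ₜ[A] b 0) := by
    intro c v hv
    rw [hb, Submodule.mem_span_singleton] at hv
    obtain ⟨a, rfl⟩ := hv
    rw [Submodule.mem_span_singleton]
    refine ⟨c * algebraMap A B a, ?_⟩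
    rw [TensorProduct.smul_tmul', smul_eq_mul, mul_one, ← TensorProduct.smul_tmul,
      Algebra.smul_def, mul_comm]
  refine ⟨B ∙ ((1 : B) ⊗ₜ[A] b 0), ⟨b.baseChange B, ?_⟩, ?_, ?_⟩
  · rw [Module.Basis.baseChange_apply]
  · intro σ hσ w hw
    rw [Submodule.mem_span_singleton] at hw
    obtain ⟨c, rfl⟩ := hw
    rw [map_smul, LinearMap.baseChange_tmul]
    refine Submodule.smul_mem _ c (hmem 1 _ (hD σ hσ _ ?_))
    rw [hb]
    exact Submodule.mem_span_singleton_self _
  · intro σ hσ w
    induction w using TensorProduct.induction_on with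
    | zero =>
      have h0 : (r σ).baseChange B (0 : B ⊗[A] V) - 0 = 0 := by
        rw [LinearMap.map_zero, sub_zero]
      rw [h0]
      exact Submodule.zero_mem _
    | tmul c v =>
      rw [LinearMap.baseChange_tmul, ← TensorProduct.tmul_sub]
      exact hmem c _ (hI σ hσ v)
    | add x y hx hy =>
      have h0 : (r σ).baseChange B (x + y) - (x + y)
          = ((r σ).baseChange B x - x) + ((r σ).baseChange B y - y) := by
        rw [LinearMap.map_add, add_sub_add_comm]
      rw [h0]
      exact Submodule.add_mem _ hx hy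

/-- **`W[p] ⊗ k` is ordinary at the odd prime `p` of multiplicative reduction** -/
theorem mltpg_resOrd (W : WeierstrassCurve ℤ) (hΔ : W.Δ ≠ 0) {p : ℕ} [hpF : Fact p.Prime]
    (hp2 : p ≠ 2) (hss : W.IsSemistableModel) (hpΔ : (p : ℤ) ∣ W.Δ)
    (hcard : Nat.card (S58Tors W p) = p ^ 2)
    (hker : GaloisFactorsThroughFiniteLevel (s58Gal W p))
    (k : Type) [Field k] [Algebra (ZMod p) k] :
    (GaloisRepAdic.ofResidualGaloisRep
      (((s58E W).residualGaloisRepOf p hcard hker).baseChange k)).IsOrdinaryAt p := by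
  intro P hP
  have hc₄ : ¬ (p : ℤ) ∣ W.c₄ := hss p hpF.out hpΔ
  exact mltpg_ordShape_baseChange (B := k) (fun σ => s58Gal W p σ) _ _
    (mltpg_resOrd_line W hΔ hp2 hpΔ hc₄ P hP)

end Fermat.Agent.MLT
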