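/-
MLT / at p, Galois side (helper5): **the node-parameter input for "très ramifié"** (case C:
`W` multiplicative at `p` odd, `p ∤ ord_p Δ`).

`MltpgTresInput W 𝔓` : a basis-like pair `v₀ ∈ T[p]` (kernel of reduction), `w ∈ W[p] ∖ T[p]` with
the upper-triangular shape of the decomposition group (`z = ± 1` on the quotient), the cocycle
`a : I → 𝔽_p` (`ι w = w + a(ι) v₀`), and an element `s ∈ ℚ̄` (`s = x(w) - e₁`, the abscissa of `w`
relative to the node) with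

* `ord s = n / p`, `p ∤ n`;
* for every `ι` in the inertia group fixing `ζ_p`: `ι s = s` if `a(ι) = 0`, and
  `ord (ι s / s - 1) ≥ 1 / (p - 1)` in general.

Ingredients: `mltpg_ratio_add` (`X(P + R) / X(P) - 1` has order `- ord x(R) / 2` for `R ∈ E₁`,
from the line through `P, R`), `MltpgNode.depth_ker` (`- ord x(R) / 2 ≥ 1 / (p - 1)` for
`0 ≠ R ∈ E₁[p]`: the product of `x / y` over the inertia orbit of `R` is inertia-invariant, hence of
integral order, and the orbit has at most `p - 1` elements).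
-/
import Mathlib
import Fermat.Prelude.Def_WeierstrassCurve_PeuRamifiee
import Fermat.Agent.Lib.TW.LF.Unr
import Fermat.Agent.Lib.MLT.AtPG.OrdStrict

set_option autoImplicit false
set_option linter.unusedSectionVars false
set_option linter.unusedVariables false
set_option linter.style.haveILetI false

open WeierstrassCurve WeierstrassCurve.Affine

namespace Fermat.Agent.MLT

open Fermat.Agent.S05Lib Fermat.Agent.S13Lib Fermat.Agent.TW Fermat.Agent.Delta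
  Fermat.Agent.S58 Fermat.Agent.LR Fermat.Agent.X015

local notation "Qb" => AlgebraicClosure ℚ
local notation "GQ" => (AlgebraicClosure ℚ ≃ₐ[ℚ] AlgebraicClosure ℚ)

section Abs

variable {K : Type*} [Field K] [DecidableEq K] {v : QVal K} {W : WeierstrassCurve K} {a b : K}
  {h : ℚ}

/-- the ordinate of a point of the kernel of reduction -/
theorem mltpg_is_y_of_lt' (hW : IsLeg W a b) (ha : v.Ge a 0) (hb : v.Ge b 0) {x y : K}
    (hxy : W.toAffine.Nonsingular x y) (hx : v.Lt x 0) : v.Is y (3 * v.ord x / 2) := by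
  have q := hW.eq_of_nonsingular hxy
  have hxi := hx.is
  set ξ := v.ord x with hξ
  have hξ0 : ξ < 0 := hx.2
  have h3 : v.Is (x ^ 3) (3 * ξ) := by
    have := hxi.pow 3
    push_cast at this
    exact this
  have h2 : v.Gt (a * x ^ 2) (3 * ξ) := (ha.mul hxi.sq.ge).gt (by linarith)
  have h1 : v.Gt (b * x) (3 * ξ) := (hb.mul hxi.ge).gt (by linarith)
  have hy2 : v.Is (y ^ 2) (3 * ξ) := by
    rw [q]
    exact (h3.add_gt h2).add_gt h1
  have hy0 : y ≠ 0 := fun h0 => hy2.1 (by rw [h0]; ring)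
  refine ⟨hy0, ?_⟩
  have := hy2.2
  rw [v.ord_pow hy0] at this
  push_cast at this
  linarith

variable (hW : IsLeg W a b) (ha : v.Is a 0) (hb : v.Is b h) (hh : 0 < h) (h2 : v.Is (2 : K) 0)
include hW ha hb hh h2

/-- **translation by a point of the kernel of reduction**: for `P = (X, Y)` with
`0 < ord X < ord b` and `R = (x, y)` with `ord x < 0`, the abscissa `X₃` of `P + R` satisfies
`ord (X₃ / X - 1) = - ord x / 2` -/
theorem mltpg_ratio_add {X Y x y : K} (hXY : W.toAffine.Nonsingular X Y)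
    (hxy : W.toAffine.Nonsingular x y) {j : ℚ} (hj0 : 0 < j) (hjh : j < h) (hX : v.Is X j)
    (hx : v.Lt x 0) :
    ∃ (X₃ Y₃ : K) (h₃ : W.toAffine.Nonsingular X₃ Y₃),
      Point.some X Y hXY + Point.some x y hxy = Point.some X₃ Y₃ h₃ ∧
        v.Is (X₃ / X - 1) (-(v.ord x) / 2) := by
  have hne : ¬(X = x ∧ Y = W.toAffine.negY x y) := by
    rintro ⟨e, _⟩
    rw [e] at hX
    have := hx.2
    rw [hX.2] at this
    linarith
  obtain ⟨ℓ, ν, X₃, y₃, h₃, hsum, e1, e2, e3, s1, s2, s3⟩ := mltpg_line hW hXY hxy hne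
  have hfP : fP v h (Point.some X₃ (-y₃) h₃) = j := by
    rw [← hsum]
    have pl := pairLaw_points hW ha hb hh h2 (Point.some X Y hXY) (Point.some x y hxy)
    unfold PairLaw at pl
    rw [fP_some, fP_some, fx_of_is hX hj0.le hjh.le, fx_of_le hh.le hx.le] at pl
    have ho : oplus h j 0 = j := by
      unfold oplus
      rw [add_zero, if_pos hjh.le]
    have ha' : |j - 0| = j := by rw [sub_zero, abs_of_pos hj0]
    rcases pl with ⟨p1, _⟩ | ⟨p1, _⟩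
    · rw [p1, ho]
    · rw [p1, ha']
  have hX₃ : v.Is X₃ j := mltpg_is_of_fx hj0 hjh (by rw [← hfP, fP_some])
  refine ⟨X₃, -y₃, h₃, hsum, ?_⟩
  set ξ := v.ord x with hξ
  have hξ0 : ξ < 0 := hx.2
  have hν2 : v.Is (ν ^ 2) (j + ξ + j) := by
    rw [← s3]
    exact (hX.mul hx.is).mul hX₃
  have hν0 : ν ≠ 0 := fun h0 => hν2.1 (by rw [h0]; ring)
  have hνi : v.Is ν (j + ξ / 2) := by
    refine ⟨hν0, ?_⟩
    have := hν2.2
    rw [v.ord_pow hν0] at this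
    push_cast at this
    linarith
  have hu : v.Is (ν / X) (ξ / 2) := (hνi.div hX).congr (by ring)
  have hu' : v.Is (ν / X₃) (ξ / 2) := (hνi.div hX₃).congr (by ring)
  have hX0 := hX.1
  have hX₃0 := hX₃.1
  have key : ν / X * (ν / X₃ + ν / X + 2 * ℓ) = b / X - X₃ := by
    have e4 : ν / X * (ν / X₃ + ν / X + 2 * ℓ) =
        (ν ^ 2 * X + ν ^ 2 * X₃ + 2 * ℓ * ν * X * X₃) / (X ^ 2 * X₃) := by
      field_simp
    rw [e4, div_sub' hX0, div_eq_div_iff (mul_ne_zero (pow_ne_zero 2 hX0) hX₃0) hX0]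
    have e5 : 2 * ℓ * ν = b - (X * x + X * X₃ + x * X₃) := by rw [s2]; ring
    calc (ν ^ 2 * X + ν ^ 2 * X₃ + 2 * ℓ * ν * X * X₃) * X
        = (ν ^ 2 * X + ν ^ 2 * X₃ + (2 * ℓ * ν) * X * X₃) * X := by ring
      _ = (X * x * X₃ * X + X * x * X₃ * X₃ + (b - (X * x + X * X₃ + x * X₃)) * X * X₃) * X := by
          rw [e5, ← s3]
      _ = (b - X * X₃) * (X ^ 2 * X₃) := by ring
  have hrhs : v.Gt (b / X - X₃) 0 := by
    have t1 : v.Gt (b / X) 0 := (hb.div hX).gt (by linarith)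
    exact t1.sub (hX₃.gt hj0)
  have hε : v.Gt (ν / X₃ + ν / X + 2 * ℓ) 0 := by
    have e6 : ν / X₃ + ν / X + 2 * ℓ = (b / X - X₃) / (ν / X) :=
      eq_div_of_mul_eq hu.1 (by rw [mul_comm]; exact key)
    rw [e6]
    exact (hrhs.div_is hu).mono (by linarith)
  have hs0 : v.Is (Y / X) 0 := mltpg_slope_is hW ha hb hXY hj0 hjh hX
  have hYX : Y / X = ℓ + ν / X := by
    rw [e1]
    field_simp
  have hdiff : v.Is (ν / X - ν / X₃) 0 := by
    have e : ν / X - ν / X₃ = 2 * (Y / X) - (ν / X₃ + ν / X + 2 * ℓ) := by rw [hYX]; ring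
    rw [e]
    exact ((h2.mul hs0).congr (add_zero 0)).sub_gt hε
  have e8 : X₃ / X - 1 = (ν / X - ν / X₃) / (ν / X₃) := by
    field_simp
  rw [e8]
  exact (hdiff.div hu').congr (by ring)

end Abs

/-- the parameter `x / y` at the origin, in the coordinates of the Weierstrass model -/
noncomputable def mltpgZW (W : WeierstrassCurve ℤ) : ((s58E W)⁄Qb).Point → Qb
  | .zero => 0
  | .some x y _ => x / y

theorem mltpgZW_smul (W : WeierstrassCurve ℤ) (σ : GQ) (P : ((s58E W)⁄Qb).Point) :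
    mltpgZW W (σ • P) = σ (mltpgZW W P) := by
  rcases P with _ | ⟨x, y, h⟩
  · show (0 : Qb) = σ 0
    rw [map_zero]
  · show σ x / σ y = σ (x / y)
    rw [map_div₀]

namespace MltpgNode

variable {W : WeierstrassCurve ℤ} {𝔓 : FFPlace} {e₁ e₂ e₃ : Qb} {h : ℚ}
  (hN : MltpgNode W 𝔓 e₁ e₂ e₃ h)
include hN

/-- the parameter `x / y` of an affine point of the kernel of reduction -/
theorem is_ZW (hp2 : 𝔓.p ≠ 2) {x y : Qb} (hxy : ((s58E W)⁄Qb).Nonsingular x y)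
    (hmem : (Point.some x y hxy : ((s58E W)⁄Qb).Point) ∈ hN.ker hp2) :
    ∃ (X Y : Qb) (hXY : (mltpgLeg W e₁).toAffine.Nonsingular X Y),
      mltpgPhi W e₁ (Point.some x y hxy) = Point.some X Y hXY ∧ 𝔓.v.Lt X 0 ∧
        𝔓.v.Is (x / y) (-(𝔓.v.ord X) / 2) := by
  have hv := dlp_qvalFor 𝔓
  have h2 := hv.is_two 𝔓.hp hp2
  have hW := hN.isLeg hp2
  have ha₁ : 𝔓.v.Ge ((s58E W)⁄Qb).a₁ 0 := by
    rw [s58l_curve_eq, WeierstrassCurve.map_a₁, eq_intCast]; exact hv.ge_int _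
  have ha₃ : 𝔓.v.Ge ((s58E W)⁄Qb).a₃ 0 := by
    rw [s58l_curve_eq, WeierstrassCurve.map_a₃, eq_intCast]; exact hv.ge_int _
  obtain ⟨h1, e1⟩ := mltpg_phi_some W e₁ hxy
  rw [mem_ker, e1] at hmem
  obtain ⟨τ, hτ, i⟩ := hmem
  have hle : 𝔓.v.Le (x - e₁) (-τ) := i
  have hlt : 𝔓.v.Lt (x - e₁) 0 := ⟨hle.1, by linarith [hle.2]⟩
  refine ⟨_, _, h1, e1, hlt, ?_⟩
  set X := x - e₁ with hX
  set ξ := 𝔓.v.ord X with hξ
  have hξ0 : ξ < 0 := hlt.2
  set YL := y + ((s58E W)⁄Qb).a₁ / 2 * X + (((s58E W)⁄Qb).a₃ + e₁ * ((s58E W)⁄Qb).a₁) / 2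
    with hYL
  have hYLi : 𝔓.v.Is YL (3 * ξ / 2) :=
    mltpg_is_y_of_lt' hW hN.is_a.ge (hN.is_b.ge' hN.pos.le) h1 hlt
  have hxi : 𝔓.v.Is x ξ := by
    have := hlt.is.add_gt (hN.ge₁.gt hξ0)
    rwa [hX, sub_add_cancel] at this
  have hyi : 𝔓.v.Is y (3 * ξ / 2) := by
    have t1 : 𝔓.v.Gt (((s58E W)⁄Qb).a₁ / 2 * X) (3 * ξ / 2) := by
      have g1 : 𝔓.v.Ge (((s58E W)⁄Qb).a₁ / 2) (0 - 0) := ha₁.div_is h2
      have := g1.mul hlt.is.ge
      exact this.gt (by linarith)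
    have t2 : 𝔓.v.Gt ((((s58E W)⁄Qb).a₃ + e₁ * ((s58E W)⁄Qb).a₁) / 2) (3 * ξ / 2) := by
      have g0 : 𝔓.v.Ge (e₁ * ((s58E W)⁄Qb).a₁) 0 := by
        have := hN.ge₁.mul ha₁
        rwa [add_zero] at this
      have g1 : 𝔓.v.Ge ((((s58E W)⁄Qb).a₃ + e₁ * ((s58E W)⁄Qb).a₁) / 2) (0 - 0) :=
        (ha₃.add g0).div_is h2
      exact g1.gt (by linarith)
    have e : y = YL - ((s58E W)⁄Qb).a₁ / 2 * X -
        (((s58E W)⁄Qb).a₃ + e₁ * ((s58E W)⁄Qb).a₁) / 2 := by rw [hYL]; ring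
    rw [e]
    exact (hYLi.sub_gt t1).sub_gt t2
  exact (hxi.div hyi).congr (by ring)

/-- **the depth of the nonzero `p`-torsion points of the kernel of reduction** is at least
`1 / (p - 1)` -/
theorem depth_ker (hΔ : W.Δ ≠ 0) (hp2 : 𝔓.p ≠ 2) (hh : 1 ≤ 2 * h)
    {x₀ : ((s58E W)⁄Qb).Point} (hx₀ : x₀ ∈ hN.ker hp2) (hx₀p : 𝔓.p • x₀ = 0) (hx₀0 : x₀ ≠ 0) :
    ∃ (X Y : Qb) (hXY : (mltpgLeg W e₁).toAffine.Nonsingular X Y),
      mltpgPhi W e₁ x₀ = Point.some X Y hXY ∧ 𝔓.v.Lt X 0 ∧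
        1 / ((𝔓.p : ℚ) - 1) ≤ -(𝔓.v.ord X) / 2 := by
  classical
  have hv := dlp_qvalFor 𝔓
  have hp := 𝔓.hp
  set S : Set ((s58E W)⁄Qb).Point := {x | x ∈ hN.ker hp2 ∧ 𝔓.p ^ 1 • x = 0} with hS
  have hc1 : Nat.card ↥S = 𝔓.p ^ 1 := hN.card_ker_tors hΔ hp2 hh 1
  haveI : Finite ↥S := Nat.finite_of_card_ne_zero (by rw [hc1]; exact pow_ne_zero _ hp.ne_zero)
  have hSfin : S.Finite := Set.toFinite S
  set F := hSfin.toFinset with hF
  have hFmem : ∀ x, x ∈ F ↔ x ∈ hN.ker hp2 ∧ 𝔓.p • x = 0 := by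
    intro x
    rw [hF, Set.Finite.mem_toFinset, hS, Set.mem_ofPred_eq, pow_one]
  have hFcard : F.card = 𝔓.p := by
    rw [hF, ← Set.ncard_eq_toFinset_card S hSfin, ← Nat.card_coe_set_eq, hc1, pow_one]
  -- the orbit
  set O := (F.erase 0).filter (fun T => ∃ ι ∈ 𝔓.I, ι • x₀ = T) with hO
  have hOmem : ∀ T, T ∈ O ↔ (T ≠ 0 ∧ T ∈ hN.ker hp2 ∧ 𝔓.p • T = 0) ∧ ∃ ι ∈ 𝔓.I, ι • x₀ = T := by
    intro T
    rw [hO, Finset.mem_filter, Finset.mem_erase, hFmem]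
  have hx₀O : x₀ ∈ O := (hOmem x₀).mpr ⟨⟨hx₀0, hx₀, hx₀p⟩, 1, one_mem _, one_smul _ _⟩
  have hOcard : (O.card : ℚ) ≤ (𝔓.p : ℚ) - 1 := by
    have h0F : (0 : ((s58E W)⁄Qb).Point) ∈ F := (hFmem 0).mpr ⟨zero_mem _, nsmul_zero _⟩
    have h1 : O.card ≤ (F.erase 0).card := Finset.card_le_card (Finset.filter_subset _ _)
    rw [Finset.card_erase_of_mem h0F, hFcard] at h1
    have h2 : (O.card : ℚ) ≤ ((𝔓.p - 1 : ℕ) : ℚ) := by exact_mod_cast h1
    rw [Nat.cast_sub hp.pos] at h2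
    simpa using h2
  have hstab : ∀ T ∈ O, ∀ ι ∈ 𝔓.I, ι • T ∈ O := by
    intro T hT ι hι
    obtain ⟨⟨hT0, hTk, hTp⟩, τ, hτ, hτT⟩ := (hOmem T).mp hT
    refine (hOmem _).mpr ⟨⟨?_, ?_, mltpg_smul_mem_tors ι hTp⟩, ι * τ, mul_mem hι hτ, ?_⟩
    · intro h0
      apply hT0
      have : ι⁻¹ • ι • T = T := inv_smul_smul ι T
      have e0 : ι⁻¹ • (0 : ((s58E W)⁄Qb).Point) = 0 := rfl
      rw [h0, e0] at this
      exact this.symm
    · exact hN.smul_mem_ker hp2 (𝔓.I_le_D hι) hTk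
    · rw [mul_smul, hτT]
  -- the order of the parameter along the orbit
  have hZ : ∀ T ∈ O, 𝔓.v.Is (mltpgZW W T) (𝔓.v.ord (mltpgZW W x₀)) ∧ mltpgZW W T ≠ 0 := by
    intro T hT
    obtain ⟨⟨hT0, hTk, hTp⟩, τ, hτ, hτT⟩ := (hOmem T).mp hT
    rcases T with _ | ⟨x, y, hxy⟩
    · exact absurd rfl hT0
    · obtain ⟨X, Y, hXY, -, hlt, hz⟩ := hN.is_ZW hp2 hxy hTk
      have hz0 : mltpgZW W (Point.some x y hxy) ≠ 0 := hz.1
      refine ⟨⟨hz0, ?_⟩, hz0⟩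
      rw [← hτT, mltpgZW_smul, hv.ord_inertia τ hτ]
  set g : Qb := ∏ T ∈ O, mltpgZW W T with hgdef
  have hgfix : ∀ ι ∈ 𝔓.I, ι g = g := by
    intro ι hι
    rw [hgdef, map_prod]
    have h1 : ∏ T ∈ O, ι (mltpgZW W T) = ∏ T ∈ O, mltpgZW W (ι • T) :=
      Finset.prod_congr rfl fun T _ => (mltpgZW_smul W ι T).symm
    rw [h1]
    exact Finset.prod_nbij' (fun T => ι • T) (fun T => ι⁻¹ • T)
      (fun T hT => hstab T hT ι hι) (fun T hT => hstab T hT ι⁻¹ (inv_mem hι))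
      (fun T _ => inv_smul_smul ι T) (fun T _ => smul_inv_smul ι T) (fun T _ => rfl)
  have hg0 : g ≠ 0 := Finset.prod_ne_zero_iff.mpr fun T hT => (hZ T hT).2
  have hord : 𝔓.v.ord g = O.card * 𝔓.v.ord (mltpgZW W x₀) := by
    rw [hgdef, dlp_ord_prod _ _ (fun T hT => (hZ T hT).2),
      Finset.sum_congr rfl (fun T hT => (hZ T hT).1.2), Finset.sum_const, nsmul_eq_mul]
  obtain ⟨n, hn⟩ := 𝔓.lf_unr g ((𝔓.mem_K0_iff g).mpr hgfix) hg0
  -- the coordinates of `x₀`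
  rcases x₀ with _ | ⟨x, y, hxy⟩
  · exact absurd rfl hx₀0
  obtain ⟨X, Y, hXY, e1, hlt, hz⟩ := hN.is_ZW hp2 hxy hx₀
  refine ⟨X, Y, hXY, e1, hlt, ?_⟩
  have hτ : 𝔓.v.ord (mltpgZW W (Point.some x y hxy)) = -(𝔓.v.ord X) / 2 := hz.2
  rw [hτ] at hord
  set τ := -(𝔓.v.ord X) / 2 with hτdef
  have hτpos : 0 < τ := by rw [hτdef]; linarith [hlt.2]
  have hcardpos : (0 : ℚ) < O.card := by
    have : 0 < O.card := Finset.card_pos.mpr ⟨_, hx₀O⟩
    exact_mod_cast this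
  have hn1 : (1 : ℚ) ≤ n := by
    have h0 : (0 : ℚ) < n := by rw [← hn, hord]; positivity
    have : 0 < n := by exact_mod_cast h0
    exact_mod_cast this
  have h1 : (1 : ℚ) ≤ O.card * τ := by rw [← hord, hn]; exact hn1
  have hp1 : (0 : ℚ) < (𝔓.p : ℚ) - 1 := by
    have : (2 : ℚ) ≤ 𝔓.p := by exact_mod_cast hp.two_le
    linarith
  rw [div_le_iff₀ hp1]
  nlinarith

end MltpgNode

/-- **the node-parameter input for "très ramifié"** -/
def MltpgTresInput (W : WeierstrassCurve ℤ) (𝔓 : FFPlace) : Prop :=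
  ∃ (v₀ w : S58Tors W 𝔓.p) (a : GQ → ZMod 𝔓.p) (s : Qb),
    v₀ ≠ 0 ∧ (∀ c : ZMod 𝔓.p, w ≠ c • v₀) ∧
    (∀ σ ∈ 𝔓.P.decompositionSubgroup ℚ, ∃ x z c : ZMod 𝔓.p,
      z * z = 1 ∧ σ • v₀ = x • v₀ ∧ σ • w = z • w + c • v₀) ∧
    (∀ ι ∈ 𝔓.P.inertiaSubgroupIn ℚ, ι • w = w + a ι • v₀) ∧
    s ≠ 0 ∧ (∃ n : ℤ, 𝔓.v.ord s = (n : ℚ) / 𝔓.p ∧ ¬ (𝔓.p : ℤ) ∣ n) ∧
    ∀ ι ∈ 𝔓.P.inertiaSubgroupIn ℚ, ∀ ζ : Qb, IsPrimitiveRoot ζ 𝔓.p → ι ζ = ζ →
      (a ι = 0 → ι s = s) ∧ 𝔓.v.Ge (ι s / s - 1) (1 / ((𝔓.p : ℚ) - 1))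


section Main

variable (W : WeierstrassCurve ℤ)

set_option maxHeartbeats 1600000 in
/-- **the node-parameter input for "très ramifié"**: `W` multiplicative at `p` odd with
`p ∤ ord_p Δ` -/
theorem mltpg_tresInput (hΔ : W.Δ ≠ 0) (𝔓 : FFPlace) (hp2 : 𝔓.p ≠ 2)
    (hpΔ : (𝔓.p : ℤ) ∣ W.Δ) (hc₄ : ¬ (𝔓.p : ℤ) ∣ W.c₄)
    (hnot : ¬ (s58E W).IsPeuRamifieeAt 𝔓.p 𝔓.p) : MltpgTresInput W 𝔓 := by
  classical
  have hp := 𝔓.hp
  have hv := dlp_qvalFor 𝔓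
  have h2 := hv.is_two hp hp2
  have hpodd : Odd 𝔓.p := hp.odd_of_ne_two hp2
  haveI : Fact 𝔓.p.Prime := ⟨hp⟩
  have hpv : 𝔓.v.Gt ((𝔓.p : ℕ) : Qb) 0 := 𝔓.is_p.gt one_pos
  have hppos : (0 : ℚ) < 𝔓.p := by exact_mod_cast hp.pos
  obtain ⟨e₁, e₂, e₃, hN⟩ := mltpg_exists_node W hΔ 𝔓 hp2 hpΔ hc₄
  set m : ℕ := multiplicity (𝔓.p : ℤ) W.Δ with hm
  have hW := hN.isLeg hp2
  have hpm : ¬ (𝔓.p : ℤ) ∣ (m : ℤ) := by
    intro hdvd
    apply hnot
    show (𝔓.p : ℤ) ∣ padicValRat 𝔓.p (s58E W).Δ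
    have e : (s58E W).Δ = ((W.Δ : ℤ) : ℚ) := by rw [WeierstrassCurve.map_Δ, eq_intCast]
    rw [e, padicValRat.of_int_multiplicity hp.ne_one hΔ]
    exact hdvd
  have hmpos : (0 : ℚ) < m := by linarith [hN.pos]
  have hh : (1 : ℚ) ≤ 2 * ((m : ℚ) / 2) := by
    have h1 : 0 < m := by exact_mod_cast hmpos
    have h2 : (1 : ℚ) ≤ m := by exact_mod_cast h1
    linarith
  obtain ⟨ρ, hρ⟩ := IsAlgClosed.exists_pow_nat_eq (-((e₂ - e₁) + (e₃ - e₁))) two_pos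
  -- the subgroup `T[p]` of `W[p]`
  set ι₀ : S58Tors W 𝔓.p →+ ((s58E W)⁄Qb).Point :=
    (Submodule.subtype (S58Tors W 𝔓.p)).toAddMonoidHom with hι₀
  set Tp : AddSubgroup (S58Tors W 𝔓.p) := (hN.ker hp2).comap ι₀ with hTp
  have htors : ∀ x : S58Tors W 𝔓.p, 𝔓.p • x.1 = 0 := fun x => by
    have := x.2
    rwa [Submodule.mem_torsionBy_iff, natCast_zsmul] at this
  have hTpcard : Nat.card Tp = 𝔓.p := by
    have hc1 := hN.card_ker_tors hΔ hp2 hh 1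
    rw [pow_one] at hc1
    refine Eq.trans ?_ hc1
    exact Nat.card_congr
      ⟨fun x => ⟨x.1.1, x.2, htors x.1⟩,
        fun x => ⟨⟨x.1, by rw [Submodule.mem_torsionBy_iff, natCast_zsmul]; exact x.2.2⟩, x.2.1⟩,
        fun x => rfl, fun x => rfl⟩
  haveI : Finite Tp := Nat.finite_of_card_ne_zero (by rw [hTpcard]; exact hp.ne_zero)
  haveI : Nontrivial Tp :=
    Finite.one_lt_card_iff_nontrivial.mp (by rw [hTpcard]; exact hp.one_lt)
  obtain ⟨v₀', hv₀'⟩ := exists_ne (0 : Tp)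
  set v₀ : S58Tors W 𝔓.p := v₀'.1 with hv₀def
  have hv₀T : v₀ ∈ Tp := v₀'.2
  have hv₀0 : v₀ ≠ 0 := fun h0 => hv₀' (Subtype.ext h0)
  -- `T[p] = 𝔽_p v₀`
  have hspan : ∀ x ∈ Tp, ∃ c : ZMod 𝔓.p, x = c • v₀ := by
    have hinj : Function.Injective
        (fun c : ZMod 𝔓.p => (⟨c • v₀, ZMod.smul_mem hv₀T c⟩ : Tp)) := by
      intro c c' hcc
      have h1 : c • v₀ = c' • v₀ := congrArg Subtype.val hcc
      have h2 : (c - c') • v₀ = 0 := by rw [sub_smul, h1, sub_self]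
      rcases smul_eq_zero.mp h2 with h3 | h3
      · exact sub_eq_zero.mp h3
      · exact absurd h3 hv₀0
    have hbij := hinj.bijective_of_nat_card_le (by rw [hTpcard, Nat.card_zmod])
    intro x hx
    obtain ⟨c, hc⟩ := hbij.2 ⟨x, hx⟩
    exact ⟨c, (congrArg Subtype.val hc).symm⟩
  -- a point outside `T[p]`
  obtain ⟨w, hwT⟩ : ∃ w : S58Tors W 𝔓.p, w ∉ Tp := by
    by_contra hcon
    push Not at hcon
    have htop : Tp = ⊤ := by
      ext x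
      exact ⟨fun _ => trivial, fun _ => hcon x⟩
    have h1 : Nat.card Tp = Nat.card (S58Tors W 𝔓.p) := by rw [htop]; exact AddSubgroup.card_top
    rw [hTpcard, s58l_natCard_tors W hΔ hp.pos] at h1
    have := hp.two_le
    nlinarith
  have hw0 : w ≠ 0 := fun h0 => hwT (by rw [h0]; exact zero_mem _)
  -- the cocycle
  set a : GQ → ZMod 𝔓.p := fun ι =>
    if hc : ∃ c : ZMod 𝔓.p, ι • w - w = c • v₀ then hc.choose else 0 with ha
  have haI : ∀ ι ∈ 𝔓.P.inertiaSubgroupIn ℚ, ι • w = w + a ι • v₀ := by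
    intro ι hι
    have hmem : ι • w - w ∈ Tp := by
      show ι • w.1 - w.1 ∈ hN.ker hp2
      exact hN.sub_mem_ker hp2 hι (n := 1) w.1 (by rw [pow_one]; exact htors w)
    have hex := hspan _ hmem
    have : ι • w - w = a ι • v₀ := by
      rw [ha]
      simp only [dif_pos hex]
      exact hex.choose_spec
    rw [← this]
    abel
  -- the abscissa of `w`
  rcases hQ : mltpgPhi W e₁ w.1 with _ | ⟨X, Y, hXY⟩
  · exfalso
    have e0 : (Point.zero : (mltpgLeg W e₁).toAffine.Point) = 0 := rfl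
    rw [e0] at hQ
    exact hw0 (Subtype.ext ((mltpgPhi W e₁).map_eq_zero_iff.mp hQ))
  have htorQ : 𝔓.p • Point.some X Y hXY = 0 := by
    rw [← hQ, ← map_nsmul, htors w, map_zero]
  have hT0 : Point.some X Y hXY ≠ 0 := Point.some_ne_zero hXY
  have hX0 : X ≠ 0 := xc_ne_zero_of_odd_torsion hW hpodd htorQ hT0
  -- `0 < ord X < h`
  obtain ⟨j, hj0, hjh, hX⟩ : ∃ j : ℚ, 0 < j ∧ j < (m : ℚ) / 2 ∧ 𝔓.v.Is X j := by
    rcases fx_cases 𝔓.v ((m : ℚ) / 2) X with hX | ⟨j, hj0, hjh, hX⟩ | hX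
    · exfalso
      apply hwT
      show w.1 ∈ hN.ker hp2
      rw [MltpgNode.mem_ker, hQ]
      have hE0 : fP 𝔓.v ((m : ℚ) / 2) (Point.some X Y hXY) = 0 :=
        (mltpg_fP_eq_zero_iff hN.pos hXY).mpr hX
      have hlt := mltpg_E0_torsion hW hN.is_a hN.is_b hN.pos h2 hρ hp hpv hXY hE0 (k := 1)
        (by rw [pow_one]; exact htorQ)
      exact ⟨-𝔓.v.ord X, by linarith [hlt.2], (inE_some hXY).mpr ⟨hlt.1, by linarith⟩⟩
    · exact ⟨j, hj0, hjh, hX⟩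
    · exfalso
      have hge : (m : ℚ) / 2 ≤ 𝔓.v.ord X := hX.resolve_left hX0
      have := (dlp_lt_of_torsion hW hN.is_a hN.is_b hN.pos h2 hpodd hXY htorQ
        (QVal.is_ord (v := 𝔓.v) hX0) (by linarith [hN.pos])).1
      linarith
  -- `ord X = n / p`
  obtain ⟨k, hk⟩ := nsmul_fP_mem hW hN.is_a hN.is_b hN.pos h2 (Point.some X Y hXY) htorQ
  rw [fP_some, fx_of_is hX hj0.le hjh.le] at hk
  have hjk : (𝔓.p : ℚ) * j = (m : ℚ) * k := by rw [hk]; ring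
  have hkpos : 0 < k := by
    by_contra hcon
    push Not at hcon
    have : (k : ℚ) ≤ 0 := by exact_mod_cast hcon
    nlinarith
  have hklt : 2 * k < 𝔓.p := by
    have h1 : (𝔓.p : ℚ) * j < (𝔓.p : ℚ) * ((m : ℚ) / 2) := by nlinarith
    rw [hjk] at h1
    have h3 : (2 : ℚ) * k < 𝔓.p := by nlinarith
    exact_mod_cast h3
  have hpk : ¬ (𝔓.p : ℤ) ∣ k := by
    intro hdvd
    have := Int.le_of_dvd hkpos hdvd
    linarith
  have hpn : ¬ (𝔓.p : ℤ) ∣ (m : ℤ) * k := by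
    intro hdvd
    rcases (Nat.prime_iff_prime_int.mp hp).dvd_or_dvd hdvd with h1 | h1
    · exact hpm h1
    · exact hpk h1
  refine ⟨v₀, w, a, X, hv₀0, ?_, ?_, haI, hX0, ⟨(m : ℤ) * k, ?_, hpn⟩, ?_⟩
  · intro c hc
    exact hwT (by rw [hc]; exact ZMod.smul_mem hv₀T c)
  · -- the decomposition group
    intro σ hσ
    have hσv : σ • v₀ ∈ Tp := by
      show σ • v₀.1 ∈ hN.ker hp2
      exact hN.smul_mem_ker hp2 hσ hv₀T
    obtain ⟨x, hx⟩ := hspan _ hσv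
    obtain ⟨z, hz, hstr⟩ := hN.strict_sub_mem_ker hp2 hσ
    have hstr' := hstr 1 w.1 (by rw [pow_one]; exact htors w)
    rcases hz with rfl | rfl
    · have hmem : σ • w - w ∈ Tp := by
        show σ • w.1 - w.1 ∈ hN.ker hp2
        rwa [one_zsmul] at hstr'
      obtain ⟨c, hc⟩ := hspan _ hmem
      refine ⟨x, 1, c, by ring, hx, ?_⟩
      rw [one_smul, ← hc]
      abel
    · have hmem : σ • w + w ∈ Tp := by
        show σ • w.1 + w.1 ∈ hN.ker hp2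
        rwa [neg_one_zsmul, sub_neg_eq_add] at hstr'
      obtain ⟨c, hc⟩ := hspan _ hmem
      refine ⟨x, -1, c, by ring, hx, ?_⟩
      rw [neg_one_smul, ← hc]
      abel
  · -- the order of `X`
    rw [hX.2]
    push_cast
    field_simp
    linarith
  · -- the inertia elements fixing `ζ`
    intro ι hι ζ hζ hιζ
    have hfix : ι e₁ = e₁ := hN.fix₁_of_zeta hp2 (m := m) (by ring) hζ hι hιζ
    obtain ⟨h', e'⟩ := (mltpg_phi_smul W hfix w.1).2 X Y hXY hQ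
    have hιw : ι • w.1 = w.1 + (a ι • v₀).1 := by
      have := congrArg Subtype.val (haI ι hι)
      exact this
    by_cases ha0 : a ι = 0
    · have hιw' : ι • w.1 = w.1 := by rw [hιw, ha0, zero_smul]; simp
      rw [hιw', hQ, Point.some.injEq] at e'
      have hιX : ι X = X := e'.1.symm
      refine ⟨fun _ => hιX, ?_⟩
      rw [hιX, div_self hX0, sub_self]
      exact Or.inl rfl
    · refine ⟨fun h0 => absurd h0 ha0, ?_⟩
      set R : ((s58E W)⁄Qb).Point := (a ι • v₀).1 with hR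
      have hRk : R ∈ hN.ker hp2 := ZMod.smul_mem hv₀T (a ι)
      have hRp : 𝔓.p • R = 0 := htors _
      have hR0 : R ≠ 0 := by
        intro h0
        have : a ι • v₀ = 0 := Subtype.ext h0
        rcases smul_eq_zero.mp this with h3 | h3
        · exact ha0 h3
        · exact hv₀0 h3
      obtain ⟨xR, yR, hxyR, eR, hltR, hdepth⟩ := hN.depth_ker hΔ hp2 hh hRk hRp hR0
      obtain ⟨X₃, Y₃, h₃, hsum, hratio⟩ :=
        mltpg_ratio_add hW hN.is_a hN.is_b hN.pos h2 hXY hxyR hj0 hjh hX hltR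
      have e3 : mltpgPhi W e₁ (ι • w.1) = Point.some X₃ Y₃ h₃ := by
        rw [hιw, map_add, hQ, eR, hsum]
      rw [e3, Point.some.injEq] at e'
      rw [← e'.1]
      exact hratio.ge' hdepth

end Main

end Fermat.Agent.MLT
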