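/-
MLT / [AtPG] (helper5): **the break step for "très ramifié"** (pure local fields).

Let `𝔓` be a place of `ℚ̄` over `p ≥ 3`, `ζ` a primitive `p`-th root of unity, `a` a function on
`G_ℚ` and `y` an exact Kummer generator of `a` on the inertia group (`ι y = ζ ^ (a ι) * y`).
Suppose that some `s ≠ 0` with `ord s = n / p`, `p ∤ n`, is fixed by the `ι ∈ I` with `ι ζ = ζ`,
`a ι = 0`, and is moved little by all `ι ∈ I` fixing `ζ`: `ord (ι s / s - 1) > 1 / (p (p - 1))`.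
Then `p ∤ ord (y ^ p)` (`mltpg_break`).

Proof: otherwise, dividing `y` by an element of `K0`, `y ^ p = 1 + p z` with `z ∈ W`.  If `z` is not
a unit then `y ∈ K0 · μ_p`, so `s ∈ K0(ζ)` and `(p - 1) ord s ∈ ℤ`: absurd.  If `z` is a unit then
`K0(ζ, y)` is totally ramified of degree `p` over `K0(ζ)` with break `1`: for its uniformiser `ϖ'`
(`ord ϖ' = 1/(p(p-1))`), `ord (τ ϖ' / ϖ' - 1) = 1/(p(p-1))` (`lf_kummer_unit`), hence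
`ord (τ s / s - 1) = 1/(p(p-1))` for every `s ∈ K0(ζ, y)` with `ord s ∉ (1/(p-1)) ℤ`
(`mltpg_is_ratio_of_unif`): absurd.
-/
import Fermat.Agent.Lib.TW.Kum.Generator
import Fermat.Agent.Lib.TW.LF.KummerBreak
import Fermat.Agent.Lib.TW.LF.Tame

set_option autoImplicit false
set_option linter.unusedSectionVars false
set_option linter.unusedVariables false
set_option linter.style.haveILetI false

namespace Fermat.Agent.MLT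

open Fermat.Agent.TW Fermat.Agent.S05Lib
open Fermat.Agent.TW.FFPlace

local notation "Qb" => AlgebraicClosure ℚ
local notation "GQ" => (AlgebraicClosure ℚ ≃ₐ[ℚ] AlgebraicClosure ℚ)

section Break

variable (𝔓 : FFPlace)

/-- an element fixed by the inertia elements fixing `ζ` lies in `K0(ζ)` -/
theorem mltpg_mem_adjoin_zeta {ζ x : Qb} (h : ∀ ι ∈ 𝔓.I, ι ζ = ζ → ι x = x) :
    x ∈ lfAdjoin 𝔓.K0 ζ := by
  rw [lf_mem_iff_forall]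
  intro σ hσ
  rw [lf_mem_fixingSubgroup_adjoin_iff] at hσ
  have hσI : σ ∈ 𝔓.I := by rw [← 𝔓.lf_fixingSubgroup_K0]; exact hσ.1
  exact h σ hσI hσ.2

/-- an element of valuation `n / p`, `p ∤ n`, does not lie in `K0(ζ)` -/
theorem mltpg_not_mem_adjoin_zeta {ζ s : Qb} (hζ : IsPrimitiveRoot ζ 𝔓.p) (hs0 : s ≠ 0) {n : ℤ}
    (hn : 𝔓.v.ord s = (n : ℚ) / 𝔓.p) (hpn : ¬ (𝔓.p : ℤ) ∣ n) : s ∉ lfAdjoin 𝔓.K0 ζ := by
  intro hmem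
  have hp := 𝔓.hp
  obtain ⟨hunif, -⟩ := lf_unif_adjoin_zeta (𝔓 := 𝔓) hζ
  obtain ⟨k, hk⟩ := hunif.gen s hmem hs0
  have hz := (𝔓.lf_is_zeta_sub_one hζ).2
  rw [hz, hn] at hk
  have hp1 : (1 : ℚ) < 𝔓.p := by exact_mod_cast hp.one_lt
  have hp0 : (𝔓.p : ℚ) ≠ 0 := by linarith
  have hp1' : (𝔓.p : ℚ) - 1 ≠ 0 := by linarith
  have h1 : (n : ℚ) * ((𝔓.p : ℚ) - 1) = k * 𝔓.p := by
    field_simp at hk
    linarith
  have h2 : n * ((𝔓.p : ℤ) - 1) = k * 𝔓.p := by exact_mod_cast h1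
  have h3 : (𝔓.p : ℤ) ∣ n * ((𝔓.p : ℤ) - 1) := ⟨k, by rw [h2]; ring⟩
  have hpz := Nat.prime_iff_prime_int.mp hp
  rcases hpz.dvd_or_dvd h3 with h4 | h4
  · exact hpn h4
  · have h5 : (𝔓.p : ℤ) ∣ 1 := by
      have h6 := dvd_sub (dvd_refl (𝔓.p : ℤ)) h4
      simpa using h6
    exact hpz.not_isUnit (isUnit_of_dvd_one h5)

/-- `v((1+ε)^k - 1) = v(ε)` for `v(ε) > 0` and an integer exponent `k` prime to `p` -/
theorem mltpg_is_one_add_zpow_sub_one {ε : Qb} {c : ℚ} (hε : 𝔓.v.Is ε c) (hc : 0 < c) {k : ℤ}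
    (hk : ¬ (𝔓.p : ℤ) ∣ k) : 𝔓.v.Is ((1 + ε) ^ k - 1) c := by
  have h1 : 𝔓.v.Is (1 + ε) 0 := QVal.is_one.add_gt (hε.gt hc)
  rcases Int.eq_nat_or_neg k with ⟨r, rfl | rfl⟩
  · rw [zpow_natCast]
    exact 𝔓.lf_is_one_add_pow_sub_one hε hc (fun h => hk (by exact_mod_cast h))
  · have hr : ¬ 𝔓.p ∣ r := by
      intro h
      apply hk
      rw [dvd_neg]
      exact_mod_cast h
    have h2 := 𝔓.lf_is_one_add_pow_sub_one hε hc hr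
    have h3 : 𝔓.v.Is ((1 + ε) ^ r) 0 := by
      have := h1.pow r
      rwa [mul_zero] at this
    have e : (1 + ε) ^ (-(r : ℤ)) - 1 = -(((1 + ε) ^ r - 1) / (1 + ε) ^ r) := by
      rw [zpow_neg, zpow_natCast, sub_div, div_self h3.1, neg_sub, one_div]
    rw [e]
    have := (h2.div h3).neg
    rwa [sub_zero] at this

/-- in a field `M ⊇ K0` with uniformiser `ϖ` on which `τ ∈ I` has break `d`
(`v(τ ϖ - ϖ) = v(ϖ) + d`), every element whose valuation is `k · v(ϖ)` with `p ∤ k` satisfies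
`v(τ s / s - 1) = d` -/
theorem mltpg_is_ratio_of_unif {M : IntermediateField ℚ Qb} {ϖ : Qb} (h : 𝔓.LFUnif M ϖ)
    (hM : 𝔓.K0 ≤ M) {τ : GQ} (hτ : τ ∈ 𝔓.I) {d : ℚ} (hd : 0 < d)
    (hbr : 𝔓.v.Is (τ ϖ - ϖ) (𝔓.v.ord ϖ + d)) {s : Qb} (hs : s ∈ M) (hs0 : s ≠ 0) {k : ℤ}
    (hk : 𝔓.v.ord s = k * 𝔓.v.ord ϖ) (hpk : ¬ (𝔓.p : ℤ) ∣ k) : 𝔓.v.Is (τ s / s - 1) d := by
  have hτD := 𝔓.I_le_D hτ
  have hcpos := h.pos
  set c := 𝔓.v.ord ϖ with hc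
  have hϖ : 𝔓.v.Is ϖ c := h.is
  set ε := τ ϖ / ϖ - 1 with hε
  have hεis : 𝔓.v.Is ε d := by
    have e : ε = (τ ϖ - ϖ) / ϖ := by rw [hε, sub_div, div_self h.ne_zero]
    rw [e]
    exact (hbr.div hϖ).congr (by ring)
  set r := s / ϖ ^ k with hr
  have hϖk : 𝔓.v.Is (ϖ ^ k) (k * c) := 𝔓.lf_is_zpow hϖ k
  have hris : 𝔓.v.Is r 0 := by
    have := (QVal.Is.div (v := 𝔓.v) ⟨hs0, hk⟩ hϖk)
    rwa [sub_self] at this
  have hrM : r ∈ M := div_mem hs (zpow_mem h.mem k)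
  have hτr : 𝔓.v.Ge (τ r - r) (c + d) := lf_ge_sub h hM hτ hbr.ge hrM hris.ge
  have hτris : 𝔓.v.Is (τ r) 0 := 𝔓.is_D hτD hris
  have hs_eq : s = ϖ ^ k * r := by rw [hr, mul_div_cancel₀ _ hϖk.1]
  have e1 : τ s / s = (1 + ε) ^ k * (τ r / r) := by
    have h1 : 1 + ε = τ ϖ / ϖ := by rw [hε]; ring
    rw [h1, div_zpow, ← mul_div_mul_comm, ← map_zpow₀, ← map_mul, ← hs_eq]
  have e2 : τ s / s - 1 = ((1 + ε) ^ k - 1) * (τ r / r) + (τ r - r) / r := by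
    rw [e1, sub_div, div_self hris.1]; ring
  rw [e2]
  have h1 : 𝔓.v.Is (((1 + ε) ^ k - 1) * (τ r / r)) d := by
    have := (mltpg_is_one_add_zpow_sub_one 𝔓 hεis hd hpk).mul (hτris.div hris)
    exact this.congr (by ring)
  have h2 : 𝔓.v.Gt ((τ r - r) / r) d := by
    have := hτr.div_is hris
    exact this.gt (by linarith)
  exact h1.add_gt h2

/-- **the break step**: an exact Kummer generator `y` of `a` on the inertia group has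
`p ∤ ord (y ^ p)` as soon as some `s` of valuation `n / p`, `p ∤ n`, is fixed by the `ι ∈ I` with
`ι ζ = ζ`, `a ι = 0` and moved by less than the break by the `ι ∈ I` with `ι ζ = ζ` -/
theorem mltpg_break (hp3 : 3 ≤ 𝔓.p) {ζ : Qb} (hζ : IsPrimitiveRoot ζ 𝔓.p)
    {a : GQ → ZMod 𝔓.p} {y : Qb} (hy : 𝔓.TkGen ζ a y)
    {s : Qb} (hs0 : s ≠ 0) {n : ℤ} (hn : 𝔓.v.ord s = (n : ℚ) / 𝔓.p) (hpn : ¬ (𝔓.p : ℤ) ∣ n)
    (hfix : ∀ ι ∈ 𝔓.I, ι ζ = ζ → a ι = 0 → ι s = s)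
    (hclose : ∀ ι ∈ 𝔓.I, ι ζ = ζ →
      𝔓.v.Gt (ι s / s - 1) (1 / ((𝔓.p : ℚ) * ((𝔓.p : ℚ) - 1)))) :
    ∃ m : ℤ, 𝔓.v.Is (y ^ 𝔓.p) m ∧ ¬ (𝔓.p : ℤ) ∣ m := by
  have hp := 𝔓.hp
  have hζp := hζ.pow_eq_one
  have hU := 𝔓.lf_unr
  have hpz := Nat.prime_iff_prime_int.mp hp
  have hp1 : (1 : ℚ) < 𝔓.p := by exact_mod_cast hp.one_lt
  have hp0 : (0 : ℚ) < 𝔓.p := by linarith
  have hp1' : (0 : ℚ) < (𝔓.p : ℚ) - 1 := by linarith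
  have hcast : (((𝔓.p - 1 : ℕ) : ℚ)) = (𝔓.p : ℚ) - 1 := by
    rw [Nat.cast_sub hp.one_lt.le]; simp
  have hyK := hy.pow_mem_K0 hζp
  have hy0 := hy.pow_ne_zero
  obtain ⟨m, z, hzW, s₀, hs₀K, hs₀0, hrep⟩ := 𝔓.tkRep_exists hyK hy0
  obtain ⟨m₀, hm₀⟩ := hU s₀ hs₀K hs₀0
  have hzge := 𝔓.tk_ge_of_mem_W hzW
  have hA := 𝔓.tk_is_one_add_p_mul hzge
  have hord : 𝔓.v.Is (y ^ 𝔓.p) ((m + 𝔓.p * m₀ : ℤ) : ℚ) := by
    rw [hrep]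
    have := ((𝔓.lf_is_zpow 𝔓.is_p m).mul (QVal.Is.pow ⟨hs₀0, hm₀⟩ 𝔓.p)).mul hA
    refine this.congr ?_
    push_cast; ring
  refine ⟨m + 𝔓.p * m₀, hord, fun hdvd => ?_⟩
  have hpm : (𝔓.p : ℤ) ∣ m := (dvd_add_left (dvd_mul_right _ _)).mp hdvd
  obtain ⟨j, hj⟩ := hpm
  -- the normalised generator
  set q : Qb := (𝔓.p : Qb) ^ j * s₀ with hq
  have hqK : q ∈ 𝔓.K0 := mul_mem (zpow_mem (𝔓.tk_natCast_mem_K0 _) j) hs₀K
  have hq0 : q ≠ 0 := mul_ne_zero (zpow_ne_zero _ 𝔓.p_ne_zero) hs₀0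
  set y₂ := y / q with hy₂
  have hy₂gen : 𝔓.TkGen ζ a y₂ := by
    refine ⟨div_ne_zero hy.1 hq0, fun ι hι => ?_⟩
    rw [hy₂, map_div₀, hy.2 ι hι, (𝔓.mem_K0_iff q).1 hqK ι hι, mul_div_assoc]
  set u : Qb := 1 + (𝔓.p : Qb) * z with hu
  have hy₂p : y₂ ^ 𝔓.p = u := by
    have hqp : q ^ 𝔓.p = (𝔓.p : Qb) ^ m * s₀ ^ 𝔓.p := by
      rw [hq, mul_pow, hj, ← zpow_natCast ((𝔓.p : Qb) ^ j), ← zpow_mul, mul_comm j]
    rw [hy₂, div_pow, hrep, hqp]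
    exact mul_div_cancel_left₀ _ (mul_ne_zero (zpow_ne_zero _ 𝔓.p_ne_zero)
      (pow_ne_zero _ hs₀0))
  -- `s` is not in `K0(ζ)`, hence some `τ ∈ I` fixes `ζ` and has `a τ ≠ 0`
  have hsnot := mltpg_not_mem_adjoin_zeta 𝔓 hζ hs0 hn hpn
  have hex : ∃ τ ∈ 𝔓.I, τ ζ = ζ ∧ a τ ≠ 0 := by
    by_contra hcon
    push Not at hcon
    exact hsnot (mltpg_mem_adjoin_zeta 𝔓
      (fun ι hι hιζ => hfix ι hι hιζ (hcon ι hι hιζ)))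
  obtain ⟨τ, hτI, hτζ, haτ⟩ := hex
  have hτy : τ y₂ ≠ y₂ := by
    rw [hy₂gen.2 τ hτI]
    intro h
    have h1 : lfZPow ζ (a τ) = 1 :=
      mul_right_cancel₀ hy₂gen.1 (h.trans (one_mul y₂).symm)
    exact haτ ((lfZPow_eq_one_iff hζ _).mp h1)
  have huK : u ∈ 𝔓.K0 :=
    add_mem (one_mem _) (mul_mem (𝔓.tk_natCast_mem_K0 _) (𝔓.K0_of_W hzW))
  -- `z` is a unit: otherwise `y₂ ∈ K0 · μ_p`
  have hzis : 𝔓.v.Is z 0 := by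
    rcases 𝔓.v.le_or_gt z 0 with hle | hgt
    · exact ⟨hle.1, le_antisymm hle.2 (hzge.resolve_left hle.1)⟩
    · exfalso
      have hz1 : 𝔓.v.Ge z 1 := hU.ge_one (𝔓.K0_of_W hzW) hgt
      have hpz2 : 𝔓.v.Ge (u - 1) 2 := by
        rw [hu, add_sub_cancel_left]
        have := 𝔓.is_p.ge.mul hz1
        norm_num at this
        exact this
      obtain ⟨t, htK, htp, -⟩ := 𝔓.tk_exists_root hp3 huK hpz2
      have ht0 : t ≠ 0 := by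
        rintro rfl
        rw [zero_pow hp.ne_zero] at htp
        exact hA.1 htp.symm
      have h1 : (y₂ / t) ^ 𝔓.p = 1 := by
        rw [div_pow, hy₂p, htp, div_self hA.1]
      obtain ⟨j', hj'⟩ := lf_exists_eq_lfZPow hζ h1
      have hy₂e : y₂ = lfZPow ζ j' * t := by rw [← hj', div_mul_cancel₀ _ ht0]
      apply hτy
      rw [hy₂e, map_mul, (𝔓.mem_K0_iff t).1 htK τ hτI]
      unfold lfZPow
      rw [map_pow, hτζ]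
  -- the Kummer break of `K0(ζ, y₂) / K0(ζ)`
  obtain ⟨hπ, he⟩ := lf_unif_adjoin_zeta (𝔓 := 𝔓) hζ
  set E : IntermediateField ℚ Qb := lfAdjoin 𝔓.K0 ζ with hE
  have hK0E : 𝔓.K0 ≤ E := lf_le_adjoin _ ζ
  have hi : ¬ 𝔓.p ∣ 𝔓.p - 1 := by
    intro h
    have := Nat.le_of_dvd (Nat.sub_pos_of_lt hp.one_lt) h
    have := hp.one_lt
    omega
  have hi0 : 0 < 𝔓.p - 1 := Nat.sub_pos_of_lt hp.one_lt
  have hui : 𝔓.v.Is (u - 1) (((𝔓.p - 1 : ℕ) : ℚ) / ((𝔓.p - 1 : ℕ) : ℚ)) := by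
    rw [hu, add_sub_cancel_left, hcast, div_self hp1'.ne']
    have := 𝔓.is_p.mul hzis
    rwa [add_zero] at this
  have hlt : ((𝔓.p - 1 : ℕ) : ℚ) / ((𝔓.p - 1 : ℕ) : ℚ) < (𝔓.p : ℚ) / ((𝔓.p : ℚ) - 1) := by
    rw [hcast, div_self hp1'.ne', lt_div_iff₀ hp1']
    linarith
  obtain ⟨ϖ', hunif, hϖis, hbreak⟩ :=
    lf_kummer_unit hπ he (hK0E huK) hy₂p hi hi0 hui hlt
  have hτE : τ ∈ E.fixingSubgroup := by
    rw [hE, lf_mem_fixingSubgroup_adjoin_iff]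
    exact ⟨by rw [𝔓.lf_fixingSubgroup_K0]; exact hτI, hτζ⟩
  have hbr := hbreak τ hτE hτy
  have hM : 𝔓.K0 ≤ lfAdjoin E y₂ := hK0E.trans (lf_le_adjoin E y₂)
  -- `s ∈ K0(ζ, y₂)`
  have hsM : s ∈ lfAdjoin E y₂ := by
    rw [lf_mem_iff_forall]
    intro σ hσ
    rw [lf_mem_fixingSubgroup_adjoin_iff, hE, lf_mem_fixingSubgroup_adjoin_iff] at hσ
    obtain ⟨⟨hσK, hσζ⟩, hσy⟩ := hσ
    have hσI : σ ∈ 𝔓.I := by rw [← 𝔓.lf_fixingSubgroup_K0]; exact hσK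
    refine hfix σ hσI hσζ ?_
    have h1 := hy₂gen.2 σ hσI
    rw [hσy] at h1
    have h2 : lfZPow ζ (a σ) = 1 :=
      mul_right_cancel₀ hy₂gen.1 (h1.symm.trans (one_mul y₂).symm)
    exact (lfZPow_eq_one_iff hζ _).mp h2
  obtain ⟨k, hk⟩ := hunif.gen s hsM hs0
  have hordϖ : 𝔓.v.ord ϖ' = 1 / ((𝔓.p : ℚ) * ((𝔓.p : ℚ) - 1)) := by
    rw [hϖis.2, hcast]
  have hpk : ¬ (𝔓.p : ℤ) ∣ k := by
    intro hdvd
    rw [hordϖ, hn] at hk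
    have h1 : (n : ℚ) * ((𝔓.p : ℚ) - 1) = k := by
      field_simp at hk
      linarith
    have h2 : n * ((𝔓.p : ℤ) - 1) = k := by exact_mod_cast h1
    rw [← h2] at hdvd
    rcases hpz.dvd_or_dvd hdvd with h4 | h4
    · exact hpn h4
    · have h5 : (𝔓.p : ℤ) ∣ 1 := by
        have h6 := dvd_sub (dvd_refl (𝔓.p : ℤ)) h4
        simpa using h6
      exact hpz.not_isUnit (isUnit_of_dvd_one h5)
  have hdpos : (0 : ℚ) < 1 / ((𝔓.p : ℚ) * ((𝔓.p : ℚ) - 1)) := by positivity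
  have hbr' : 𝔓.v.Is (τ ϖ' - ϖ')
      (𝔓.v.ord ϖ' + 1 / ((𝔓.p : ℚ) * ((𝔓.p : ℚ) - 1))) := by
    refine hbr.congr ?_
    rw [hordϖ, hcast]
    field_simp
    ring
  have hfinal := mltpg_is_ratio_of_unif 𝔓 hunif hM hτI hdpos hbr' hsM hs0 hk hpk
  exact hfinal.not_gt (hclose τ hτI hτζ) le_rfl

end Break

end Fermat.Agent.MLT
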