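/-
MLT / [AtPG] (helper5): **`W[p]` is "très ramifié" at `p`** when `W` is multiplicative at `p` odd and
`p ∤ ord_p Δ` (case C), in the exact-Kummer-generator form consumed by the TWO stream
(`MltoTres`).

`MltpgTres W 𝔓` : `v₀ ∈ T[p]`, `w ∈ W[p] ∖ T[p]`, a primitive `p`-th root of unity `ζ`, the cocycle
`a` (`ι w = w + a(ι) v₀` on inertia) and an EXACT Kummer generator `y` of `a` on the whole inertia
group (`ι y = ζ ^ a(ι) · y`) with `p ∤ ord (y ^ p)`.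

* `mltpg_tres_of_input` : from the node-parameter input `MltpgTresInput` (`Tres.lean`): the inertia
  group acts on `v₀` through the cyclotomic character (determinant, `s58d_det_cyclo`), hence `a` is
  an `ω`-cocycle of finite level and has an exact generator (Hilbert 90, `tkGen_exists`); the break
  step (`mltpg_break`, `TresBreak.lean`) gives `p ∤ ord (y ^ p)`;
* `mltpg_tres`, `mltpg_tres_all` : the final statements.
-/
import Mathlib
import Fermat.Agent.Lib.Delta.Peu.Det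
import Fermat.Agent.Lib.MLT.AtPG.Tres
import Fermat.Agent.Lib.MLT.AtPG.TresBreak

set_option autoImplicit false
set_option linter.unusedSectionVars false
set_option linter.unusedVariables false
set_option linter.style.haveILetI false

open WeierstrassCurve WeierstrassCurve.Affine

namespace Fermat.Agent.MLT

open Fermat.Agent.S05Lib Fermat.Agent.TW Fermat.Agent.Delta Fermat.Agent.S58 Fermat.Agent.LR
open Fermat.Agent.TW.FFPlace

local notation "Qb" => AlgebraicClosure ℚ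
local notation "GQ" => (AlgebraicClosure ℚ ≃ₐ[ℚ] AlgebraicClosure ℚ)

/-- **"très ramifié"**, exact-Kummer-generator form -/
def MltpgTres (W : WeierstrassCurve ℤ) (𝔓 : FFPlace) : Prop :=
  ∃ (v₀ w : S58Tors W 𝔓.p) (ζ : Qb) (a : GQ → ZMod 𝔓.p) (y : Qb),
    v₀ ≠ 0 ∧ (∀ c : ZMod 𝔓.p, w ≠ c • v₀) ∧ IsPrimitiveRoot ζ 𝔓.p ∧
    (∀ σ ∈ 𝔓.P.decompositionSubgroup ℚ, ∃ x z c : ZMod 𝔓.p,
      z * z = 1 ∧ σ • v₀ = x • v₀ ∧ σ • w = z • w + c • v₀) ∧
    (∀ ι ∈ 𝔓.P.inertiaSubgroupIn ℚ, ι • w = w + a ι • v₀ ∧ ι y = ζ ^ (a ι).val * y) ∧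
    y ≠ 0 ∧ ∃ n : ℤ, 𝔓.v.Is (y ^ 𝔓.p) n ∧ ¬ (𝔓.p : ℤ) ∣ n

variable (W : WeierstrassCurve ℤ)

/-- from the node-parameter input to the exact-generator form -/
theorem mltpg_tres_of_input (hΔ : W.Δ ≠ 0) (𝔓 : FFPlace) (hp2 : 𝔓.p ≠ 2)
    (h : MltpgTresInput W 𝔓) : MltpgTres W 𝔓 := by
  classical
  have hp := 𝔓.hp
  haveI : Fact 𝔓.p.Prime := ⟨hp⟩
  haveI : NeZero 𝔓.p := ⟨hp.ne_zero⟩
  have hp3 : 3 ≤ 𝔓.p := by
    have := hp.two_le
    omega
  obtain ⟨v₀, w, a, s, hv₀, hw, hD, hI, hs0, ⟨n, hn, hpn⟩, hclose⟩ := h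
  obtain ⟨ζ, hζ⟩ := HasEnoughRootsOfUnity.exists_primitiveRoot Qb 𝔓.p
  have hζp := hζ.pow_eq_one
  haveI : Finite (S58Tors W 𝔓.p) := s58d_finite_tors W hΔ hp.pos
  -- cancellation
  have hcancel : ∀ c c' : ZMod 𝔓.p, c • v₀ = c' • v₀ → c = c' := by
    intro c c' hcc
    have h2 : (c - c') • v₀ = 0 := by rw [sub_smul, hcc, sub_self]
    rcases smul_eq_zero.mp h2 with h3 | h3
    · exact sub_eq_zero.mp h3
    · exact absurd h3 hv₀
  -- `(w, v₀)` is a basis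
  have hbasis : ∀ x : S58Tors W 𝔓.p, ∃ α β : ZMod 𝔓.p, x = α • w + β • v₀ := by
    have hinj : Function.Injective
        (fun c : ZMod 𝔓.p × ZMod 𝔓.p => c.1 • w + c.2 • v₀) := by
      rintro ⟨α, β⟩ ⟨α', β'⟩ hcc
      simp only at hcc
      have h1 : (α - α') • w = (β' - β) • v₀ := by
        linear_combination (norm := module) hcc
      by_cases hα : α = α'
      · subst hα
        rw [sub_self, zero_smul] at h1
        have h2 : β' = β := by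
          apply hcancel
          have h3 : (β' - β) • v₀ = 0 := h1.symm
          rw [sub_smul, sub_eq_zero] at h3
          exact h3
        rw [h2]
      · exfalso
        have h2 : w = ((α - α')⁻¹ * (β' - β)) • v₀ := by
          rw [mul_smul, ← h1, inv_smul_smul₀ (sub_ne_zero.mpr hα)]
        exact hw _ h2
    have hbij := hinj.bijective_of_nat_card_le (by
      rw [Nat.card_prod, Nat.card_zmod, s58l_natCard_tors W hΔ hp.pos, sq])
    intro x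
    obtain ⟨⟨α, β⟩, hc⟩ := hbij.2 x
    exact ⟨α, β, hc.symm⟩
  -- linearity of the Galois action
  have hlin : ∀ (σ : GQ) (c : ZMod 𝔓.p) (x : S58Tors W 𝔓.p), σ • (c • x) = c • (σ • x) :=
    fun σ c x => (s58Gal W 𝔓.p σ).map_smul c x
  -- the character `ω`
  have hIx : ∀ ι ∈ 𝔓.P.inertiaSubgroupIn ℚ, ∃ x : ZMod 𝔓.p, ι • v₀ = x • v₀ := by
    intro ι hι
    obtain ⟨x, z, c, -, hx, -⟩ := hD ι (𝔓.I_le_D hι)
    exact ⟨x, hx⟩
  set ω : GQ → ZMod 𝔓.p := fun σ =>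
    if h : ∃ x : ZMod 𝔓.p, σ • v₀ = x • v₀ then h.choose else 0 with hω
  have hωI : ∀ ι ∈ 𝔓.P.inertiaSubgroupIn ℚ, ι • v₀ = ω ι • v₀ := by
    intro ι hι
    have hex := hIx ι hι
    rw [hω]
    simp only [dif_pos hex]
    exact hex.choose_spec
  -- `ω` is the cyclotomic character on inertia (determinant)
  have hωζ : ∀ ι ∈ 𝔓.I, ι ζ = lfZPow ζ (ω ι) := by
    intro ι hι
    have hdet : LinearMap.det (s58Gal W 𝔓.p ι) = (((ω ι).val : ℕ) : ZMod 𝔓.p) := by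
      rw [ZMod.natCast_zmod_val]
      refine dlp_det_eq_of_line (s58Gal W 𝔓.p ι) (Submodule.span (ZMod 𝔓.p) {v₀})
        (finrank_span_singleton hv₀) (ω ι) ?_ ?_
      · intro x hx
        obtain ⟨c, rfl⟩ := Submodule.mem_span_singleton.mp hx
        show ι • (c • v₀) = ω ι • c • v₀
        rw [hlin, hωI ι hι, smul_comm]
      · intro x
        obtain ⟨α, β, rfl⟩ := hbasis x
        show ι • (α • w + β • v₀) - (α • w + β • v₀) ∈ _
        rw [smul_add, hlin, hlin, hI ι hι, hωI ι hι]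
        have e : α • (w + a ι • v₀) + β • ω ι • v₀ - (α • w + β • v₀) =
            (α * a ι + β * ω ι - β) • v₀ := by module
        rw [e]
        exact Submodule.smul_mem _ _ (Submodule.mem_span_singleton_self v₀)
    exact s58d_det_cyclo W hΔ (s58_et W hΔ) hp (pow_one 𝔓.p).symm ι _ hdet ζ hζp
  -- the cocycle relation
  have hcoc : ∀ σ ∈ 𝔓.I, ∀ τ ∈ 𝔓.I, a (σ * τ) = a σ + ω σ * a τ := by
    intro σ hσ τ hτ
    apply hcancel
    have h1 := hI (σ * τ) (𝔓.I.mul_mem hσ hτ)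
    rw [mul_smul, hI τ hτ, smul_add, hlin, hI σ hσ, hωI σ hσ] at h1
    apply add_left_cancel (a := w)
    rw [← h1]
    module
  -- finite level
  obtain ⟨L, hLfin, -, hL⟩ := lre_exists_level (s58E W) 𝔓.p
  have hlev : ∀ σ ∈ 𝔓.I, ∀ τ ∈ 𝔓.I, (∀ x ∈ L, σ x = τ x) → a σ = a τ := by
    intro σ hσ τ hτ hag
    apply hcancel
    have h1 := lre_smul_eq_of_agree hL hag w
    rw [hI σ hσ, hI τ hτ] at h1
    exact add_left_cancel h1
  -- the exact generator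
  obtain ⟨y, hy⟩ := 𝔓.tkGen_exists hζ ω hωζ a hcoc L hLfin hlev
  have hp1 : (1 : ℚ) < 𝔓.p := by exact_mod_cast hp.one_lt
  have hbreak := mltpg_break 𝔓 hp3 hζ hy hs0 hn hpn
    (fun ι hι hιζ h0 => (hclose ι hι ζ hζ hιζ).1 h0)
    (fun ι hι hιζ => (hclose ι hι ζ hζ hιζ).2.gt (by
      have h1 : (0 : ℚ) < (𝔓.p : ℚ) - 1 := by linarith
      rw [div_lt_div_iff₀ (by positivity) h1]
      nlinarith))
  exact ⟨v₀, w, ζ, a, y, hv₀, hw, hζ, hD, fun ι hι => ⟨hI ι hι, hy.2 ι hι⟩, hy.1, hbreak⟩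

/-- **`W[p]` is très ramifié at `𝔓`**: `W` multiplicative at `p` odd with `p ∤ ord_p Δ` -/
theorem mltpg_tres (hΔ : W.Δ ≠ 0) (𝔓 : FFPlace) (hp2 : 𝔓.p ≠ 2)
    (hpΔ : (𝔓.p : ℤ) ∣ W.Δ) (hc₄ : ¬ (𝔓.p : ℤ) ∣ W.c₄)
    (hnot : ¬ (s58E W).IsPeuRamifieeAt 𝔓.p 𝔓.p) : MltpgTres W 𝔓 :=
  mltpg_tres_of_input W hΔ 𝔓 hp2 (mltpg_tresInput W hΔ 𝔓 hp2 hpΔ hc₄ hnot)

/-- the same statement at all places over `p`, in the literal shape of `MltoTres` -/
theorem mltpg_tres_all (hΔ : W.Δ ≠ 0) (p : ℕ) [Fact p.Prime] (hp2 : p ≠ 2)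
    (hpΔ : (p : ℤ) ∣ W.Δ) (hc₄ : ¬ (p : ℤ) ∣ W.c₄)
    (hnot : ¬ (s58E W).IsPeuRamifieeAt p p) :
    ∀ P : ValuationSubring Qb, ∀ hP : P.LiesOverPrime p,
      ∃ (v₀ w : S58Tors W p) (ζ : Qb) (a : GQ → ZMod p) (y : Qb),
        v₀ ≠ 0 ∧ (∀ c : ZMod p, w ≠ c • v₀) ∧ IsPrimitiveRoot ζ p ∧
        (∀ σ ∈ P.decompositionSubgroup ℚ, ∃ x z c : ZMod p,
          z * z = 1 ∧ σ • v₀ = x • v₀ ∧ σ • w = z • w + c • v₀) ∧
        (∀ ι ∈ P.inertiaSubgroupIn ℚ, ι • w = w + a ι • v₀ ∧ ι y = ζ ^ (a ι).val * y) ∧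
        y ≠ 0 ∧ ∃ n : ℤ, (FFPlace.mk P p Fact.out hP).v.Is (y ^ p) n ∧ ¬ (p : ℤ) ∣ n :=
  fun P hP => mltpg_tres W hΔ (FFPlace.mk P p Fact.out hP) hp2 hpΔ hc₄ hnot

end Fermat.Agent.MLT
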